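import Fermat.Agent.S16x.Low.H23_LiftDefs
import Fermat.Agent.S22.GammaFG
import Fermat.Agent.S21.H10_ParBoundSL2
import Fermat.Agent.S21
import Fermat.Agent.S21.H19_FinDim
import Fermat.Agent.S20

/-!
# S16, package LOW, leaf (L2): lifting homomorphisms `Γ₀(N) → ℤ / m` (helper23)

`h23_lift`: if the characteristic-`l` parabolic bound `StL2b N l` holds for every prime `l ∣ m`,
then every homomorphism `Γ₀(N) → ℤ / m` killing all elements with `trace ^ 2 ≤ 4` is the reduction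
modulo `m` of a parabolic homomorphism `Γ₀(N) → ℤ`.
-/

set_option autoImplicit false
set_option linter.style.haveILetI false

open CongruenceSubgroup ModularCurve Module
open scoped MatrixGroups

namespace Fermat.Agent.S16x.Low.H23

/-- Cayley-Hamilton for `2 × 2` matrices of determinant one. -/
theorem sq_eq_trace_smul_sub_one (A : Matrix (Fin 2) (Fin 2) ℤ) (hA : A.det = 1) :
    A * A = A.trace • A - 1 := by
  rw [Matrix.det_fin_two] at hA
  ext i j
  fin_cases i <;> fin_cases j <;>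
    simp [Matrix.mul_apply, Fin.sum_univ_two, Matrix.trace_fin_two, Matrix.smul_apply,
      -zsmul_eq_mul] <;>
    first | linear_combination hA | linear_combination -hA | ring

/-- Elements of `SL(2, ℤ)` with `trace ^ 2 < 4` have finite order. -/
theorem exists_pow_eq_one_of_trace (g : SL(2, ℤ))
    (h : (g : Matrix (Fin 2) (Fin 2) ℤ).trace ^ 2 ≤ 4)
    (h' : (g : Matrix (Fin 2) (Fin 2) ℤ).trace ^ 2 ≠ 4) : ∃ n : ℕ, 0 < n ∧ g ^ n = 1 := by
  set A : Matrix (Fin 2) (Fin 2) ℤ := (g : Matrix (Fin 2) (Fin 2) ℤ) with hAdef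
  have hdet : A.det = 1 := g.2
  have hCH := sq_eq_trace_smul_sub_one A hdet
  set t := A.trace with ht
  have htr : t = 0 ∨ t = 1 ∨ t = -1 := by
    have h1 : t ^ 2 < 4 := lt_of_le_of_ne h h'
    have h2 : -2 < t := by nlinarith
    have h3 : t < 2 := by nlinarith
    omega
  have key : ∀ n : ℕ, A ^ n = 1 → g ^ n = 1 := by
    intro n hn
    apply Subtype.ext
    rw [Matrix.SpecialLinearGroup.coe_pow, Matrix.SpecialLinearGroup.coe_one]
    exact hn
  rcases htr with h0 | h1 | h1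
  · refine ⟨4, by norm_num, key 4 ?_⟩
    rw [h0, zero_smul, zero_sub] at hCH
    have : A ^ 4 = (A * A) * (A * A) := by noncomm_ring
    rw [this, hCH]
    simp
  · refine ⟨6, by norm_num, key 6 ?_⟩
    rw [h1, one_smul] at hCH
    have h3 : A ^ 3 = -1 := by
      have : A ^ 3 = (A * A) * A := by noncomm_ring
      rw [this, hCH, sub_mul, one_mul, hCH]
      abel
    have : A ^ 6 = A ^ 3 * A ^ 3 := by noncomm_ring
    rw [this, h3]
    simp
  · refine ⟨3, by norm_num, key 3 ?_⟩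
    rw [h1, neg_one_smul] at hCH
    have : A ^ 3 = (A * A) * A := by noncomm_ring
    rw [this, hCH, sub_mul, one_mul, neg_mul, hCH]
    abel

theorem parEll_tors (N : ℕ) :
    ∀ γ ∈ parEllSet N, γ ∈ parSet N ∨ ∃ n : ℕ, 0 < n ∧ γ ^ n = 1 := by
  intro γ hγ
  by_cases h : ((γ : SL(2, ℤ)) : Matrix (Fin 2) (Fin 2) ℤ).trace ^ 2 = 4
  · exact Or.inl h
  · right
    obtain ⟨n, hn, hgn⟩ := exists_pow_eq_one_of_trace (γ : SL(2, ℤ)) hγ h
    refine ⟨n, hn, Subtype.ext ?_⟩
    rw [Subgroup.coe_pow, hgn, Subgroup.coe_one]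

/-- `dim_ℂ parabolicHoms = 2 * genusFormula` (from S21 and S20). -/
theorem finrank_parabolicHoms_eq (N : ℕ) [NeZero N] :
    (finrank ℂ ↥(Period.parabolicHoms ℂ (Gamma0 N) ℂ) : ℚ) = 2 * genusFormula N := by
  obtain ⟨hinj, hrange⟩ := Fermat.Agent.S21.result N
  haveI : FiniteDimensional ℂ (CuspForm (Gamma0 N) 2) :=
    Fermat.Agent.S21.h19_finiteDimensional_cuspForm N
  have h1 : finrank ℂ ↥(LinearMap.range (periodHomPair N))
      = finrank ℂ (CuspForm (Gamma0 N) 2 × CuspForm (Gamma0 N) 2) :=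
    LinearMap.finrank_range_of_inj hinj
  rw [hrange, Module.finrank_prod] at h1
  rw [h1, ← Fermat.Agent.S20.result N]
  push_cast
  ring

/-- **Leaf (L2).**  Lifting of homomorphisms `Γ₀(N) → ℤ / m` killing parabolic and elliptic
elements to parabolic homomorphisms `Γ₀(N) → ℤ`, given the characteristic-`l` bounds. -/
theorem h23_lift (N : ℕ) [NeZero N] (m : ℕ) (hm : 0 < m)
    (hb : ∀ l : ℕ, ∀ _ : Fact l.Prime, l ∣ m → StL2b N l)
    (x : Additive (Gamma0 N) →+ ZMod m)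
    (hx : ∀ γ : Gamma0 N, ((γ : SL(2, ℤ)) : Matrix (Fin 2) (Fin 2) ℤ).trace ^ 2 ≤ 4 →
      x (Additive.ofMul γ) = 0) :
    ∃ ψ : Additive (Gamma0 N) →+ ℤ, ψ ∈ Period.parabolicHoms ℤ (Gamma0 N) ℤ ∧
      ∀ γ, ((ψ γ : ℤ) : ZMod m) = x γ := by
  haveI : Group.FG (Gamma0 N) := Fermat.Agent.S22.groupFG_Gamma0 N
  have hdim : ∀ l : ℕ, ∀ _ : Fact l.Prime, l ∣ m →
      finrank (ZMod l) ↥(homsKilling (ZMod l) (parEllSet N) (ZMod l))
        ≤ finrank ℂ ↥(homsKilling ℂ (parSet N) ℂ) := by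
    intro l hl hlm
    have h1 := hb l hl hlm
    have h2 := finrank_parabolicHoms_eq N
    rw [parabolicHoms_eq_homsKilling] at h2
    rw [StL2b, ← h2] at h1
    exact_mod_cast h1
  obtain ⟨ψ, hψ, hψx⟩ := exists_lift_mod (parSet N) (parEllSet N) (parEll_tors N) m hm hdim x
    (fun γ hγ => hx γ hγ)
  refine ⟨ψ, ?_, hψx⟩
  rw [parabolicHoms_eq_homsKilling]
  exact hψ

end Fermat.Agent.S16x.Low.H23
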