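import Fermat.Prelude.Def_CuspForm_HeckeLocal
import Fermat.Prelude.Def_CuspForm_HeckeEvalForms
import Fermat.Prelude.Def_HeckeGalois_EichlerShimura
import Fermat.Prelude.Def_ModularCurve_ModularUnit
import Fermat.Prelude.Def_ModularCurve_PeriodHomPair
import Fermat.Agent.S22.Coset

/-!
# S16 / package LOW (coordinator helper26): interface

The lower bound `n ∣ #(T/I)`, `n = eisensteinNumerator p`, in the form

`StLOW p` : the Eisenstein character modulo `n` kills the kernel of `ℤ[X_ℓ] → T`.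

Route (no Hecke operators on cohomology are ever defined): the two homomorphisms
`per : Γ₀(p) → Hom_ℂ(S₂, ℂ)`, `γ ↦ (f ↦ periodMap p f γ)`, and `x : Γ₀(p) → ℤ/n` (the class of
the lower right entry `d` modulo `p`, modulo the `12`-th roots of unity) are treated together.

* `CosetData`  : the output shape of the landed `Fermat.Agent.S22.coset_T` / `coset_U`
                 (`α_i g = g'_i α_{σ i}` entrywise).
* `IsParEll`   : a homomorphism `Γ₀(N) → A` kills every `γ` with `trace² ≤ 4`.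
* `IsDMult`    : `x γ` depends only on `d(γ) mod p`, multiplicatively.
* `StX`   (X)  : existence of the Shimura class `x`.
* `StET`, `StEU` (E) : the eigen-relations `∑ x(g'_i) = (ℓ + 1) x(g)` resp. `= p x(g)` for ANY
                 coset data and ANY `IsDMult` homomorphism.
* `StHT`, `StHU` (H) : `periodMap (T_ℓ f) g = ∑ periodMap f g'_i` for ANY coset data.
* `StL2`  (L2) : every `IsParEll` homomorphism `Γ₀(p) → ℤ/m` lifts to a parabolic integral one.
* `StK`   (K)  : if all cusp form periods of `γ` vanish, every complex parabolic homomorphism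
                 vanishes at `γ`.
* `StEND`      : the assembly.
-/

set_option autoImplicit false

open CongruenceSubgroup ModularCurve ModularCurve.Period

open scoped MatrixGroups

noncomputable section

namespace Fermat.Agent.S16x.Low

/-- The output shape of `Fermat.Agent.S22.coset_T` / `coset_U`: `α_i g = g'_i α_{σ i}` for the
upper triangular integer matrices `α_i = (aa i, bb i; 0, dd i)`, and `g'_i ∈ Γ₀(N)`. -/
def CosetData {ι : Type} (aa bb dd : ι → ℤ) (N : ℕ) (g : SL(2, ℤ)) (σ : Equiv.Perm ι)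
    (g' : ι → SL(2, ℤ)) : Prop :=
  (∀ i, g' i ∈ Gamma0 N) ∧ ∀ i,
    aa i * g 0 0 + bb i * g 1 0 = g' i 0 0 * aa (σ i) ∧
    aa i * g 0 1 + bb i * g 1 1 = g' i 0 0 * bb (σ i) + g' i 0 1 * dd (σ i) ∧
    dd i * g 1 0 = g' i 1 0 * aa (σ i) ∧
    dd i * g 1 1 = g' i 1 0 * bb (σ i) + g' i 1 1 * dd (σ i)

/-- The elements of a coset datum, as elements of `Γ₀(N)`. -/
def CosetData.elt {ι : Type} {aa bb dd : ι → ℤ} {N : ℕ} {g : SL(2, ℤ)} {σ : Equiv.Perm ι}
    {g' : ι → SL(2, ℤ)} (h : CosetData aa bb dd N g σ g') (i : ι) : ↥(Gamma0 N) :=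
  ⟨g' i, h.1 i⟩

/-- Coset data for `T_ℓ` exist (`S22.coset_T`). -/
theorem exists_cosetData_T {N ℓ : ℕ} [Fact ℓ.Prime] (hℓN : ¬ ℓ ∣ N) (g : ↥(Gamma0 N)) :
    ∃ (σ : Equiv.Perm (OnePoint (ZMod ℓ))) (g' : OnePoint (ZMod ℓ) → SL(2, ℤ)),
      CosetData (Fermat.Agent.S22.tA ℓ) (Fermat.Agent.S22.tB ℓ) (Fermat.Agent.S22.tD ℓ) N
        (g : SL(2, ℤ)) σ g' := by
  obtain ⟨σ, g', h1, h2⟩ := Fermat.Agent.S22.coset_T hℓN g.2
  exact ⟨σ, g', h1, h2⟩

/-- Coset data for `U_q` exist (`S22.coset_U`). -/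
theorem exists_cosetData_U {N q : ℕ} [NeZero q] (hqN : q ∣ N) (g : ↥(Gamma0 N)) :
    ∃ (σ : Equiv.Perm (ZMod q)) (g' : ZMod q → SL(2, ℤ)),
      CosetData (Fermat.Agent.S22.uA q) (Fermat.Agent.S22.uB q) (Fermat.Agent.S22.uD q) N
        (g : SL(2, ℤ)) σ g' := by
  obtain ⟨σ, g', h1, h2⟩ := Fermat.Agent.S22.coset_U hqN g.2
  exact ⟨σ, g', h1, h2⟩

/-- A homomorphism `Γ₀(N) → A` which kills every element of trace `t` with `t² ≤ 4`
(`± 1`, the elliptic and the parabolic elements). -/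
def IsParEll (N : ℕ) {A : Type*} [AddCommGroup A] (φ : Additive ↥(Gamma0 N) →+ A) : Prop :=
  ∀ γ : ↥(Gamma0 N), ((γ : SL(2, ℤ)) : Matrix (Fin 2) (Fin 2) ℤ).trace ^ 2 ≤ 4 →
    φ (Additive.ofMul γ) = 0

/-- `x γ` depends only on the lower right entry of `γ` modulo `p`, multiplicatively. -/
def IsDMult (p : ℕ) {A : Type*} [AddCommGroup A] (x : Additive ↥(Gamma0 p) →+ A) : Prop :=
  ∀ γ γ₁ γ₂ : ↥(Gamma0 p),
    (((γ : SL(2, ℤ)) 1 1 : ℤ) : ZMod p) =
      (((γ₁ : SL(2, ℤ)) 1 1 : ℤ) : ZMod p) * (((γ₂ : SL(2, ℤ)) 1 1 : ℤ) : ZMod p) →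
    x (Additive.ofMul γ) = x (Additive.ofMul γ₁) + x (Additive.ofMul γ₂)

/-- **(X)** the Shimura class: a surjective homomorphism `Γ₀(p) → ℤ/n` which depends only on
`d mod p` and kills the elements with `trace² ≤ 4`. -/
def StX (p : ℕ) : Prop :=
  ∃ x : Additive ↥(Gamma0 p) →+ ZMod (eisensteinNumerator p),
    Function.Surjective x ∧ IsParEll p x ∧ IsDMult p x

/-- **(E), `T_ℓ`**: the eigen-relation for any coset datum and any `IsDMult` homomorphism. -/
def StET (p : ℕ) : Prop :=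
  ∀ (A : Type) [AddCommGroup A] (x : Additive ↥(Gamma0 p) →+ A), IsDMult p x →
    ∀ (ℓ : ℕ) [Fact ℓ.Prime], ℓ ≠ p → ∀ (g : ↥(Gamma0 p)) (σ : Equiv.Perm (OnePoint (ZMod ℓ)))
      (g' : OnePoint (ZMod ℓ) → SL(2, ℤ))
      (h : CosetData (Fermat.Agent.S22.tA ℓ) (Fermat.Agent.S22.tB ℓ) (Fermat.Agent.S22.tD ℓ) p
        (g : SL(2, ℤ)) σ g'),
      ∑ i, x (Additive.ofMul (h.elt i)) = (ℓ + 1) • x (Additive.ofMul g)

/-- **(E), `U_p`**: the eigen-relation for any coset datum and any `IsDMult` homomorphism. -/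
def StEU (p : ℕ) [NeZero p] : Prop :=
  ∀ (A : Type) [AddCommGroup A] (x : Additive ↥(Gamma0 p) →+ A), IsDMult p x →
    ∀ (g : ↥(Gamma0 p)) (σ : Equiv.Perm (ZMod p)) (g' : ZMod p → SL(2, ℤ))
      (h : CosetData (Fermat.Agent.S22.uA p) (Fermat.Agent.S22.uB p) (Fermat.Agent.S22.uD p) p
        (g : SL(2, ℤ)) σ g'),
      ∑ i, x (Additive.ofMul (h.elt i)) = p • x (Additive.ofMul g)

/-- **(H), `T_ℓ`**: the period of `T_ℓ f` along `g` is the sum of the periods of `f` along the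
elements of any coset datum of `g`. -/
def StHT (N : ℕ) : Prop :=
  ∀ (ℓ : ℕ) [Fact ℓ.Prime] (hℓN : ¬ ℓ ∣ N) (f : CuspForm (Gamma0 N) 2) (g : ↥(Gamma0 N))
    (σ : Equiv.Perm (OnePoint (ZMod ℓ))) (g' : OnePoint (ZMod ℓ) → SL(2, ℤ))
    (h : CosetData (Fermat.Agent.S22.tA ℓ) (Fermat.Agent.S22.tB ℓ) (Fermat.Agent.S22.tD ℓ) N
      (g : SL(2, ℤ)) σ g'),
    periodMap N (CuspForm.heckeTLin 2 (Fact.out : ℓ.Prime) hℓN f) (Additive.ofMul g) =
      ∑ i, periodMap N f (Additive.ofMul (h.elt i))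

/-- **(H), `U_q`**. -/
def StHU (N : ℕ) [NeZero N] : Prop :=
  ∀ (q : ℕ) [Fact q.Prime] (hqN : q ∣ N) (f : CuspForm (Gamma0 N) 2) (g : ↥(Gamma0 N))
    (σ : Equiv.Perm (ZMod q)) (g' : ZMod q → SL(2, ℤ))
    (h : CosetData (Fermat.Agent.S22.uA q) (Fermat.Agent.S22.uB q) (Fermat.Agent.S22.uD q) N
      (g : SL(2, ℤ)) σ g'),
    periodMap N (CuspForm.heckeULin 2 hqN f) (Additive.ofMul g) =
      ∑ i, periodMap N f (Additive.ofMul (h.elt i))

/-- **(L2)** lifting: an `IsParEll` homomorphism `Γ₀(p) → ℤ/m` is the reduction of a parabolic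
homomorphism `Γ₀(p) → ℤ`. -/
def StL2 (p m : ℕ) : Prop :=
  ∀ x : Additive ↥(Gamma0 p) →+ ZMod m, IsParEll p x →
    ∃ y : Additive ↥(Gamma0 p) →+ ℤ, IsParabolicHom (Gamma0 p) y ∧
      ∀ γ : Additive ↥(Gamma0 p), ((y γ : ℤ) : ZMod m) = x γ

/-- **(K)** the kernel of the period map: if all cusp form periods of `γ` vanish, then every
complex parabolic homomorphism vanishes at `γ`. -/
def StK (N : ℕ) : Prop :=
  ∀ γ : ↥(Gamma0 N), (∀ f : CuspForm (Gamma0 N) 2, periodMap N f (Additive.ofMul γ) = 0) →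
    ∀ ψ : Additive ↥(Gamma0 N) →+ ℂ, ψ ∈ parabolicHoms ℂ (Gamma0 N) ℂ →
      ψ (Additive.ofMul γ) = 0

/-- **(LOW)**, on the Hecke algebra of the cusp forms: the Eisenstein character modulo `n`
kills the kernel of `ℤ[X_ℓ] → heckeAlgebra p 2 ∅`. -/
def StLOW (p : ℕ) [NeZero p] : Prop :=
  ∀ P : HeckeAlg, CuspForm.heckeEvalForms p 2 P = 0 →
    ((MvPolynomial.aeval (eisensteinSystem p) P : ℤ) : ZMod (eisensteinNumerator p)) = 0

/-- **(LOW)**, on the lattice Hecke algebra (the ring of S16). -/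
def StLOW' (p : ℕ) [NeZero p] : Prop :=
  ∀ P : HeckeAlg,
    ((CuspForm.latticeRestrictHom p ∅).toRingHom.comp (CuspForm.heckeEvalForms p 2)) P = 0 →
    ((MvPolynomial.aeval (eisensteinSystem p) P : ℤ) : ZMod (eisensteinNumerator p)) = 0

/-- **(END)** the assembly of the lower bound. -/
def StEND (p : ℕ) [Fact p.Prime] : Prop :=
  StX p → StET p → StEU p → StHT p → StHU p → StL2 p (eisensteinNumerator p) → StK p → StLOW p

/-- **(ADAPT)** from the Hecke algebra of the cusp forms to the lattice Hecke algebra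
(`latticeRestrictHom` is injective by S23). -/
def StADAPT (p : ℕ) [Fact p.Prime] : Prop := StLOW p → StLOW' p

end Fermat.Agent.S16x.Low
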