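import Fermat.Agent.S16x.Low.H9_BoundSL2
import Fermat.Agent.S16x.Low.Defs

/-!
# S16, package LOW, leaf L2b in the vocabulary of `Low/Defs.lean`

`dim_k {φ : Γ₀(N) → k | IsParEll N φ} ≤ 2 * genusFormula N` for EVERY field `k`
(`IsParEll`: `φ` kills every `γ` with `trace² ≤ 4`).
-/

set_option autoImplicit false

open Module
open scoped MatrixGroups
open CongruenceSubgroup ModularCurve ModularCurve.Period

namespace Fermat.Agent.S16x.Low.H9

/-- The trace is invariant under conjugation in `SL(2, ℤ)`. -/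
theorem sl2_trace_conj (a g : SL(2, ℤ)) :
    ((g⁻¹ * a * g : SL(2, ℤ)) : Matrix (Fin 2) (Fin 2) ℤ).trace
      = (a : Matrix (Fin 2) (Fin 2) ℤ).trace := by
  rw [Matrix.SpecialLinearGroup.coe_mul, Matrix.SpecialLinearGroup.coe_mul,
    Matrix.trace_mul_cycle, ← Matrix.SpecialLinearGroup.coe_mul, mul_inv_cancel,
    Matrix.SpecialLinearGroup.coe_one, one_mul]

theorem sl2_trace_sq_S_pow (n : ℕ) :
    ((ModularGroup.S ^ n : SL(2, ℤ)) : Matrix (Fin 2) (Fin 2) ℤ).trace ^ 2 ≤ 4 := by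
  have h : (ModularGroup.S : SL(2, ℤ)) ^ n = ModularGroup.S ^ (n % 4) := by
    conv_lhs => rw [← Nat.div_add_mod n 4, pow_add, pow_mul, sl2_S_pow_four, one_pow, one_mul]
  rw [h]
  have hlt : n % 4 < 4 := Nat.mod_lt _ (by norm_num)
  interval_cases (n % 4) <;> decide

theorem sl2_trace_sq_ST_pow (n : ℕ) :
    (((ModularGroup.S * ModularGroup.T) ^ n : SL(2, ℤ)) :
      Matrix (Fin 2) (Fin 2) ℤ).trace ^ 2 ≤ 4 := by
  have h : ((ModularGroup.S * ModularGroup.T : SL(2, ℤ))) ^ n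
      = (ModularGroup.S * ModularGroup.T) ^ (n % 6) := by
    conv_lhs => rw [← Nat.div_add_mod n 6, pow_add, pow_mul, sl2_ST_pow_six, one_pow, one_mul]
  rw [h]
  have hlt : n % 6 < 6 := Nat.mod_lt _ (by norm_num)
  interval_cases (n % 6) <;> decide

/-- A homomorphism which kills the elements with `trace² ≤ 4` is parabolic. -/
theorem IsParEll.isParabolicHom {N : ℕ} {A : Type*} [AddCommGroup A]
    {φ : Additive ↥(Gamma0 N) →+ A} (h : IsParEll N φ) : IsParabolicHom (Gamma0 N) φ :=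
  fun γ hγ => h γ (le_of_eq hγ)

/-- The submodule of the homomorphisms `Γ₀(N) → A` which kill the elements with
`trace² ≤ 4`. -/
def parEllHoms (R : Type*) [Semiring R] (N : ℕ) (A : Type*) [AddCommGroup A] [Module R A] :
    Submodule R (Additive ↥(Gamma0 N) →+ A) where
  carrier := {φ | IsParEll N φ}
  zero_mem' := fun _ _ => rfl
  add_mem' := by
    intro φ ψ hφ hψ γ hγ
    show φ (Additive.ofMul γ) + ψ (Additive.ofMul γ) = 0
    rw [hφ γ hγ, hψ γ hγ, add_zero]
  smul_mem' := by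
    intro c φ hφ γ hγ
    show c • φ (Additive.ofMul γ) = 0
    rw [hφ γ hγ, smul_zero]

theorem mem_parEllHoms_iff {R : Type*} [Semiring R] {N : ℕ} {A : Type*} [AddCommGroup A]
    [Module R A] {φ : Additive ↥(Gamma0 N) →+ A} :
    φ ∈ parEllHoms R N A ↔ IsParEll N φ := Iff.rfl

theorem parEllHoms_le_parabolicHoms (R : Type*) [Semiring R] (N : ℕ) (A : Type*)
    [AddCommGroup A] [Module R A] : parEllHoms R N A ≤ parabolicHoms R (Gamma0 N) A :=
  fun _ h => IsParEll.isParabolicHom h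

/-- **(L2b), `IsParEll` form**: over EVERY field `k`, a space of homomorphisms `Γ₀(N) → k`
killing the elements with `trace² ≤ 4` has dimension at most `2 * genusFormula N`. -/
theorem h9_finrank_le_two_genus_of_isParEll (N : ℕ) [NeZero N] (k : Type*) [Field k]
    (P : Submodule k (Additive ↥(Gamma0 N) →+ k)) (hP : ∀ φ ∈ P, IsParEll N φ) :
    FiniteDimensional k P ∧ (finrank k P : ℚ) ≤ 2 * genusFormula N := by
  obtain ⟨hfd, h⟩ := h9_generic_bound (Gamma0 N) ModularGroup.S ModularGroup.T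
    SpecialLinearGroup.SL2Z_generators k P
    (fun φ hφ n g h => hP φ hφ ⟨_, h⟩ (by
      show ((g⁻¹ * ModularGroup.S ^ n * g : SL(2, ℤ)) :
        Matrix (Fin 2) (Fin 2) ℤ).trace ^ 2 ≤ 4
      rw [sl2_trace_conj]; exact sl2_trace_sq_S_pow n))
    (fun φ hφ n g h => hP φ hφ ⟨_, h⟩ (by
      show ((g⁻¹ * ModularGroup.T ^ n * g : SL(2, ℤ)) :
        Matrix (Fin 2) (Fin 2) ℤ).trace ^ 2 ≤ 4
      rw [Fermat.Agent.S21.E2.sl2_trace_conj_T_pow]; norm_num))
    (fun φ hφ n g h => hP φ hφ ⟨_, h⟩ (by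
      show ((g⁻¹ * (ModularGroup.S * ModularGroup.T) ^ n * g : SL(2, ℤ)) :
        Matrix (Fin 2) (Fin 2) ℤ).trace ^ 2 ≤ 4
      rw [sl2_trace_conj]; exact sl2_trace_sq_ST_pow n))
  refine ⟨hfd, ?_⟩
  have hcomb := Fermat.Agent.S24.Comb.h9_genus_count N
  have h' : ((finrank k P : ℕ) : ℚ)
      + Nat.card (MulAction.orbitRel.Quotient (Subgroup.zpowers ModularGroup.S)
          (SL(2, ℤ) ⧸ Gamma0 N))
      + Nat.card (MulAction.orbitRel.Quotient
          (Subgroup.zpowers (ModularGroup.S * ModularGroup.T)) (SL(2, ℤ) ⧸ Gamma0 N))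
      + Nat.card (MulAction.orbitRel.Quotient (Subgroup.zpowers ModularGroup.T)
          (SL(2, ℤ) ⧸ Gamma0 N))
      ≤ Nat.card (SL(2, ℤ) ⧸ Gamma0 N) + 2 := by exact_mod_cast h
  have hc : ((Nat.card (SL(2, ℤ) ⧸ Gamma0 N) : ℚ)
      - Nat.card (MulAction.orbitRel.Quotient (Subgroup.zpowers ModularGroup.S)
          (SL(2, ℤ) ⧸ Gamma0 N))
      - Nat.card (MulAction.orbitRel.Quotient
          (Subgroup.zpowers (ModularGroup.S * ModularGroup.T)) (SL(2, ℤ) ⧸ Gamma0 N))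
      - Nat.card (MulAction.orbitRel.Quotient (Subgroup.zpowers ModularGroup.T)
          (SL(2, ℤ) ⧸ Gamma0 N)))
      = 2 * genusFormula N - 2 := hcomb
  linarith

/-- (L2b) for the named space `parEllHoms`. -/
theorem h9_finrank_parEllHoms_le (N : ℕ) [NeZero N] (k : Type*) [Field k] :
    FiniteDimensional k (parEllHoms k N k) ∧
      (finrank k (parEllHoms k N k) : ℚ) ≤ 2 * genusFormula N :=
  h9_finrank_le_two_genus_of_isParEll N k (parEllHoms k N k) (fun _ h => h)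

end Fermat.Agent.S16x.Low.H9
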