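import Fermat.Agent.S16x.Low.Defs
import Fermat.Agent.S16x.Low.H9_ParEllBound
import Fermat.Agent.S16x.Low.H23_Lift

/-!
# S16, package LOW, leaf (L2): `StL2 p m` (helper23)

`h23_stL2 : StL2 p m` for every level `p ≠ 0` and every `m`: a homomorphism `Γ₀(p) → ℤ / m`
killing the elements with `trace ^ 2 ≤ 4` is the reduction of a parabolic homomorphism
`Γ₀(p) → ℤ`.  Inputs: the abstract lifting lemma `exists_lift_mod` (`H23_AbsLift`), the
characteristic-free parabolic bound of helper9 (`H9_ParEllBound`), and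
`dim_ℂ parabolicHoms = 2 * genusFormula` (landed S21 + S20).
-/

set_option autoImplicit false

open CongruenceSubgroup ModularCurve ModularCurve.Period Module
open scoped MatrixGroups

namespace Fermat.Agent.S16x.Low.H23

/-- Leaf [L2b] from helper9's bound. -/
theorem stL2b (N l : ℕ) [NeZero N] [Fact l.Prime] : StL2b N l :=
  (Fermat.Agent.S16x.Low.H9.h9_finrank_le_two_genus_of_isParEll N (ZMod l)
    (homsKilling (ZMod l) (parEllSet N) (ZMod l)) (fun _ hφ γ hγ => hφ γ hγ)).2

/-- **Leaf (L2)**, verbatim. -/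
theorem h23_stL2 (p m : ℕ) [NeZero p] : StL2 p m := by
  intro x hx
  rcases Nat.eq_zero_or_pos m with hm | hm
  · subst hm
    refine ⟨x, fun γ hγ => hx γ (le_of_eq hγ), fun γ => ?_⟩
    exact Int.cast_id
  · obtain ⟨ψ, hψ, hψx⟩ := h23_lift p m hm (fun l hl _ => @stL2b p l _ hl) x hx
    exact ⟨ψ, hψ, hψx⟩

end Fermat.Agent.S16x.Low.H23
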