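import Fermat.Agent.S16x.Low.H20_EisClass
import Fermat.Agent.S22.Coset

/-!
# S16 / package LOW (helper20): the Eisenstein class is a Hecke eigenclass

Coset data in the shape of `Fermat.Agent.S22.coset_T` / `coset_U`
(`α_x g = g'_x α_{σ x}`, `α_∞ = (q 0; 0 1)`, `α_j = (1 j; 0 q)` resp. `α_j = (1 j; 0 p)`).
For `x = lam ∘ dChar`:

* `eis_T` : `∑_x x(g'_x) = (q + 1) • x(g)`   (`q ≠ p`; only the 4th entry identity is used);
* `eis_U` : `∑_j x(g'_j) = p • x(g)`          (only the 1st entry identity is used);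
* `eis_U'`: for values in `ZMod n`, `n = eisensteinNumerator p`: `∑_j x(g'_j) = x(g)`.
-/

set_option autoImplicit false

open scoped MatrixGroups
open CongruenceSubgroup Fermat.Agent.S22

noncomputable section

namespace Fermat.Agent.S16x.Low.H20

variable (p : ℕ) [Fact p.Prime] {A : Type*} [AddCommGroup A]
  (lam : Additive (ZMod p)ˣ →+ A)

/-- The lower left entry of an element of `Γ₀(p)` vanishes mod `p`. -/
theorem c_eq_zero {g : SL(2, ℤ)} (hg : g ∈ Gamma0 p) : ((g 1 0 : ℤ) : ZMod p) = 0 :=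
  Gamma0_mem.mp hg

/-- `tD q x` is a unit mod `p` for `q ≠ p`. -/
theorem tD_ne_zero (q : ℕ) [Fact q.Prime] (hqp : q ≠ p) (x : OnePoint (ZMod q)) :
    ((tD q x : ℤ) : ZMod p) ≠ 0 := by
  have hq : ((q : ℕ) : ZMod p) ≠ 0 := by
    rw [Ne, ZMod.natCast_eq_zero_iff]
    intro h
    exact hqp ((Nat.prime_dvd_prime_iff_eq Fact.out Fact.out).mp h).symm
  induction x using OnePoint.rec with
  | infty => rw [tD_infty, Int.cast_one]; exact one_ne_zero
  | coe j => rw [tD_coe, Int.cast_natCast]; exact hq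

/-- **Eigen-property for `T_q`**, `q ≠ p`. -/
theorem eis_T (q : ℕ) [Fact q.Prime] (hqp : q ≠ p) {g : SL(2, ℤ)} (hg : g ∈ Gamma0 p)
    (σ : Equiv.Perm (OnePoint (ZMod q))) (g' : OnePoint (ZMod q) → SL(2, ℤ))
    (hg' : ∀ x, g' x ∈ Gamma0 p)
    (h4 : ∀ x, tD q x * g 1 1 = g' x 1 0 * tB q (σ x) + g' x 1 1 * tD q (σ x)) :
    ∑ x, lam (Additive.ofMul (dChar p ⟨g' x, hg' x⟩)) =
      (q + 1) • lam (Additive.ofMul (dChar p ⟨g, hg⟩)) := by
  classical
  -- the units `tD`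
  let tU : OnePoint (ZMod q) → (ZMod p)ˣ := fun x => Units.mk0 _ (tD_ne_zero p q hqp x)
  have hkey : ∀ x, dChar p ⟨g' x, hg' x⟩ = tU x * dChar p ⟨g, hg⟩ * (tU (σ x))⁻¹ := by
    intro x
    rw [eq_mul_inv_iff_mul_eq]
    apply Units.ext
    simp only [Units.val_mul, dChar_coe, tU, Units.val_mk0]
    have h := congrArg (fun z : ℤ => (z : ZMod p)) (h4 x)
    simp only [Int.cast_add, Int.cast_mul] at h
    rw [c_eq_zero p (hg' x), zero_mul, zero_add] at h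
    exact h.symm
  have hprod : ∏ x, dChar p ⟨g' x, hg' x⟩ = dChar p ⟨g, hg⟩ ^ (q + 1) := by
    simp_rw [hkey]
    rw [Finset.prod_mul_distrib, Finset.prod_mul_distrib, Finset.prod_const, Finset.prod_inv_distrib,
      Equiv.prod_comp σ tU]
    have hcard : (Finset.univ : Finset (OnePoint (ZMod q))).card = q + 1 := by
      rw [Finset.card_univ]
      change Fintype.card (Option (ZMod q)) = q + 1
      rw [Fintype.card_option, ZMod.card]
    rw [hcard]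
    rw [mul_comm (∏ x, tU x), mul_assoc, mul_inv_cancel, mul_one]
  rw [← map_sum, ← ofMul_prod, hprod, ofMul_pow, map_nsmul]

/-- **Eigen-property for `U_p`** (general coefficients): the sum is `p • x(g)`. -/
theorem eis_U {g : SL(2, ℤ)} (hg : g ∈ Gamma0 p)
    (σ : Equiv.Perm (ZMod p)) (g' : ZMod p → SL(2, ℤ))
    (hg' : ∀ j, g' j ∈ Gamma0 p)
    (h1 : ∀ j, uA p j * g 0 0 + uB p j * g 1 0 = g' j 0 0 * uA p (σ j)) :
    ∑ j, lam (Additive.ofMul (dChar p ⟨g' j, hg' j⟩)) =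
      p • lam (Additive.ofMul (dChar p ⟨g, hg⟩)) := by
  classical
  have hkey : ∀ j, dChar p ⟨g' j, hg' j⟩ = dChar p ⟨g, hg⟩ := by
    intro j
    have h := congrArg (fun z : ℤ => (z : ZMod p)) (h1 j)
    simp only [Int.cast_add, Int.cast_mul, uA, one_mul, mul_one] at h
    rw [c_eq_zero p hg, mul_zero, add_zero] at h
    -- `a' = a`, hence `d' = d`
    have h2 := a_mul_d p ⟨g' j, hg' j⟩
    have h3 := a_mul_d p ⟨g, hg⟩
    simp only at h2 h3
    rw [← h] at h2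
    apply Units.ext
    rw [dChar_coe, dChar_coe]
    simp only
    calc ((g' j 1 1 : ℤ) : ZMod p)
        = ((g 0 0 : ℤ) : ZMod p) * ((g 1 1 : ℤ) : ZMod p) * ((g' j 1 1 : ℤ) : ZMod p) := by
          rw [h3, one_mul]
      _ = ((g 0 0 : ℤ) : ZMod p) * ((g' j 1 1 : ℤ) : ZMod p) * ((g 1 1 : ℤ) : ZMod p) := by ring
      _ = ((g 1 1 : ℤ) : ZMod p) := by rw [h2, one_mul]
  simp_rw [hkey]
  rw [Finset.sum_const, Finset.card_univ, ZMod.card]

/-- `p = 1` in `ZMod n`. -/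
theorem natCast_self_eisNum : ((p : ℕ) : ZMod (ModularCurve.eisensteinNumerator p)) = 1 := by
  have hp1 : 1 ≤ p := (Fact.out : p.Prime).one_lt.le
  have h : ((p - 1 : ℕ) : ZMod (ModularCurve.eisensteinNumerator p)) = 0 :=
    (ZMod.natCast_eq_zero_iff _ _).mpr (ModularCurve.eisensteinNumerator_dvd p)
  rw [Nat.cast_sub hp1, Nat.cast_one, sub_eq_zero] at h
  exact h

/-- **Eigen-property for `U_p`**, coefficients `ZMod n`. -/
theorem eis_U' (lam : Additive (ZMod p)ˣ →+ ZMod (ModularCurve.eisensteinNumerator p))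
    {g : SL(2, ℤ)} (hg : g ∈ Gamma0 p)
    (σ : Equiv.Perm (ZMod p)) (g' : ZMod p → SL(2, ℤ))
    (hg' : ∀ j, g' j ∈ Gamma0 p)
    (h1 : ∀ j, uA p j * g 0 0 + uB p j * g 1 0 = g' j 0 0 * uA p (σ j)) :
    ∑ j, lam (Additive.ofMul (dChar p ⟨g' j, hg' j⟩)) =
      lam (Additive.ofMul (dChar p ⟨g, hg⟩)) := by
  rw [eis_U p lam hg σ g' hg' h1, nsmul_eq_mul, natCast_self_eisNum, one_mul]

/-- **Eigen-property for `T_q`**, coefficients `ZMod n`, multiplicative form. -/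
theorem eis_T' (lam : Additive (ZMod p)ˣ →+ ZMod (ModularCurve.eisensteinNumerator p))
    (q : ℕ) [Fact q.Prime] (hqp : q ≠ p) {g : SL(2, ℤ)} (hg : g ∈ Gamma0 p)
    (σ : Equiv.Perm (OnePoint (ZMod q))) (g' : OnePoint (ZMod q) → SL(2, ℤ))
    (hg' : ∀ x, g' x ∈ Gamma0 p)
    (h4 : ∀ x, tD q x * g 1 1 = g' x 1 0 * tB q (σ x) + g' x 1 1 * tD q (σ x)) :
    ∑ x, lam (Additive.ofMul (dChar p ⟨g' x, hg' x⟩)) =
      (1 + (q : ZMod (ModularCurve.eisensteinNumerator p))) *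
        lam (Additive.ofMul (dChar p ⟨g, hg⟩)) := by
  rw [eis_T p lam q hqp hg σ g' hg' h4, nsmul_eq_mul]
  push_cast
  ring

/-- Existence form for `T_q`: some coset datum of `g` (in the shape of `S22.coset_T`) with the
eigen-identity. -/
theorem exists_eis_T (q : ℕ) [Fact q.Prime] (hqp : q ≠ p) {g : SL(2, ℤ)} (hg : g ∈ Gamma0 p) :
    ∃ (σ : Equiv.Perm (OnePoint (ZMod q))) (g' : OnePoint (ZMod q) → SL(2, ℤ))
      (hg' : ∀ x, g' x ∈ Gamma0 p),
      (∀ x,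
        tA q x * g 0 0 + tB q x * g 1 0 = g' x 0 0 * tA q (σ x) ∧
        tA q x * g 0 1 + tB q x * g 1 1 = g' x 0 0 * tB q (σ x) + g' x 0 1 * tD q (σ x) ∧
        tD q x * g 1 0 = g' x 1 0 * tA q (σ x) ∧
        tD q x * g 1 1 = g' x 1 0 * tB q (σ x) + g' x 1 1 * tD q (σ x)) ∧
      ∑ x, lam (Additive.ofMul (dChar p ⟨g' x, hg' x⟩)) =
        (q + 1) • lam (Additive.ofMul (dChar p ⟨g, hg⟩)) := by
  have hqN : ¬ q ∣ p := fun h =>
    hqp ((Nat.prime_dvd_prime_iff_eq Fact.out Fact.out).mp h)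
  obtain ⟨σ, g', hg', h⟩ := coset_T hqN hg
  exact ⟨σ, g', hg', h, eis_T p lam q hqp hg σ g' hg' (fun x => (h x).2.2.2)⟩

/-- Existence form for `U_p`. -/
theorem exists_eis_U {g : SL(2, ℤ)} (hg : g ∈ Gamma0 p) :
    ∃ (σ : Equiv.Perm (ZMod p)) (g' : ZMod p → SL(2, ℤ)) (hg' : ∀ j, g' j ∈ Gamma0 p),
      (∀ x,
        uA p x * g 0 0 + uB p x * g 1 0 = g' x 0 0 * uA p (σ x) ∧
        uA p x * g 0 1 + uB p x * g 1 1 = g' x 0 0 * uB p (σ x) + g' x 0 1 * uD p (σ x) ∧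
        uD p x * g 1 0 = g' x 1 0 * uA p (σ x) ∧
        uD p x * g 1 1 = g' x 1 0 * uB p (σ x) + g' x 1 1 * uD p (σ x)) ∧
      ∑ j, lam (Additive.ofMul (dChar p ⟨g' j, hg' j⟩)) =
        p • lam (Additive.ofMul (dChar p ⟨g, hg⟩)) := by
  have : NeZero p := ⟨(Fact.out : p.Prime).ne_zero⟩
  obtain ⟨σ, g', hg', h⟩ := coset_U (dvd_refl p) hg
  exact ⟨σ, g', hg', h, eis_U p lam hg σ g' hg' (fun x => (h x).1)⟩

end Fermat.Agent.S16x.Low.H20
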