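import Fermat.Agent.S16x.Low.Defs
import Fermat.Agent.S16x.Low.H20_Eigen

/-!
# S16 / package LOW (helper20): the leaves (E) `StET p`, `StEU p`, verbatim

An `IsDMult` homomorphism factors through `dChar` (which is surjective), so the eigen-relations
follow from `eis_T` / `eis_U`.
-/

set_option autoImplicit false

open scoped MatrixGroups
open CongruenceSubgroup Fermat.Agent.S22

noncomputable section

namespace Fermat.Agent.S16x.Low.H20

open Fermat.Agent.S16x.Low

variable (p : ℕ) [Fact p.Prime]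

/-- An `IsDMult` homomorphism factors through `dChar`. -/
theorem exists_lam_of_isDMult {A : Type*} [AddCommGroup A]
    (x : Additive ↥(Gamma0 p) →+ A) (hx : IsDMult p x) :
    ∃ lam : Additive (ZMod p)ˣ →+ A,
      ∀ γ : ↥(Gamma0 p), x (Additive.ofMul γ) = lam (Additive.ofMul (dChar p γ)) := by
  classical
  let s : (ZMod p)ˣ → ↥(Gamma0 p) := Function.surjInv (dChar_surjective p)
  have hs : ∀ u, dChar p (s u) = u := Function.surjInv_eq (dChar_surjective p)
  have hmul : ∀ γ γ₁ γ₂ : ↥(Gamma0 p), dChar p γ = dChar p γ₁ * dChar p γ₂ →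
      x (Additive.ofMul γ) = x (Additive.ofMul γ₁) + x (Additive.ofMul γ₂) := by
    intro γ γ₁ γ₂ h
    apply hx
    have h' := congrArg (fun u : (ZMod p)ˣ => (u : ZMod p)) h
    simpa only [Units.val_mul, dChar_coe] using h'
  have hone : x (Additive.ofMul (s 1)) = 0 := by
    have h := hmul (s 1) (s 1) (s 1) (by rw [hs, one_mul])
    exact left_eq_add.mp h
  refine ⟨{ toFun := fun u => x (Additive.ofMul (s (Additive.toMul u)))
            map_zero' := hone
            map_add' := fun u v => ?_ }, fun γ => ?_⟩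
  · apply hmul
    rw [hs, hs, hs]
    rfl
  · show x (Additive.ofMul γ) = x (Additive.ofMul (s (dChar p γ)))
    have h := hmul γ (s (dChar p γ)) (s 1) (by rw [hs, hs, mul_one])
    rw [h, hone, add_zero]

/-- **(E), `T_ℓ`**, verbatim. -/
theorem stET : StET p := by
  intro A _ x hx ℓ _ hℓp g σ g' h
  obtain ⟨lam, hlam⟩ := exists_lam_of_isDMult p x hx
  have h4 : ∀ i, tD ℓ i * (g : SL(2, ℤ)) 1 1 =
      g' i 1 0 * tB ℓ (σ i) + g' i 1 1 * tD ℓ (σ i) := fun i => (h.2 i).2.2.2
  have := eis_T p lam ℓ hℓp g.2 σ g' h.1 h4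
  simp only [hlam]
  exact this

/-- **(E), `U_p`**, verbatim. -/
theorem stEU : StEU p := by
  intro A _ x hx g σ g' h
  obtain ⟨lam, hlam⟩ := exists_lam_of_isDMult p x hx
  have h1 : ∀ j, uA p j * (g : SL(2, ℤ)) 0 0 + uB p j * (g : SL(2, ℤ)) 1 0 =
      g' j 0 0 * uA p (σ j) := fun j => (h.2 j).1
  have := eis_U p lam g.2 σ g' h.1 h1
  simp only [hlam]
  exact this

/-- The Eisenstein class `lam ∘ dChar` is `IsDMult`. -/
theorem eisClass_isDMult {A : Type*} [AddCommGroup A] (lam : Additive (ZMod p)ˣ →+ A)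
    (x : Additive ↥(Gamma0 p) →+ A)
    (hx : ∀ γ : ↥(Gamma0 p), x (Additive.ofMul γ) = lam (Additive.ofMul (dChar p γ))) :
    IsDMult p x := by
  intro γ γ₁ γ₂ h
  rw [hx, hx, hx, ← map_add]
  congr 1
  show Additive.ofMul (dChar p γ) = Additive.ofMul (dChar p γ₁ * dChar p γ₂)
  congr 1
  apply Units.ext
  rw [Units.val_mul, dChar_coe, dChar_coe, dChar_coe]
  exact h

end Fermat.Agent.S16x.Low.H20
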