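import Fermat.Agent.S21.H5_Prim
import Fermat.Agent.S22.HeckeNP
import Fermat.Agent.S22.Coset

/-!
# S16, package LOW, leaf (L4): Hecke equivariance of the period map

For a weight two cusp form `f` on `Γ₀(N)`, an element `g ∈ Γ₀(N)` and coset data
`α_x g = g'_x α_{σ x}` for the standard representatives `α_x` of the Hecke operator `T_l`
(`l ∤ N`; `α_j = [1, j; 0, l]`, `α_∞ = [l, 0; 0, 1]`) resp. `U_q` (`q ∣ N`; `α_j = [1, j; 0, q]`):

`periodMap N (T_l f) g = ∑ x, periodMap N f (g'_x)`.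

The coset data are hypotheses, in the exact output shape of `Fermat.Agent.S22.coset_T` and
`Fermat.Agent.S22.coset_U`, so the statements do not depend on any choice of a definition of
the Hecke operators on `Hom(Γ₀(N), A)`.
-/

set_option autoImplicit false

namespace Fermat.Agent.S16x.Low.H22

open UpperHalfPlane Complex Polynomial CongruenceSubgroup
open ModularCurve ModularCurve.Period
open Fermat.Agent.S22 Fermat.Agent.S21.E1

open scoped MatrixGroups ModularForm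

variable {N : ℕ}

lemma polyAct_zero_one (a b c d : ℂ) : polyAct 0 a b c d (1 : ℂ[X]) = 1 := by
  simp [polyAct]

lemma adjAct_zero_one (a b d : ℤ) : adjAct 0 a b d (1 : ℂ[X]) = 1 :=
  polyAct_zero_one _ _ _ _

lemma actS_zero_one (g : SL(2, ℤ)) : actS 0 g (1 : ℂ[X]) = 1 :=
  polyAct_zero_one _ _ _ _

lemma prim_eq_nprim (f : ℍ → ℂ) (τ : ℍ) : prim f τ = nprim (pf 1 f) (τ : ℂ) := by
  simp [prim, eich, kerPoly]

/-- The S22 period `per f 0 g 1` is the prelude's period `periodMap N f g`. -/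
theorem per_zero_one_eq_periodMap [NeZero N] (f : CuspForm (Gamma0 N) 2) {g : SL(2, ℤ)}
    (hg : g ∈ Gamma0 N) :
    per (f : ℍ → ℂ) 0 g 1 = periodMap N f (Additive.ofMul (⟨g, hg⟩ : Gamma0 N)) := by
  rw [periodMap_apply, per, actS_zero_one, prim_eq_nprim, prim_eq_nprim, coe_smul_eq_mobS]
  rfl

lemma zero_add_two_cast : (((0 : ℕ) : ℤ) + 2) = 2 := by norm_num

/-- **(L4), `T_l`.** Hecke equivariance of the period map for `T_l`, `l ∤ N`, with the coset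
data as hypotheses (exact shape of `Fermat.Agent.S22.coset_T`). -/
theorem l4_T [NeZero N] {l : ℕ} [Fact l.Prime] (hlN : ¬ l ∣ N) (f : CuspForm (Gamma0 N) 2)
    {g : SL(2, ℤ)} (hg : g ∈ Gamma0 N) (σ : Equiv.Perm (OnePoint (ZMod l)))
    (g' : OnePoint (ZMod l) → SL(2, ℤ)) (hg' : ∀ x, g' x ∈ Gamma0 N)
    (hmat : ∀ x,
        tA l x * g 0 0 + tB l x * g 1 0 = g' x 0 0 * tA l (σ x) ∧
        tA l x * g 0 1 + tB l x * g 1 1 = g' x 0 0 * tB l (σ x) + g' x 0 1 * tD l (σ x) ∧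
        tD l x * g 1 0 = g' x 1 0 * tA l (σ x) ∧
        tD l x * g 1 1 = g' x 1 0 * tB l (σ x) + g' x 1 1 * tD l (σ x)) :
    periodMap N (CuspForm.heckeTLin 2 (Fact.out : l.Prime) hlN f)
        (Additive.ofMul (⟨g, hg⟩ : Gamma0 N))
      = ∑ x, periodMap N f (Additive.ofMul (⟨g' x, hg' x⟩ : Gamma0 N)) := by
  have hl : 0 < l := (Fact.out : l.Prime).pos
  have : NeZero l := ⟨hl.ne'⟩
  have hf : GoodH (f : ℍ → ℂ) := goodH_cuspForm f
  set f' : CuspForm (Gamma0 N) 2 := CuspForm.heckeTLin 2 (Fact.out : l.Prime) hlN f with hf'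
  have hcoe : (f' : ℍ → ℂ) = ModularForm.heckeT (((0 : ℕ) : ℤ) + 2) l (f : ℍ → ℂ) := by
    rw [hf', CuspForm.coe_heckeTLin_apply, zero_add_two_cast]
  have hT : ∀ P : ℂ[X], P.natDegree ≤ 0 → ∀ z ∈ UHP,
      nprim (pf P (f' : ℍ → ℂ)) z =
        ∑ x, nprim (pf (adjAct 0 (tA l x) (tB l x) (tD l x) P) (f : ℍ → ℂ))
          (affS (tA l x) (tB l x) (tD l x) z) := by
    intro P hP z hz
    have H := isNP_heckeT hf (p := l) (m := 0) hP
    have hgood := (goodH_cuspForm f').good_pf P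
    rw [hcoe] at hgood ⊢
    exact (H.eq_nprim hgood hz).symm
  have hinv : ∀ x, ∀ τ : ℍ, (f : ℍ → ℂ) (g' x • τ) = denS (g' x) τ ^ (0 + 2) * (f : ℍ → ℂ) τ := by
    intro x τ
    have := cuspForm_smul_eq f (hg' x) τ
    rw [this]
    norm_cast
  have key := per_hecke_abstract (tA l) (tB l) (tD l) (tA_pos hl) (tD_pos hl) (m := 0)
    (f := (f : ℍ → ℂ)) (f' := (f' : ℍ → ℂ)) hf hT g σ g' hinv hmat (P := 1) (by simp)
  rw [← per_zero_one_eq_periodMap f' hg, key]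
  refine Finset.sum_congr rfl fun x _ => ?_
  rw [adjAct_zero_one, per_zero_one_eq_periodMap f (hg' x)]

/-- **(L4), `U_q`.** Hecke equivariance of the period map for `U_q`, `q ∣ N`, with the coset
data as hypotheses (exact shape of `Fermat.Agent.S22.coset_U`). -/
theorem l4_U [NeZero N] {q : ℕ} [NeZero q] (hqN : q ∣ N) (f : CuspForm (Gamma0 N) 2)
    {g : SL(2, ℤ)} (hg : g ∈ Gamma0 N) (σ : Equiv.Perm (ZMod q))
    (g' : ZMod q → SL(2, ℤ)) (hg' : ∀ x, g' x ∈ Gamma0 N)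
    (hmat : ∀ x,
        uA q x * g 0 0 + uB q x * g 1 0 = g' x 0 0 * uA q (σ x) ∧
        uA q x * g 0 1 + uB q x * g 1 1 = g' x 0 0 * uB q (σ x) + g' x 0 1 * uD q (σ x) ∧
        uD q x * g 1 0 = g' x 1 0 * uA q (σ x) ∧
        uD q x * g 1 1 = g' x 1 0 * uB q (σ x) + g' x 1 1 * uD q (σ x)) :
    periodMap N (CuspForm.heckeULin 2 hqN f) (Additive.ofMul (⟨g, hg⟩ : Gamma0 N))
      = ∑ x, periodMap N f (Additive.ofMul (⟨g' x, hg' x⟩ : Gamma0 N)) := by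
  have hq : 0 < q := Nat.pos_of_ne_zero (NeZero.ne q)
  have hf : GoodH (f : ℍ → ℂ) := goodH_cuspForm f
  set f' : CuspForm (Gamma0 N) 2 := CuspForm.heckeULin 2 hqN f with hf'
  have hcoe : (f' : ℍ → ℂ) = ModularForm.heckeU (((0 : ℕ) : ℤ) + 2) q (f : ℍ → ℂ) := by
    rw [hf', CuspForm.coe_heckeULin_apply, zero_add_two_cast]
  have hT : ∀ P : ℂ[X], P.natDegree ≤ 0 → ∀ z ∈ UHP,
      nprim (pf P (f' : ℍ → ℂ)) z =
        ∑ x, nprim (pf (adjAct 0 (uA q x) (uB q x) (uD q x) P) (f : ℍ → ℂ))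
          (affS (uA q x) (uB q x) (uD q x) z) := by
    intro P hP z hz
    have H := isNP_heckeU hf (p := q) (m := 0) hP
    have hgood := (goodH_cuspForm f').good_pf P
    rw [hcoe] at hgood ⊢
    exact (H.eq_nprim hgood hz).symm
  have hinv : ∀ x, ∀ τ : ℍ, (f : ℍ → ℂ) (g' x • τ) = denS (g' x) τ ^ (0 + 2) * (f : ℍ → ℂ) τ := by
    intro x τ
    have := cuspForm_smul_eq f (hg' x) τ
    rw [this]
    norm_cast
  have key := per_hecke_abstract (uA q) (uB q) (uD q) (uA_pos q) (uD_pos hq) (m := 0)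
    (f := (f : ℍ → ℂ)) (f' := (f' : ℍ → ℂ)) hf hT g σ g' hinv hmat (P := 1) (by simp)
  rw [← per_zero_one_eq_periodMap f' hg, key]
  refine Finset.sum_congr rfl fun x _ => ?_
  rw [adjAct_zero_one, per_zero_one_eq_periodMap f (hg' x)]

/-- (L4) for `T_l` with the existence of the coset data built in. -/
theorem l4_T_exists [NeZero N] {l : ℕ} [Fact l.Prime] (hlN : ¬ l ∣ N) {g : SL(2, ℤ)}
    (hg : g ∈ Gamma0 N) :
    ∃ (σ : Equiv.Perm (OnePoint (ZMod l))) (g' : OnePoint (ZMod l) → SL(2, ℤ))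
      (hg' : ∀ x, g' x ∈ Gamma0 N),
      (∀ x,
        tA l x * g 0 0 + tB l x * g 1 0 = g' x 0 0 * tA l (σ x) ∧
        tA l x * g 0 1 + tB l x * g 1 1 = g' x 0 0 * tB l (σ x) + g' x 0 1 * tD l (σ x) ∧
        tD l x * g 1 0 = g' x 1 0 * tA l (σ x) ∧
        tD l x * g 1 1 = g' x 1 0 * tB l (σ x) + g' x 1 1 * tD l (σ x)) ∧
      ∀ f : CuspForm (Gamma0 N) 2,
        periodMap N (CuspForm.heckeTLin 2 (Fact.out : l.Prime) hlN f)
            (Additive.ofMul (⟨g, hg⟩ : Gamma0 N))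
          = ∑ x, periodMap N f (Additive.ofMul (⟨g' x, hg' x⟩ : Gamma0 N)) := by
  obtain ⟨σ, g', hg', hmat⟩ := coset_T hlN hg
  exact ⟨σ, g', hg', hmat, fun f => l4_T hlN f hg σ g' hg' hmat⟩

/-- (L4) for `U_q` with the existence of the coset data built in. -/
theorem l4_U_exists [NeZero N] {q : ℕ} [NeZero q] (hqN : q ∣ N) {g : SL(2, ℤ)}
    (hg : g ∈ Gamma0 N) :
    ∃ (σ : Equiv.Perm (ZMod q)) (g' : ZMod q → SL(2, ℤ)) (hg' : ∀ x, g' x ∈ Gamma0 N),
      (∀ x,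
        uA q x * g 0 0 + uB q x * g 1 0 = g' x 0 0 * uA q (σ x) ∧
        uA q x * g 0 1 + uB q x * g 1 1 = g' x 0 0 * uB q (σ x) + g' x 0 1 * uD q (σ x) ∧
        uD q x * g 1 0 = g' x 1 0 * uA q (σ x) ∧
        uD q x * g 1 1 = g' x 1 0 * uB q (σ x) + g' x 1 1 * uD q (σ x)) ∧
      ∀ f : CuspForm (Gamma0 N) 2,
        periodMap N (CuspForm.heckeULin 2 hqN f) (Additive.ofMul (⟨g, hg⟩ : Gamma0 N))
          = ∑ x, periodMap N f (Additive.ofMul (⟨g' x, hg' x⟩ : Gamma0 N)) := by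
  obtain ⟨σ, g', hg', hmat⟩ := coset_U hqN hg
  exact ⟨σ, g', hg', hmat, fun f => l4_U hqN f hg σ g' hg' hmat⟩

end Fermat.Agent.S16x.Low.H22
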