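import Fermat.Agent.S16x.Low.Defs
import Fermat.Agent.S16x.Low.H22_L4

/-!
# S16, package LOW: the interface statements `StHT`, `StHU` (Hecke equivariance of the periods)

Verbatim proofs of `Fermat.Agent.S16x.Low.StHT N` and `Fermat.Agent.S16x.Low.StHU N`
(`Low/Defs.lean`) from `H22.l4_T`, `H22.l4_U`.
-/

set_option autoImplicit false

open CongruenceSubgroup ModularCurve ModularCurve.Period

open scoped MatrixGroups

namespace Fermat.Agent.S16x.Low.H22

/-- **(H), `T_ℓ`** in the interface shape. -/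
theorem stHT (N : ℕ) : StHT N := by
  intro ℓ _ hℓN f g σ g' h
  rcases Nat.eq_zero_or_pos N with rfl | hN
  · exact absurd (dvd_zero ℓ) hℓN
  · have : NeZero N := ⟨hN.ne'⟩
    exact l4_T hℓN f g.2 σ g' h.1 h.2

/-- **(H), `U_q`** in the interface shape. -/
theorem stHU (N : ℕ) [NeZero N] : StHU N := by
  intro q hq hqN f g σ g' h
  have : NeZero q := ⟨(Fact.out : q.Prime).ne_zero⟩
  exact l4_U hqN f g.2 σ g' h.1 h.2

end Fermat.Agent.S16x.Low.H22
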