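import Fermat.Agent.S16x.Low.Defs
import Fermat.Agent.S21.H5_Prim

/-!
# S16 / package LOW (helper26): the assembly `StEND`

For every `Q ∈ ℤ[X_ℓ]` and every `γ ∈ Γ₀(p)` there is `δ ∈ Γ₀(p)` with
`periodMap (Q(T) f) γ = periodMap f δ` for all cusp forms `f` and `x δ = Q(eis) x γ`
(induction on `Q`).  If `Q(T) = 0`, all periods of `δ` vanish, so the parabolic lift of `x`
vanishes at `δ` (`StK`), hence `Q(eis) x γ = 0`; `x` is surjective.
-/

set_option autoImplicit false

open CongruenceSubgroup ModularCurve ModularCurve.Period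

open scoped MatrixGroups

noncomputable section

namespace Fermat.Agent.S16x.Low.H26

/-- A homomorphism out of `Additive G` turns list products into list sums. -/
theorem h26_map_list_prod {G A ι : Type*} [Group G] [AddCommGroup A] (φ : Additive G →+ A)
    (e : ι → G) (L : List ι) :
    φ (Additive.ofMul (L.map e).prod) = (L.map fun i => φ (Additive.ofMul (e i))).sum := by
  induction L with
  | nil => simp
  | cons a L ih =>
    rw [List.map_cons, List.prod_cons, List.map_cons, List.sum_cons, ofMul_mul, map_add, ih]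

/-- A homomorphism out of `Additive G` and the product of a finite family (in any order). -/
theorem h26_map_univ_prod {G A ι : Type*} [Group G] [AddCommGroup A] [Fintype ι]
    (φ : Additive G →+ A) (e : ι → G) :
    φ (Additive.ofMul ((Finset.univ : Finset ι).toList.map e).prod) =
      ∑ i, φ (Additive.ofMul (e i)) := by
  rw [h26_map_list_prod, Finset.sum_map_toList]

/-- The period map is additive in the cusp form. -/
theorem h26_periodMap_add (N : ℕ) [NeZero N] (f g : CuspForm (Gamma0 N) 2)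
    (γ : Additive ↥(Gamma0 N)) :
    periodMap N (f + g) γ = periodMap N f γ + periodMap N g γ := by
  have h := DFunLike.congr_fun ((Fermat.Agent.S21.E1.pml N).map_add f g) γ
  rw [AddMonoidHom.add_apply] at h
  exact h

/-- The period map is homogeneous in the cusp form. -/
theorem h26_periodMap_smul (N : ℕ) [NeZero N] (c : ℂ) (f : CuspForm (Gamma0 N) 2)
    (γ : Additive ↥(Gamma0 N)) :
    periodMap N (c • f) γ = c * periodMap N f γ := by
  have h := DFunLike.congr_fun ((Fermat.Agent.S21.E1.pml N).map_smul c f) γ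
  rw [AddMonoidHom.smul_apply, smul_eq_mul] at h
  exact h

theorem h26_periodMap_zero (N : ℕ) [NeZero N] (γ : Additive ↥(Gamma0 N)) :
    periodMap N (0 : CuspForm (Gamma0 N) 2) γ = 0 := by
  have h := h26_periodMap_smul N 0 (0 : CuspForm (Gamma0 N) 2) γ
  simpa using h

variable (p : ℕ) [Fact p.Prime]

/-- `p ≡ 1` modulo `n = eisensteinNumerator p`. -/
theorem h26_cast_p : ((p : ℕ) : ZMod (eisensteinNumerator p)) = 1 := by
  have hp : 1 ≤ p := (Fact.out : p.Prime).one_lt.le
  have hdvd : eisensteinNumerator p ∣ p - 1 := eisensteinNumerator_dvd p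
  have h0 : (((p - 1 : ℕ) : ℕ) : ZMod (eisensteinNumerator p)) = 0 :=
    (ZMod.natCast_eq_zero_iff _ _).mpr hdvd
  rw [Nat.cast_sub hp, Nat.cast_one, sub_eq_zero] at h0
  exact h0

/-- The key induction. -/
theorem h26_key (x : Additive ↥(Gamma0 p) →+ ZMod (eisensteinNumerator p))
    (hdm : IsDMult p x) (hET : StET p) (hEU : StEU p) (hHT : StHT p) (hHU : StHU p)
    (Q : HeckeAlg) :
    ∀ γ : ↥(Gamma0 p), ∃ δ : ↥(Gamma0 p),
      (∀ f : CuspForm (Gamma0 p) 2,
        periodMap p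
            ((CuspForm.heckeEvalForms p 2 Q :
              Module.End ℂ (CuspForm (Gamma0 p) 2)) f) (Additive.ofMul γ) =
          periodMap p f (Additive.ofMul δ)) ∧
      x (Additive.ofMul δ) =
        ((MvPolynomial.aeval (eisensteinSystem p) Q : ℤ) : ZMod (eisensteinNumerator p)) *
          x (Additive.ofMul γ) := by
  have hp : p.Prime := Fact.out
  induction Q using MvPolynomial.induction_on with
  | C a =>
    intro γ
    refine ⟨γ ^ a, fun f => ?_, ?_⟩
    · rw [CuspForm.heckeEvalForms_C, ofMul_zpow, map_zsmul]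
      have h1 : ((algebraMap ℤ ↥(CuspForm.heckeAlgebra p 2 ∅) a :
          ↥(CuspForm.heckeAlgebra p 2 ∅)) : Module.End ℂ (CuspForm (Gamma0 p) 2)) f =
          (a : ℂ) • f := by
        rw [Subalgebra.coe_algebraMap, Algebra.algebraMap_eq_smul_one, LinearMap.smul_apply,
          Module.End.one_apply, Int.cast_smul_eq_zsmul]
      rw [h1, h26_periodMap_smul, zsmul_eq_mul]
    · rw [ofMul_zpow, map_zsmul, MvPolynomial.aeval_C, zsmul_eq_mul]
      simp
  | add Q₁ Q₂ ih₁ ih₂ =>
    intro γ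
    obtain ⟨δ₁, h1, h1'⟩ := ih₁ γ
    obtain ⟨δ₂, h2, h2'⟩ := ih₂ γ
    refine ⟨δ₁ * δ₂, fun f => ?_, ?_⟩
    · rw [map_add, Subalgebra.coe_add, LinearMap.add_apply, h26_periodMap_add, h1 f, h2 f,
        ofMul_mul, map_add]
    · rw [ofMul_mul, map_add, h1', h2', map_add, Int.cast_add, add_mul]
  | mul_X Q ℓ ih =>
    intro γ
    obtain ⟨δ, h1, h1'⟩ := ih γ
    have hmul : ∀ f : CuspForm (Gamma0 p) 2,
        ((CuspForm.heckeEvalForms p 2 (Q * MvPolynomial.X ℓ) :
          ↥(CuspForm.heckeAlgebra p 2 ∅)) : Module.End ℂ (CuspForm (Gamma0 p) 2)) f =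
        ((CuspForm.heckeEvalForms p 2 Q : ↥(CuspForm.heckeAlgebra p 2 ∅)) :
          Module.End ℂ (CuspForm (Gamma0 p) 2))
          (((CuspForm.heckeFormsGen p 2 ℓ : ↥(CuspForm.heckeAlgebra p 2 ∅)) :
            Module.End ℂ (CuspForm (Gamma0 p) 2)) f) := by
      intro f
      have := CuspForm.heckeEvalForms_heckeGen p 2 ℓ
      rw [heckeGen] at this
      rw [map_mul, this, Subalgebra.coe_mul, Module.End.mul_apply]
    by_cases hℓ : (ℓ : ℕ) ∣ p
    · -- `ℓ = p`, the operator `U_p`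
      have hℓp : (ℓ : ℕ) = p := (Nat.prime_dvd_prime_iff_eq ℓ.2 hp).mp hℓ
      have : Fact (ℓ : ℕ).Prime := ⟨ℓ.2⟩
      obtain ⟨σ, g', hc⟩ := exists_cosetData_U (N := p) (q := (ℓ : ℕ)) hℓ δ
      have hsum := fun f => hHU (ℓ : ℕ) hℓ f δ σ g' hc
      refine ⟨((Finset.univ : Finset (ZMod (ℓ : ℕ))).toList.map hc.elt).prod, fun f => ?_, ?_⟩
      · rw [hmul, h1, CuspForm.heckeFormsGen_of_dvd hℓ, CuspForm.heckeAlgebra.coe_U, hsum,
          h26_map_univ_prod]
      · rw [h26_map_univ_prod, map_mul, MvPolynomial.aeval_X, eisensteinSystem_of_dvd hℓ,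
          mul_one, ← h1']
        obtain ⟨ℓ, hℓprime⟩ := ℓ
        simp only at hℓp hc ⊢
        subst hℓp
        rw [hEU _ x hdm δ σ g' hc, nsmul_eq_mul, h26_cast_p, one_mul]
    · -- `ℓ ≠ p`, the operator `T_ℓ`
      have hℓp : (ℓ : ℕ) ≠ p := fun h => hℓ (h ▸ dvd_rfl)
      have : Fact (ℓ : ℕ).Prime := ⟨ℓ.2⟩
      obtain ⟨σ, g', hc⟩ := exists_cosetData_T (N := p) (ℓ := (ℓ : ℕ)) hℓ δ
      have hsum := fun f => hHT (ℓ : ℕ) hℓ f δ σ g' hc
      refine ⟨((Finset.univ : Finset (OnePoint (ZMod (ℓ : ℕ)))).toList.map hc.elt).prod,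
        fun f => ?_, ?_⟩
      · rw [hmul, h1, CuspForm.heckeFormsGen_of_not_dvd hℓ, CuspForm.heckeAlgebra.coe_T, hsum,
          h26_map_univ_prod]
      · rw [h26_map_univ_prod, hET _ x hdm (ℓ : ℕ) hℓp δ σ g' hc, map_mul,
          MvPolynomial.aeval_X, eisensteinSystem_of_not_dvd hℓ, h1', nsmul_eq_mul]
        push_cast
        ring

/-- **(END)** the assembly of the lower bound. -/
theorem stEND : StEND p := by
  intro hX hET hEU hHT hHU hL2 hK P hP
  obtain ⟨x, hsurj, hpe, hdm⟩ := hX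
  obtain ⟨y, hypar, hy⟩ := hL2 x hpe
  obtain ⟨γ₀, hγ₀⟩ := hsurj 1
  obtain ⟨δ, h1, h2⟩ := h26_key p x hdm hET hEU hHT hHU P (Additive.toMul γ₀)
  -- all periods of `δ` vanish
  have hper : ∀ f : CuspForm (Gamma0 p) 2, periodMap p f (Additive.ofMul δ) = 0 := by
    intro f
    rw [← h1 f, hP]
    exact h26_periodMap_zero p _
  -- the complex parabolic homomorphism attached to `y`
  have hψ : (Int.castAddHom ℂ).comp y ∈ parabolicHoms ℂ (Gamma0 p) ℂ := by
    intro γ hγ
    show ((y (Additive.ofMul γ) : ℤ) : ℂ) = 0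
    rw [hypar γ hγ, Int.cast_zero]
  have h3 := hK δ hper _ hψ
  have h4 : y (Additive.ofMul δ) = 0 := by
    have : ((y (Additive.ofMul δ) : ℤ) : ℂ) = 0 := h3
    exact_mod_cast this
  have h5 : x (Additive.ofMul δ) = 0 := by
    rw [← hy, h4, Int.cast_zero]
  rw [h5] at h2
  have h6 : x (Additive.ofMul (Additive.toMul γ₀)) = 1 := hγ₀
  rw [h6, mul_one] at h2
  exact h2.symm

end Fermat.Agent.S16x.Low.H26
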