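import Mathlib
import Fermat.Prelude.Def_ModularCurve_PeriodMap
import Fermat.Prelude.Def_ModularCurve_ModularUnit

/-!
# S16 / package LOW (helper2): the Shimura class

For a prime `p` and `n = eisensteinNumerator p = (p - 1) / gcd (p - 1, 12)`:

* `dlog p : (ZMod p)ˣ →* Multiplicative (ZMod n)`, surjective, with kernel `{u | u ^ 12 = 1}`;
* `lowerRight p : Gamma0 p →* (ZMod p)ˣ`, `γ ↦ d mod p`, surjective;
* `shimura p : Additive (Gamma0 p) →+ ZMod n`, surjective; it kills every `γ` with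
  `(trace γ) ^ 2 ≤ 4` (so `± 1`, the elliptic and the parabolic elements) and every `γ` with
  `γ ^ 12 = 1`; in particular it is a parabolic homomorphism.
-/

set_option autoImplicit false

open CongruenceSubgroup Matrix ModularCurve
open scoped MatrixGroups

noncomputable section

namespace Fermat.Agent.S16x.Low.H2

/-! ### Arithmetic of `n = (N / gcd N 12)` -/

theorem dvd_twelve_mul_iff (N : ℕ) (i : ℤ) :
    (N : ℤ) ∣ 12 * i ↔ ((N / Nat.gcd N 12 : ℕ) : ℤ) ∣ i := by
  set d := Nat.gcd N 12 with hd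
  have hd0 : 0 < d := Nat.gcd_pos_of_pos_right N (by norm_num)
  have hN : N = N / d * d := (Nat.div_mul_cancel (Nat.gcd_dvd_left N 12)).symm
  have h12 : 12 = 12 / d * d := (Nat.div_mul_cancel (Nat.gcd_dvd_right N 12)).symm
  have hcop : Nat.Coprime (N / d) (12 / d) := Nat.coprime_div_gcd_div_gcd hd0
  have hN' : (N : ℤ) = ((N / d : ℕ) : ℤ) * (d : ℤ) := by exact_mod_cast hN
  have h12' : (12 : ℤ) = ((12 / d : ℕ) : ℤ) * (d : ℤ) := by exact_mod_cast h12
  have hd0' : (d : ℤ) ≠ 0 := by exact_mod_cast hd0.ne'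
  constructor
  · intro h
    have h1 : ((N / d : ℕ) : ℤ) * (d : ℤ) ∣ (((12 / d : ℕ) : ℤ) * i) * (d : ℤ) := by
      rw [← hN']
      have : ((12 / d : ℕ) : ℤ) * i * (d : ℤ) = 12 * i := by rw [h12']; ring
      rw [this]
      exact h
    have h2 : ((N / d : ℕ) : ℤ) ∣ ((12 / d : ℕ) : ℤ) * i :=
      (mul_dvd_mul_iff_right hd0').mp h1
    have hcop' : IsCoprime ((N / d : ℕ) : ℤ) ((12 / d : ℕ) : ℤ) :=
      Nat.isCoprime_iff_coprime.mpr hcop
    exact hcop'.dvd_of_dvd_mul_left h2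
  · intro h
    obtain ⟨j, rfl⟩ := h
    refine ⟨((12 / d : ℕ) : ℤ) * j, ?_⟩
    rw [hN']
    nth_rewrite 1 [h12']
    ring

/-! ### The discrete logarithm modulo `n` -/

section Dlog

variable (p : ℕ) [Fact p.Prime]

theorem card_units_zmod : Nat.card (ZMod p)ˣ = p - 1 := by
  rw [Nat.card_eq_fintype_card, ZMod.card_units_eq_totient, Nat.totient_prime Fact.out]

/-- a generator of `(ZMod p)ˣ` -/
def gen : (ZMod p)ˣ := (IsCyclic.exists_generator (α := (ZMod p)ˣ)).choose

theorem gen_spec (x : (ZMod p)ˣ) : x ∈ Subgroup.zpowers (gen p) :=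
  (IsCyclic.exists_generator (α := (ZMod p)ˣ)).choose_spec x

theorem orderOf_gen : orderOf (gen p) = p - 1 := by
  rw [orderOf_eq_card_of_forall_mem_zpowers (gen_spec p), card_units_zmod]

/-- The discrete logarithm modulo `n = eisensteinNumerator p`. -/
def dlog : (ZMod p)ˣ →* Multiplicative (ZMod (eisensteinNumerator p)) :=
  (AddMonoidHom.toMultiplicative
    (ZMod.castHom (eisensteinNumerator_dvd p) (ZMod (eisensteinNumerator p))).toAddMonoidHom).comp
    (zmodMulEquivOfGenerator (gen_spec p) (card_units_zmod p)).symm.toMonoidHom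

theorem dlog_gen_zpow (i : ℤ) :
    dlog p (gen p ^ i) = Multiplicative.ofAdd ((i : ZMod (eisensteinNumerator p))) := by
  simp only [dlog, MonoidHom.coe_comp, Function.comp_apply, MulEquiv.coe_toMonoidHom,
    zmodMulEquivOfGenerator_symm_apply_zpow]
  rw [AddMonoidHom.toMultiplicative_apply_apply, toAdd_ofAdd]
  simp

theorem dlog_surjective : Function.Surjective (dlog p) := by
  intro y
  obtain ⟨i, hi⟩ := ZMod.intCast_surjective (Multiplicative.toAdd y)
  exact ⟨gen p ^ i, by rw [dlog_gen_zpow, hi]; rfl⟩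

theorem dlog_eq_one_iff (u : (ZMod p)ˣ) : dlog p u = 1 ↔ u ^ 12 = 1 := by
  obtain ⟨i, rfl⟩ := Subgroup.mem_zpowers_iff.mp (gen_spec p u)
  rw [dlog_gen_zpow]
  have h1 : (Multiplicative.ofAdd ((i : ZMod (eisensteinNumerator p))) = 1) ↔
      ((eisensteinNumerator p : ℕ) : ℤ) ∣ i := by
    rw [← ZMod.intCast_zmod_eq_zero_iff_dvd]
    exact Iff.rfl
  rw [h1]
  have h2 : (gen p ^ i) ^ 12 = 1 ↔ ((p - 1 : ℕ) : ℤ) ∣ 12 * i := by
    rw [← zpow_natCast, ← _root_.zpow_mul, ← orderOf_gen p, orderOf_dvd_iff_zpow_eq_one, mul_comm]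
    norm_num
  rw [h2, dvd_twelve_mul_iff]
  rfl

end Dlog

/-! ### The lower right entry -/

section LowerRight

variable (p : ℕ) [Fact p.Prime]

/-- `γ ↦ d mod p` as a homomorphism `Gamma0 p →* (ZMod p)ˣ`. -/
def lowerRight : Gamma0 p →* (ZMod p)ˣ := (Gamma0Map p).toHomUnits

theorem coe_lowerRight (γ : Gamma0 p) :
    ((lowerRight p γ : (ZMod p)ˣ) : ZMod p) = (((γ : SL(2, ℤ)) 1 1 : ℤ) : ZMod p) := rfl

theorem upperLeft_mul_lowerRight (γ : Gamma0 p) :
    ((((γ : SL(2, ℤ)) 0 0 : ℤ) : ZMod p)) * (((γ : SL(2, ℤ)) 1 1 : ℤ) : ZMod p) = 1 := by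
  have hdet : ((γ : SL(2, ℤ)) : Matrix (Fin 2) (Fin 2) ℤ).det = 1 := (γ : SL(2, ℤ)).2
  rw [Matrix.det_fin_two] at hdet
  have hc : ((((γ : SL(2, ℤ)) 1 0 : ℤ)) : ZMod p) = 0 := Gamma0_mem.mp γ.2
  have h := congrArg (fun x : ℤ => (x : ZMod p)) hdet
  simp only [Int.cast_sub, Int.cast_mul, Int.cast_one] at h
  rw [hc, mul_zero, sub_zero] at h
  exact h

theorem lowerRight_surjective : Function.Surjective (lowerRight p) := by
  intro u
  have hp : p.Prime := Fact.out
  set d : ℤ := ((u : ZMod p).val : ℤ) with hd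
  have hdu : ((d : ℤ) : ZMod p) = (u : ZMod p) := by
    rw [hd]
    simp
  have hcop : IsCoprime d (p : ℤ) := by
    rw [Int.isCoprime_iff_gcd_eq_one]
    have h1 : Int.gcd d (p : ℤ) = Nat.gcd (u : ZMod p).val p := by
      rw [hd]
      exact Int.gcd_natCast_natCast _ _
    rw [h1, Nat.gcd_comm]
    refine (Nat.Prime.coprime_iff_not_dvd hp).mpr fun hdvd => ?_
    have h0 : (u : ZMod p).val = 0 :=
      Nat.eq_zero_of_dvd_of_lt hdvd (ZMod.val_lt _)
    rw [ZMod.val_eq_zero] at h0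
    exact u.ne_zero h0
  obtain ⟨a, b, hab⟩ := hcop
  -- `a * d + b * p = 1`
  have hdet : (!![a, -b; (p : ℤ), d] : Matrix (Fin 2) (Fin 2) ℤ).det = 1 := by
    rw [Matrix.det_fin_two_of]
    linarith
  let g : SL(2, ℤ) := ⟨!![a, -b; (p : ℤ), d], hdet⟩
  have hg : g ∈ Gamma0 p := by
    rw [Gamma0_mem]
    show (((!![a, -b; (p : ℤ), d] : Matrix (Fin 2) (Fin 2) ℤ) 1 0 : ℤ) : ZMod p) = 0
    simp
  refine ⟨⟨g, hg⟩, Units.ext ?_⟩
  rw [coe_lowerRight]
  show (((!![a, -b; (p : ℤ), d] : Matrix (Fin 2) (Fin 2) ℤ) 1 1 : ℤ) : ZMod p) = _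
  simpa using hdu

end LowerRight

/-! ### The Shimura class -/

section Shimura

variable (p : ℕ) [Fact p.Prime]

/-- **The Shimura class** `x : Γ₀(p) → ℤ/n`, `γ ↦ log (d mod p) mod n`. -/
def shimura : Additive (Gamma0 p) →+ ZMod (eisensteinNumerator p) :=
  MonoidHom.toAdditiveLeft ((dlog p).comp (lowerRight p))

theorem shimura_apply (γ : Gamma0 p) :
    shimura p (Additive.ofMul γ) = Multiplicative.toAdd (dlog p (lowerRight p γ)) := rfl

theorem shimura_congr {γ γ' : Gamma0 p} (h : lowerRight p γ = lowerRight p γ') :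
    shimura p (Additive.ofMul γ) = shimura p (Additive.ofMul γ') := by
  rw [shimura_apply, shimura_apply, h]

theorem shimura_surjective : Function.Surjective (shimura p) := by
  intro y
  obtain ⟨u, hu⟩ := dlog_surjective p (Multiplicative.ofAdd y)
  obtain ⟨γ, hγ⟩ := lowerRight_surjective p u
  exact ⟨Additive.ofMul γ, by rw [shimura_apply, hγ, hu]; rfl⟩

theorem shimura_eq_zero_iff (γ : Gamma0 p) :
    shimura p (Additive.ofMul γ) = 0 ↔ ((((γ : SL(2, ℤ)) 1 1 : ℤ) : ZMod p)) ^ 12 = 1 := by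
  rw [shimura_apply]
  have h1 : Multiplicative.toAdd (dlog p (lowerRight p γ)) = 0 ↔ dlog p (lowerRight p γ) = 1 :=
    Iff.rfl
  rw [h1, dlog_eq_one_iff, ← coe_lowerRight, ← Units.val_pow_eq_pow_val, Units.val_eq_one]

theorem shimura_of_pow_twelve (γ : Gamma0 p) (h : γ ^ 12 = 1) :
    shimura p (Additive.ofMul γ) = 0 := by
  rw [shimura_apply]
  have h1 : lowerRight p γ ^ 12 = 1 := by rw [← map_pow, h, map_one]
  rw [(dlog_eq_one_iff p _).mpr h1]
  rfl

/-- `x` kills `± 1`, the elliptic and the parabolic elements. -/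
theorem shimura_of_trace_sq_le_four (γ : Gamma0 p)
    (h : ((γ : SL(2, ℤ)) : Matrix (Fin 2) (Fin 2) ℤ).trace ^ 2 ≤ 4) :
    shimura p (Additive.ofMul γ) = 0 := by
  rw [shimura_eq_zero_iff]
  set a : ZMod p := ((((γ : SL(2, ℤ)) 0 0 : ℤ)) : ZMod p) with ha
  set d : ZMod p := ((((γ : SL(2, ℤ)) 1 1 : ℤ)) : ZMod p) with hd
  have had : a * d = 1 := upperLeft_mul_lowerRight p γ
  rw [Matrix.trace_fin_two] at h
  set t : ℤ := (γ : SL(2, ℤ)) 0 0 + (γ : SL(2, ℤ)) 1 1 with ht
  have htc : ((t : ℤ) : ZMod p) = a + d := by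
    rw [ht, Int.cast_add]
  have hquad : d ^ 2 - (t : ZMod p) * d + 1 = 0 := by
    rw [htc]
    linear_combination -had
  have hlo : -2 ≤ t := by nlinarith
  have hhi : t ≤ 2 := by nlinarith
  have hcases : t = -2 ∨ t = -1 ∨ t = 0 ∨ t = 1 ∨ t = 2 := by omega
  rcases hcases with h | h | h | h | h
  · rw [h] at hquad
    have h1 : (d + 1) ^ 2 = 0 := by
      push_cast at hquad
      linear_combination hquad
    have h2 : d = -1 := by
      have := pow_eq_zero_iff (n := 2) (by norm_num) |>.mp h1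
      linear_combination this
    rw [h2]
    norm_num
  · rw [h] at hquad
    push_cast at hquad
    linear_combination (d ^ 10 - d ^ 9 + d ^ 7 - d ^ 6 + d ^ 4 - d ^ 3 + d - 1) * hquad
  · rw [h] at hquad
    push_cast at hquad
    linear_combination (d ^ 10 - d ^ 8 + d ^ 6 - d ^ 4 + d ^ 2 - 1) * hquad
  · rw [h] at hquad
    push_cast at hquad
    linear_combination (d ^ 10 + d ^ 9 - d ^ 7 - d ^ 6 + d ^ 4 + d ^ 3 - d - 1) * hquad
  · rw [h] at hquad
    have h1 : (d - 1) ^ 2 = 0 := by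
      push_cast at hquad
      linear_combination hquad
    have h2 : d = 1 := by
      have := pow_eq_zero_iff (n := 2) (by norm_num) |>.mp h1
      linear_combination this
    rw [h2]
    norm_num

/-- `x` is a parabolic homomorphism. -/
theorem shimura_isParabolicHom : ModularCurve.Period.IsParabolicHom (Gamma0 p) (shimura p) :=
  fun γ hγ => shimura_of_trace_sq_le_four p γ (le_of_eq hγ)

theorem shimura_mem_parabolicHoms :
    shimura p ∈ ModularCurve.Period.parabolicHoms ℤ (Gamma0 p) (ZMod (eisensteinNumerator p)) :=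
  shimura_isParabolicHom p

end Shimura

end Fermat.Agent.S16x.Low.H2
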