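import Fermat.Agent.S16x.Low.Defs
import Fermat.Agent.S16x.Low.H2_Shimura

/-!
# S16 / package LOW (helper2): leaf (X), verbatim `StX p`

The Shimura class `shimura p` of `H2_Shimura` is surjective, kills the elements with
`trace² ≤ 4` and depends only on `d mod p`, multiplicatively.
-/

set_option autoImplicit false

open CongruenceSubgroup Matrix ModularCurve
open scoped MatrixGroups

noncomputable section

namespace Fermat.Agent.S16x.Low.H2

variable (p : ℕ) [Fact p.Prime]

/-- `shimura p` depends only on `d mod p`, multiplicatively. -/
theorem shimura_isDMult : IsDMult p (shimura p) := by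
  intro γ γ₁ γ₂ h
  have h1 : lowerRight p γ = lowerRight p (γ₁ * γ₂) := by
    apply Units.ext
    rw [map_mul, Units.val_mul, coe_lowerRight, coe_lowerRight, coe_lowerRight]
    exact h
  rw [shimura_congr p h1, ofMul_mul, map_add]

/-- `shimura p` kills the elements with `trace² ≤ 4`. -/
theorem shimura_isParEll : IsParEll p (shimura p) :=
  fun γ hγ => shimura_of_trace_sq_le_four p γ hγ

/-- **(X)**, verbatim. -/
theorem stX : StX p :=
  ⟨shimura p, shimura_surjective p, shimura_isParEll p, shimura_isDMult p⟩

example (p : ℕ) [Fact p.Prime] : Fermat.Agent.S16x.Low.StX p := stX p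

end Fermat.Agent.S16x.Low.H2

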