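import Fermat.Agent.S16x.Low.Defs
import Fermat.Agent.S16x.Low.H26_End
import Fermat.Agent.S16x.Low.H2_StX
import Fermat.Agent.S16x.Low.H20_StE
import Fermat.Agent.S16x.Low.H22_StH
import Fermat.Agent.S16x.Asm.Defs
import Fermat.Agent.S16x.Red.H19_Card
import Fermat.Agent.S23

/-!
# S16 / package LOW (coordinator helper26): the wiring of the lower bound

* `stLOW_of`   : `Low.StLOW p` from the two leaves still open, (L2) `StL2 p n` and (K) `StK p`
                 (the leaves (X), (E), (H) and the assembly (END) are plugged in);
* `stADAPT`    : `Low.StADAPT p` (`latticeRestrictHom p ∅` is injective by S23);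
* `asmStLOW_of_low'` : `Low.StLOW' p → Asm.StLOW p` (the vocabulary of the chief);
* `asmStLOW_of` : `StL2 p n → StK p → Asm.StLOW p`, the deliverable of the package.
-/

set_option autoImplicit false

open CongruenceSubgroup ModularCurve ModularCurve.Period CuspForm

open scoped MatrixGroups

noncomputable section

namespace Fermat.Agent.S16x.Low.H26

variable (p : ℕ) [Fact p.Prime]

/-- `Low.StLOW p` from the leaves (L2) and (K). -/
theorem stLOW_of (hL2 : StL2 p (eisensteinNumerator p)) (hK : StK p) : StLOW p :=
  stEND p (H2.stX p) (H20.stET p) (H20.stEU p) (H22.stHT p) (H22.stHU p) hL2 hK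

/-- **(ADAPT)**: `latticeRestrictHom p ∅` is injective (S23). -/
theorem stADAPT : StADAPT p := by
  intro h P hP
  apply h P
  have hinj := (latticeRestrictHom_bijective p ∅ (Fermat.Agent.S23.result p)).1
  apply hinj
  rw [map_zero]
  exact hP

/-- From the vocabulary of `Low/Defs` to the vocabulary of `Asm/Defs`. -/
theorem asmStLOW_of_low' (h : StLOW' p) : Fermat.Agent.S16x.Asm.StLOW p := by
  intro P hP
  rw [Fermat.Agent.S16x.Red.h19_eisChar_eq]
  exact h P hP

/-- **The deliverable of the package LOW**, from the leaves (L2) and (K). -/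
theorem asmStLOW_of (hL2 : StL2 p (eisensteinNumerator p)) (hK : StK p) :
    Fermat.Agent.S16x.Asm.StLOW p :=
  asmStLOW_of_low' p (stADAPT p (stLOW_of p hL2 hK))

end Fermat.Agent.S16x.Low.H26
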