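import Fermat.Agent.S16x.Low.H26_EndJ
import Fermat.Agent.S16x.Low.H26_Wire
import Fermat.Agent.S16x.Low.H23_StL2

/-!
# S16 / package LOW (coordinator helper26): the deliverable, hypothesis-free

`stLOW p : Asm.StLOW p` - the Eisenstein character modulo `n = eisensteinNumerator p` kills the
kernel of `ρ : ℤ[X_ℓ] → T`.

Leaves: (X) helper2 (`H2.stX`), (E) helper20 (`H20.stET`, `H20.stEU`), (L2) helper23
(`H23.h23_stL2`, with helper9's bound), Hecke equivariance of the periods helper5
(`H5_PerHecke`) and helper22; assembly `H26_EndJ`, adapters `H26_Wire`.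
-/

set_option autoImplicit false

open ModularCurve

noncomputable section

namespace Fermat.Agent.S16x.Low.H26

variable (p : ℕ) [Fact p.Prime]

/-- **(LOW)** on the Hecke algebra of the cusp forms. -/
theorem stLOW_forms : Fermat.Agent.S16x.Low.StLOW p :=
  stLOW_of_XEL p (H2.stX p) (H20.stET p) (H20.stEU p) (H23.h23_stL2 p (eisensteinNumerator p))

/-- **(LOW)** on the lattice Hecke algebra. -/
theorem stLOW_lattice : Fermat.Agent.S16x.Low.StLOW' p :=
  stADAPT p (stLOW_forms p)

/-- **(LOW)**, the deliverable of the package: `Asm.StLOW p`. -/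
theorem stLOW : Fermat.Agent.S16x.Asm.StLOW p :=
  asmStLOW_of_low' p (stLOW_lattice p)

end Fermat.Agent.S16x.Low.H26
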