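import Mathlib
import Fermat.Prelude.Def_ModularCurve_PeriodMap
import Fermat.Prelude.Def_ModularCurve_ModularUnit

/-!
# S16 / LOW, leaf (X): the Shimura class

For a prime `p` and `n = eisensteinNumerator p = (p - 1) / gcd (p - 1) 12` the map
`γ = (a b; c d) ↦ d mod p` induces a surjective homomorphism `Γ₀(p) → ℤ/n` which kills every
element of trace `0, ±1, ±2` (elliptic and parabolic elements, `-1`) and every element of
order dividing `12`.
-/

set_option autoImplicit false

open CongruenceSubgroup Matrix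
open scoped MatrixGroups

noncomputable section

namespace Fermat.Agent.S16x.Low.H16

/-- The lower right entry, as a homomorphism `Γ₀(N) → (ℤ/N)ˣ`. -/
def dHom (N : ℕ) : Gamma0 N →* (ZMod N)ˣ := (Gamma0Map N).toHomUnits

theorem dHom_coe (N : ℕ) (γ : Gamma0 N) :
    ((dHom N γ : (ZMod N)ˣ) : ZMod N) = (((γ : SL(2, ℤ)) 1 1 : ℤ) : ZMod N) := rfl

/-- `a d = 1` in `ℤ/N` for `γ ∈ Γ₀(N)`. -/
theorem a_mul_d (N : ℕ) (γ : Gamma0 N) :
    (((γ : SL(2, ℤ)) 0 0 : ℤ) : ZMod N) * (((γ : SL(2, ℤ)) 1 1 : ℤ) : ZMod N) = 1 := by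
  have hdet := Matrix.SpecialLinearGroup.det_coe (γ : SL(2, ℤ))
  rw [Matrix.det_fin_two] at hdet
  have hc : (((γ : SL(2, ℤ)) 1 0 : ℤ) : ZMod N) = 0 := Gamma0_mem.mp γ.2
  have := congrArg (Int.cast : ℤ → ZMod N) hdet
  push_cast at this
  rw [hc, mul_zero, sub_zero] at this
  exact this

/-- Every unit of `ℤ/N` is the lower right entry of an element of `Γ₀(N)`. -/
theorem dHom_surjective (N : ℕ) [NeZero N] : Function.Surjective (dHom N) := by
  intro u
  -- integers representing `u⁻¹` and `u`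
  obtain ⟨a, ha⟩ := ZMod.intCast_surjective ((u⁻¹ : (ZMod N)ˣ) : ZMod N)
  obtain ⟨d, hd⟩ := ZMod.intCast_surjective ((u : (ZMod N)ˣ) : ZMod N)
  have had : ((a * d - 1 : ℤ) : ZMod N) = 0 := by
    push_cast
    rw [ha, hd, Units.inv_mul, sub_self]
  obtain ⟨m, hm⟩ := (ZMod.intCast_zmod_eq_zero_iff_dvd _ _).mp had
  have hdet : (!![a, m; (N : ℤ), d] : Matrix (Fin 2) (Fin 2) ℤ).det = 1 := by
    rw [Matrix.det_fin_two_of]
    linarith
  let g : SL(2, ℤ) := ⟨!![a, m; (N : ℤ), d], hdet⟩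
  have hg : g ∈ Gamma0 N := by
    rw [Gamma0_mem]
    show (((!![a, m; (N : ℤ), d] : Matrix (Fin 2) (Fin 2) ℤ) 1 0 : ℤ) : ZMod N) = 0
    simp
  refine ⟨⟨g, hg⟩, ?_⟩
  apply Units.ext
  rw [dHom_coe]
  show (((!![a, m; (N : ℤ), d] : Matrix (Fin 2) (Fin 2) ℤ) 1 1 : ℤ) : ZMod N) = _
  simpa using hd

/-- Cayley–Hamilton for `2 × 2` integer matrices. -/
theorem sq_eq_trace_smul_sub (M : Matrix (Fin 2) (Fin 2) ℤ) :
    M * M = M.trace • M - M.det • (1 : Matrix (Fin 2) (Fin 2) ℤ) := by
  ext i j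
  fin_cases i <;> fin_cases j <;>
    simp only [Matrix.mul_apply, Fin.sum_univ_two, Matrix.sub_apply, Matrix.smul_apply,
      Matrix.one_apply, smul_eq_mul, Matrix.trace_fin_two, Matrix.det_fin_two, Fin.zero_eta,
      Fin.mk_one, Fin.isValue, if_true, if_false, one_ne_zero, zero_ne_one, mul_one,
      mul_zero] <;>
    (try simp) <;> ring

/-- The traces of the powers of a matrix of determinant one satisfy
`s (k + 2) = t * s (k + 1) - s k`. -/
theorem trace_pow_rec (M : Matrix (Fin 2) (Fin 2) ℤ) (hdet : M.det = 1) (k : ℕ) :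
    (M ^ (k + 2)).trace = M.trace * (M ^ (k + 1)).trace - (M ^ k).trace := by
  have h : M ^ (k + 2) = M.trace • M ^ (k + 1) - M ^ k := by
    rw [pow_add, pow_two, sq_eq_trace_smul_sub, hdet, one_smul, mul_sub, mul_one,
      Matrix.mul_smul, ← pow_succ]
  rw [h, Matrix.trace_sub, Matrix.trace_smul, smul_eq_mul]

/-- A matrix of determinant one and `|trace| ≥ 3` has infinite order: the traces of its powers
grow. -/
theorem abs_trace_pow_lt (M : Matrix (Fin 2) (Fin 2) ℤ) (hdet : M.det = 1)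
    (ht : 3 ≤ |M.trace|) (k : ℕ) :
    |(M ^ k).trace| < |(M ^ (k + 1)).trace| ∧ 2 ≤ |(M ^ k).trace| := by
  induction k with
  | zero =>
    have h0 : (M ^ 0).trace = 2 := by simp
    rw [h0, zero_add, pow_one]
    constructor
    · rw [abs_of_pos (by norm_num : (0 : ℤ) < 2)]; omega
    · rw [abs_of_pos (by norm_num : (0 : ℤ) < 2)]
  | succ k ih =>
    obtain ⟨ih1, ih2⟩ := ih
    refine ⟨?_, by omega⟩
    rw [trace_pow_rec M hdet k]
    have h1 : |M.trace * (M ^ (k + 1)).trace| - |(M ^ k).trace| ≤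
        |M.trace * (M ^ (k + 1)).trace - (M ^ k).trace| := abs_sub_abs_le_abs_sub _ _
    rw [abs_mul] at h1
    have h2 : 3 * |(M ^ (k + 1)).trace| ≤ |M.trace| * |(M ^ (k + 1)).trace| :=
      mul_le_mul_of_nonneg_right ht (abs_nonneg _)
    omega

/-- Elements of finite order of `SL(2, ℤ)` have `trace ^ 2 ≤ 4`. -/
theorem trace_sq_le_four_of_isOfFinOrder (g : SL(2, ℤ)) (h : IsOfFinOrder g) :
    (g : Matrix (Fin 2) (Fin 2) ℤ).trace ^ 2 ≤ 4 := by
  by_contra hcon
  set M : Matrix (Fin 2) (Fin 2) ℤ := (g : Matrix (Fin 2) (Fin 2) ℤ) with hM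
  have ht : 3 ≤ |M.trace| := by
    by_contra h3
    apply hcon
    have : |M.trace| ≤ 2 := by omega
    have h4 := abs_le.mp this
    nlinarith
  obtain ⟨k, hk, hgk⟩ := isOfFinOrder_iff_pow_eq_one.mp h
  have hMk : M ^ k = 1 := by
    have := congrArg (fun x : SL(2, ℤ) => (x : Matrix (Fin 2) (Fin 2) ℤ)) hgk
    simpa using this
  obtain ⟨j, rfl⟩ : ∃ j, k = j + 1 := ⟨k - 1, by omega⟩
  have h1 := abs_trace_pow_lt M g.2 ht j
  rw [hMk] at h1
  have h2 : (1 : Matrix (Fin 2) (Fin 2) ℤ).trace = 2 := by simp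
  rw [h2, abs_of_pos (by norm_num : (0 : ℤ) < 2)] at h1
  omega

section Prime

variable (p : ℕ) [Fact p.Prime]

/-- Elements of trace `0, ±1, ±2` have `d ^ 12 = 1`. -/
theorem dHom_pow_twelve_of_trace (γ : Gamma0 p)
    (h : ((γ : SL(2, ℤ)) : Matrix (Fin 2) (Fin 2) ℤ).trace ^ 2 ≤ 4) : dHom p γ ^ 12 = 1 := by
  apply Units.ext
  rw [Units.val_pow_eq_pow_val, dHom_coe, Units.val_one]
  have had := a_mul_d p γ
  rw [Matrix.trace_fin_two] at h
  set a : ℤ := (γ : SL(2, ℤ)) 0 0 with ha
  set d : ℤ := (γ : SL(2, ℤ)) 1 1 with hd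
  set A : ZMod p := (a : ZMod p) with hA
  set D : ZMod p := (d : ZMod p) with hD
  have ht : a + d = 0 ∨ a + d = 1 ∨ a + d = -1 ∨ a + d = 2 ∨ a + d = -2 := by
    have h1 : -2 ≤ a + d := by nlinarith
    have h2 : a + d ≤ 2 := by nlinarith
    omega
  have hAD : ∀ t : ℤ, a + d = t → A = (t : ZMod p) - D := by
    intro t ht
    have := congrArg (Int.cast : ℤ → ZMod p) ht
    push_cast at this
    rw [← this]; ring
  rcases ht with h0 | h0 | h0 | h0 | h0
  · have hA' := hAD _ h0
    rw [hA'] at had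
    push_cast at had
    have h2 : D ^ 2 = -1 := by linear_combination -had
    calc D ^ 12 = (D ^ 2) ^ 6 := by ring
      _ = 1 := by rw [h2]; ring
  · have hA' := hAD _ h0
    rw [hA'] at had
    push_cast at had
    have h3 : D ^ 3 = -1 := by linear_combination -(D + 1) * had
    calc D ^ 12 = (D ^ 3) ^ 4 := by ring
      _ = 1 := by rw [h3]; ring
  · have hA' := hAD _ h0
    rw [hA'] at had
    push_cast at had
    have h3 : D ^ 3 = 1 := by linear_combination -(D - 1) * had
    calc D ^ 12 = (D ^ 3) ^ 4 := by ring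
      _ = 1 := by rw [h3]; ring
  · have hA' := hAD _ h0
    rw [hA'] at had
    push_cast at had
    have h2 : (D - 1) ^ 2 = 0 := by linear_combination -had
    have h1 : D = 1 := by
      have := pow_eq_zero_iff (two_ne_zero) |>.mp h2
      linear_combination this
    rw [h1]; ring
  · have hA' := hAD _ h0
    rw [hA'] at had
    push_cast at had
    have h2 : (D + 1) ^ 2 = 0 := by linear_combination -had
    have h1 : D = -1 := by
      have := pow_eq_zero_iff (two_ne_zero) |>.mp h2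
      linear_combination this
    rw [h1]; ring

/-- Elements of order dividing `12` have `d ^ 12 = 1`. -/
theorem dHom_pow_twelve_of_pow (N : ℕ) (γ : Gamma0 N) (h : γ ^ 12 = 1) : dHom N γ ^ 12 = 1 := by
  rw [← map_pow, h, map_one]

/-- `n ∣ p - 1`-quotient of the cyclic group `(ℤ/p)ˣ` killing the `12`-torsion. -/
theorem exists_psi :
    ∃ ψ : (ZMod p)ˣ →* Multiplicative (ZMod (ModularCurve.eisensteinNumerator p)),
      Function.Surjective ψ ∧ ∀ u : (ZMod p)ˣ, u ^ 12 = 1 → ψ u = 1 := by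
  classical
  have hp : p.Prime := Fact.out
  set n := ModularCurve.eisensteinNumerator p with hn
  have hcard : Nat.card (ZMod p)ˣ = p - 1 := by
    rw [Nat.card_eq_fintype_card, ZMod.card_units]
  have hcyc : IsCyclic (ZMod p)ˣ := inferInstance
  have hdvd : n ∣ Nat.card (ZMod p)ˣ := by
    rw [hcard]; exact ModularCurve.eisensteinNumerator_dvd p
  let e : Multiplicative (ZMod (Nat.card (ZMod p)ˣ)) ≃* (ZMod p)ˣ := zmodCyclicMulEquiv hcyc
  let c : ZMod (Nat.card (ZMod p)ˣ) →+* ZMod n := ZMod.castHom hdvd (ZMod n)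
  let ψ : (ZMod p)ˣ →* Multiplicative (ZMod n) :=
    (AddMonoidHom.toMultiplicative c.toAddMonoidHom).comp e.symm.toMonoidHom
  refine ⟨ψ, ?_, ?_⟩
  · intro y
    obtain ⟨x, hx⟩ := ZMod.castHom_surjective hdvd (Multiplicative.toAdd y)
    refine ⟨e (Multiplicative.ofAdd x), ?_⟩
    show Multiplicative.ofAdd (c (Multiplicative.toAdd (e.symm (e (Multiplicative.ofAdd x))))) = y
    rw [MulEquiv.symm_apply_apply]
    exact congrArg Multiplicative.ofAdd hx
  · intro u hu
    set k : ZMod (Nat.card (ZMod p)ˣ) := Multiplicative.toAdd (e.symm u) with hk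
    have h12 : (12 : ℕ) • k = 0 := by
      have : e.symm (u ^ 12) = 1 := by rw [hu, map_one]
      rw [map_pow] at this
      have h2 := congrArg Multiplicative.toAdd this
      rwa [toAdd_pow, toAdd_one] at h2
    show Multiplicative.ofAdd (c k) = 1
    have hc0 : c k = 0 := by
      have hp1 : 0 < p - 1 := by have := hp.two_le; omega
      have : NeZero (Nat.card (ZMod p)ˣ) := ⟨by rw [hcard]; omega⟩
      -- pass to natural numbers
      have hkval : ((k.val : ℕ) : ZMod (Nat.card (ZMod p)ˣ)) = k := ZMod.natCast_zmod_val k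
      have h12' : ((12 * k.val : ℕ) : ZMod (Nat.card (ZMod p)ˣ)) = 0 := by
        push_cast
        rw [hkval]
        simpa [nsmul_eq_mul] using h12
      have hd1 : (p - 1) ∣ 12 * k.val := by
        have := (ZMod.natCast_eq_zero_iff _ _).mp h12'
        exact (dvd_of_eq hcard.symm).trans this
      -- `p - 1 = n * g`, `12 = g * t`, `gcd n t = 1`
      set g := Nat.gcd (p - 1) 12 with hg
      have hgpos : 0 < g := Nat.gcd_pos_of_pos_left _ hp1
      have hn' : n * g = p - 1 := Nat.div_mul_cancel (Nat.gcd_dvd_left _ _)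
      have ht : (12 / g) * g = 12 := Nat.div_mul_cancel (Nat.gcd_dvd_right _ _)
      have hcop : Nat.Coprime n (12 / g) := Nat.coprime_div_gcd_div_gcd hgpos
      have hd2 : n * g ∣ (12 / g) * g * k.val := by rw [hn', ht]; exact hd1
      have hd3 : n ∣ (12 / g) * k.val := by
        have : n * g ∣ ((12 / g) * k.val) * g := by
          rw [show ((12 / g) * k.val) * g = (12 / g) * g * k.val by ring]; exact hd2
        exact Nat.dvd_of_mul_dvd_mul_right hgpos this
      have hd4 : n ∣ k.val := hcop.dvd_of_dvd_mul_left hd3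
      rw [← hkval, map_natCast]
      exact (ZMod.natCast_eq_zero_iff _ _).mpr hd4
    rw [hc0]; rfl

/-- A fixed choice of the quotient map `(ℤ/p)ˣ → ℤ/n`. -/
def psi : (ZMod p)ˣ →* Multiplicative (ZMod (ModularCurve.eisensteinNumerator p)) :=
  (exists_psi p).choose

theorem psi_surjective : Function.Surjective (psi p) := (exists_psi p).choose_spec.1

theorem psi_eq_one (u : (ZMod p)ˣ) (hu : u ^ 12 = 1) : psi p u = 1 :=
  (exists_psi p).choose_spec.2 u hu

/-- **The Shimura class** `Γ₀(p) → ℤ/n`, `γ ↦ ψ (d mod p)`. -/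
def shimura : Additive (Gamma0 p) →+ ZMod (ModularCurve.eisensteinNumerator p) where
  toFun γ := Multiplicative.toAdd (psi p (dHom p (Additive.toMul γ)))
  map_zero' := by simp
  map_add' γ δ := by simp

theorem shimura_apply (γ : Gamma0 p) :
    shimura p (Additive.ofMul γ) = Multiplicative.toAdd (psi p (dHom p γ)) := rfl

theorem shimura_surjective : Function.Surjective (shimura p) := by
  intro y
  obtain ⟨u, hu⟩ := psi_surjective p (Multiplicative.ofAdd y)
  have : NeZero p := ⟨(Fact.out : p.Prime).ne_zero⟩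
  obtain ⟨γ, hγ⟩ := dHom_surjective p u
  refine ⟨Additive.ofMul γ, ?_⟩
  rw [shimura_apply, hγ, hu]; rfl

theorem shimura_spec :
    ∃ ψ : (ZMod p)ˣ →* Multiplicative (ZMod (ModularCurve.eisensteinNumerator p)),
      Function.Surjective ψ ∧ (∀ u : (ZMod p)ˣ, u ^ 12 = 1 → ψ u = 1) ∧
      ∀ γ : Gamma0 p, shimura p (Additive.ofMul γ) = Multiplicative.toAdd (ψ (dHom p γ)) :=
  ⟨psi p, psi_surjective p, psi_eq_one p, fun _ => rfl⟩

/-- The Shimura class kills all elements of trace `0, ±1, ±2`. -/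
theorem shimura_of_trace (γ : Gamma0 p)
    (h : ((γ : SL(2, ℤ)) : Matrix (Fin 2) (Fin 2) ℤ).trace ^ 2 ≤ 4) :
    shimura p (Additive.ofMul γ) = 0 := by
  rw [shimura_apply, psi_eq_one p _ (dHom_pow_twelve_of_trace p γ h)]; rfl

/-- The Shimura class is a parabolic homomorphism. -/
theorem shimura_parabolic : ModularCurve.Period.IsParabolicHom (Gamma0 p) (shimura p) :=
  fun γ hγ => shimura_of_trace p γ (le_of_eq hγ)

theorem shimura_mem_parabolicHoms :
    shimura p ∈ ModularCurve.Period.parabolicHoms ℤ (Gamma0 p)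
      (ZMod (ModularCurve.eisensteinNumerator p)) :=
  shimura_parabolic p

/-- The Shimura class kills all elements of order dividing `12`. -/
theorem shimura_of_pow_twelve (γ : Gamma0 p) (h : γ ^ 12 = 1) :
    shimura p (Additive.ofMul γ) = 0 := by
  rw [shimura_apply, psi_eq_one p _ (dHom_pow_twelve_of_pow p γ h)]; rfl

/-- The Shimura class kills all elements of finite order. -/
theorem shimura_of_isOfFinOrder (γ : Gamma0 p) (h : IsOfFinOrder γ) :
    shimura p (Additive.ofMul γ) = 0 := by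
  refine shimura_of_trace p γ (trace_sq_le_four_of_isOfFinOrder (γ : SL(2, ℤ)) ?_)
  obtain ⟨k, hk, hγ⟩ := isOfFinOrder_iff_pow_eq_one.mp h
  refine isOfFinOrder_iff_pow_eq_one.mpr ⟨k, hk, ?_⟩
  have := congrArg (Subtype.val : Gamma0 p → SL(2, ℤ)) hγ
  simpa using this

end Prime

end Fermat.Agent.S16x.Low.H16
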