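import Fermat.Agent.S16x.Low.H9_Bound
import Fermat.Agent.S21.H10_ParBoundFinal

/-!
# S16, package LOW, leaf L2b (SL2 form):
`dim_k {φ : Γ₀(N) → k parabolic, trivial on elements of finite order} ≤ 2 * genusFormula N`
for EVERY field `k`.

Specialisation of `h9_generic_bound` to `G = SL(2, ℤ)`, `Γ = Γ₀(N)` and the standard
generators `S`, `T`, combined with the combinatorial genus count
`Fermat.Agent.S24.Comb.h9_genus_count`.
-/

set_option autoImplicit false

open Module
open scoped MatrixGroups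
open CongruenceSubgroup ModularCurve ModularCurve.Period

namespace Fermat.Agent.S16x.Low.H9

open Fermat.Agent.S21.E2

theorem sl2_S_pow_four : (ModularGroup.S : SL(2, ℤ)) ^ 4 = 1 := by decide

theorem sl2_ST_pow_six : ((ModularGroup.S * ModularGroup.T : SL(2, ℤ))) ^ 6 = 1 := by decide

/-- A conjugate of a power of an element of finite order has finite order. -/
theorem isOfFinOrder_conj_pow {G : Type*} [Group G] {a : G} {m : ℕ} (hm : 0 < m)
    (ha : a ^ m = 1) (n : ℕ) (g : G) : IsOfFinOrder (g⁻¹ * a ^ n * g) := by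
  rw [isOfFinOrder_iff_pow_eq_one]
  refine ⟨m, hm, ?_⟩
  have h : (g⁻¹ * a ^ n * g) ^ m = g⁻¹ * (a ^ n) ^ m * g := by
    have := conj_pow (a := g⁻¹) (b := a ^ n) (i := m)
    simpa using this
  rw [h, ← pow_mul, mul_comm n m, pow_mul, ha, one_pow, mul_one, inv_mul_cancel]

/-- The space of homomorphisms `Γ₀(N) → A` which are parabolic and kill the elements of finite
order. -/
def ellParHoms (R : Type*) [Semiring R] (N : ℕ) (A : Type*) [AddCommGroup A] [Module R A] :
    Submodule R (Additive (Gamma0 N) →+ A) where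
  carrier := {φ | IsParabolicHom (Gamma0 N) φ ∧
    ∀ γ : Gamma0 N, IsOfFinOrder γ → φ (Additive.ofMul γ) = 0}
  zero_mem' := ⟨fun _ _ => rfl, fun _ _ => rfl⟩
  add_mem' := by
    rintro φ ψ ⟨hφ1, hφ2⟩ ⟨hψ1, hψ2⟩
    refine ⟨fun γ hγ => ?_, fun γ hγ => ?_⟩
    · show φ (Additive.ofMul γ) + ψ (Additive.ofMul γ) = 0
      rw [hφ1 γ hγ, hψ1 γ hγ, add_zero]
    · show φ (Additive.ofMul γ) + ψ (Additive.ofMul γ) = 0
      rw [hφ2 γ hγ, hψ2 γ hγ, add_zero]
  smul_mem' := by
    rintro c φ ⟨hφ1, hφ2⟩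
    refine ⟨fun γ hγ => ?_, fun γ hγ => ?_⟩
    · show c • φ (Additive.ofMul γ) = 0
      rw [hφ1 γ hγ, smul_zero]
    · show c • φ (Additive.ofMul γ) = 0
      rw [hφ2 γ hγ, smul_zero]

theorem mem_ellParHoms_iff {R : Type*} [Semiring R] {N : ℕ} {A : Type*} [AddCommGroup A]
    [Module R A] {φ : Additive (Gamma0 N) →+ A} :
    φ ∈ ellParHoms R N A ↔ IsParabolicHom (Gamma0 N) φ ∧
      ∀ γ : Gamma0 N, IsOfFinOrder γ → φ (Additive.ofMul γ) = 0 := Iff.rfl

theorem ellParHoms_le_parabolicHoms (R : Type*) [Semiring R] (N : ℕ) (A : Type*)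
    [AddCommGroup A] [Module R A] : ellParHoms R N A ≤ parabolicHoms R (Gamma0 N) A :=
  fun _ h => h.1

/-- Orbit-count form of the bound, for an arbitrary submodule of homomorphisms which are
parabolic and kill the elements of finite order. -/
theorem h9_finrank_add_le (N : ℕ) [NeZero N] (k : Type*) [Field k]
    (P : Submodule k (Additive (Gamma0 N) →+ k))
    (hpar : ∀ φ ∈ P, IsParabolicHom (Gamma0 N) φ)
    (hell : ∀ φ ∈ P, ∀ γ : Gamma0 N, IsOfFinOrder γ → φ (Additive.ofMul γ) = 0) :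
    FiniteDimensional k P ∧
    finrank k P
      + Nat.card (MulAction.orbitRel.Quotient (Subgroup.zpowers ModularGroup.S)
          (SL(2, ℤ) ⧸ Gamma0 N))
      + Nat.card (MulAction.orbitRel.Quotient
          (Subgroup.zpowers (ModularGroup.S * ModularGroup.T)) (SL(2, ℤ) ⧸ Gamma0 N))
      + Nat.card (MulAction.orbitRel.Quotient (Subgroup.zpowers ModularGroup.T)
          (SL(2, ℤ) ⧸ Gamma0 N))
      ≤ Nat.card (SL(2, ℤ) ⧸ Gamma0 N) + 2 := by
  refine h9_generic_bound (Gamma0 N) ModularGroup.S ModularGroup.T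
    SpecialLinearGroup.SL2Z_generators k P ?_ ?_ ?_
  · intro φ hφ n g h
    refine hell φ hφ ⟨_, h⟩ ?_
    exact (Submonoid.isOfFinOrder_coe (H := (Gamma0 N).toSubmonoid)
      (x := ⟨_, h⟩)).mp (isOfFinOrder_conj_pow (by norm_num : 0 < 4) sl2_S_pow_four n g)
  · intro φ hφ n g h
    refine hpar φ hφ ⟨_, h⟩ ?_
    show ((g⁻¹ * ModularGroup.T ^ n * g : SL(2, ℤ)) : Matrix (Fin 2) (Fin 2) ℤ).trace ^ 2 = 4
    rw [sl2_trace_conj_T_pow]
    norm_num
  · intro φ hφ n g h
    refine hell φ hφ ⟨_, h⟩ ?_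
    exact (Submonoid.isOfFinOrder_coe (H := (Gamma0 N).toSubmonoid)
      (x := ⟨_, h⟩)).mp (isOfFinOrder_conj_pow (by norm_num : 0 < 6) sl2_ST_pow_six n g)

/-- **(L2b)** `dim_k P ≤ 2 * genusFormula N` over EVERY field `k`, for every space `P` of
homomorphisms `Γ₀(N) → k` which are parabolic and kill the elements of finite order. -/
theorem h9_finrank_le_two_genus (N : ℕ) [NeZero N] (k : Type*) [Field k]
    (P : Submodule k (Additive (Gamma0 N) →+ k))
    (hpar : ∀ φ ∈ P, IsParabolicHom (Gamma0 N) φ)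
    (hell : ∀ φ ∈ P, ∀ γ : Gamma0 N, IsOfFinOrder γ → φ (Additive.ofMul γ) = 0) :
    FiniteDimensional k P ∧ (finrank k P : ℚ) ≤ 2 * genusFormula N := by
  obtain ⟨hfd, h⟩ := h9_finrank_add_le N k P hpar hell
  refine ⟨hfd, ?_⟩
  have hcomb := Fermat.Agent.S24.Comb.h9_genus_count N
  have h' : ((finrank k P : ℕ) : ℚ)
      + Nat.card (MulAction.orbitRel.Quotient (Subgroup.zpowers ModularGroup.S)
          (SL(2, ℤ) ⧸ Gamma0 N))
      + Nat.card (MulAction.orbitRel.Quotient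
          (Subgroup.zpowers (ModularGroup.S * ModularGroup.T)) (SL(2, ℤ) ⧸ Gamma0 N))
      + Nat.card (MulAction.orbitRel.Quotient (Subgroup.zpowers ModularGroup.T)
          (SL(2, ℤ) ⧸ Gamma0 N))
      ≤ Nat.card (SL(2, ℤ) ⧸ Gamma0 N) + 2 := by exact_mod_cast h
  have hc : ((Nat.card (SL(2, ℤ) ⧸ Gamma0 N) : ℚ)
      - Nat.card (MulAction.orbitRel.Quotient (Subgroup.zpowers ModularGroup.S)
          (SL(2, ℤ) ⧸ Gamma0 N))
      - Nat.card (MulAction.orbitRel.Quotient
          (Subgroup.zpowers (ModularGroup.S * ModularGroup.T)) (SL(2, ℤ) ⧸ Gamma0 N))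
      - Nat.card (MulAction.orbitRel.Quotient (Subgroup.zpowers ModularGroup.T)
          (SL(2, ℤ) ⧸ Gamma0 N)))
      = 2 * genusFormula N - 2 := hcomb
  linarith

/-- (L2b) for the named space `ellParHoms`. -/
theorem h9_finrank_ellParHoms_le (N : ℕ) [NeZero N] (k : Type*) [Field k] :
    FiniteDimensional k (ellParHoms k N k) ∧
      (finrank k (ellParHoms k N k) : ℚ) ≤ 2 * genusFormula N :=
  h9_finrank_le_two_genus N k (ellParHoms k N k) (fun _ h => h.1) (fun _ h => h.2)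

end Fermat.Agent.S16x.Low.H9
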