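import Fermat.Agent.S16x.Low.H10_LiftAbs
import Fermat.Agent.S16x.Low.Defs
import Fermat.Agent.S16x.Low.H9_BoundSL2
import Fermat.Agent.S16x.Low.H16_Shimura
import Fermat.Agent.S22.GammaFG
import Fermat.Agent.S21
import Fermat.Agent.S20

/-!
# S16, package LOW, leaf (L2): the lifting `StL2 p m`

Every homomorphism `x : Γ₀(p) → ℤ/m` which kills the elements with `trace² ≤ 4` is the reduction
of a parabolic homomorphism `Γ₀(p) → ℤ`.

Proof.  `H := Γ₀(p)^ab / ⟨γ : trace² ≤ 4⟩` is a finitely generated abelian group, so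
`H ≃ ℤ^r × ⨁ ℤ/q_i^e_i` (Mathlib's structure theorem).
* `Hom(H, ℂ) = parabolicHoms ℂ` has dimension `2g` (S21 + S20), hence `2g ≤ r`;
* a nontrivial summand `ℤ/q^e` would give `r + 1` independent homomorphisms `Γ₀(p) → 𝔽_q` killing
  the elements with `trace² ≤ 4`, contradicting the orbit-count bound `≤ 2g` over `𝔽_q`
  (`h9_finrank_le_two_genus`);
* hence `H ≃ ℤ^r` is free, and homomorphisms `H → ℤ/m` lift to `ℤ`.
-/

set_option autoImplicit false

open CongruenceSubgroup ModularCurve ModularCurve.Period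
open scoped MatrixGroups DirectSum

namespace Fermat.Agent.S16x.Low.H10

/-! ### Elements with `trace² < 4` have order dividing `12` -/

/-- A `2 × 2` integer matrix of determinant one with `trace² < 4` satisfies `M ^ 12 = 1`. -/
theorem h10_pow_twelve_of_trace (M : Matrix (Fin 2) (Fin 2) ℤ) (hdet : M.det = 1)
    (h : M.trace ^ 2 < 4) : M ^ 12 = 1 := by
  have hCH := Fermat.Agent.S16x.Low.H16.sq_eq_trace_smul_sub M
  rw [hdet, one_smul] at hCH
  have ht : M.trace = 0 ∨ M.trace = 1 ∨ M.trace = -1 := by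
    have h1 : -2 < M.trace := by nlinarith
    have h2 : M.trace < 2 := by nlinarith
    omega
  rcases ht with h0 | h0 | h0
  · rw [h0, zero_smul, zero_sub] at hCH
    have h4 : M ^ 4 = 1 := by
      calc M ^ 4 = (M * M) * (M * M) := by noncomm_ring
        _ = 1 := by rw [hCH]; noncomm_ring
    calc M ^ 12 = (M ^ 4) ^ 3 := by rw [← pow_mul]
      _ = 1 := by rw [h4, one_pow]
  · rw [h0, one_smul] at hCH
    have h3 : M ^ 3 = -1 := by
      calc M ^ 3 = (M * M) * M := by noncomm_ring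
        _ = (M - 1) * M := by rw [hCH]
        _ = M * M - M := by noncomm_ring
        _ = -1 := by rw [hCH]; noncomm_ring
    calc M ^ 12 = (M ^ 3) ^ 4 := by rw [← pow_mul]
      _ = 1 := by rw [h3]; noncomm_ring
  · rw [h0, neg_one_smul] at hCH
    have h3 : M ^ 3 = 1 := by
      calc M ^ 3 = (M * M) * M := by noncomm_ring
        _ = (-M - 1) * M := by rw [hCH]
        _ = -(M * M) - M := by noncomm_ring
        _ = 1 := by rw [hCH]; noncomm_ring
    calc M ^ 12 = (M ^ 3) ^ 4 := by rw [← pow_mul]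
      _ = 1 := by rw [h3, one_pow]

variable (N : ℕ)

/-- An element of `Γ₀(N)` with `trace² < 4` has order dividing `12`. -/
theorem h10_pow_twelve (γ : Gamma0 N)
    (h : ((γ : SL(2, ℤ)) : Matrix (Fin 2) (Fin 2) ℤ).trace ^ 2 < 4) : γ ^ 12 = 1 := by
  apply Subtype.ext
  apply Subtype.ext
  have := h10_pow_twelve_of_trace ((γ : SL(2, ℤ)) : Matrix (Fin 2) (Fin 2) ℤ)
    (γ : SL(2, ℤ)).2 h
  simpa using this

/-- A parabolic homomorphism to `ℂ` kills all elements with `trace² ≤ 4`. -/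
theorem h10_isParEll_of_parabolic (φ : Additive (Gamma0 N) →+ ℂ)
    (h : IsParabolicHom (Gamma0 N) φ) : IsParEll N φ := by
  intro γ hγ
  rcases hγ.lt_or_eq with h1 | h1
  · have h12 := h10_pow_twelve N γ h1
    have h2 : (12 : ℕ) • φ (Additive.ofMul γ) = 0 := by
      rw [← map_nsmul, ← ofMul_pow, h12, ofMul_one, map_zero]
    rw [nsmul_eq_mul] at h2
    rcases mul_eq_zero.mp h2 with h3 | h3
    · norm_num at h3
    · exact h3
  · exact h γ h1

/-! ### The universal quotient -/

/-- The subgroup of `Γ₀(N)^ab` generated by the classes of the elements with `trace² ≤ 4`. -/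
def h10_badSub : Subgroup (Abelianization (Gamma0 N)) :=
  Subgroup.closure (Abelianization.of ''
    {γ : Gamma0 N | ((γ : SL(2, ℤ)) : Matrix (Fin 2) (Fin 2) ℤ).trace ^ 2 ≤ 4})

/-- `Γ₀(N)^ab / ⟨γ : trace² ≤ 4⟩`, written additively. -/
abbrev h10_HQ : Type := Additive (Abelianization (Gamma0 N) ⧸ h10_badSub N)

/-- The projection `Γ₀(N) → H`. -/
def h10_proj : Additive (Gamma0 N) →+ h10_HQ N :=
  MonoidHom.toAdditive ((QuotientGroup.mk' (h10_badSub N)).comp Abelianization.of)

theorem h10_proj_surjective : Function.Surjective (h10_proj N) := by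
  intro h
  obtain ⟨a, ha⟩ := QuotientGroup.mk'_surjective (h10_badSub N) (Additive.toMul h)
  obtain ⟨γ, rfl⟩ := QuotientGroup.mk'_surjective (commutator (Gamma0 N)) a
  exact ⟨Additive.ofMul γ, congrArg Additive.ofMul ha⟩

theorem h10_proj_bad (γ : Gamma0 N)
    (h : ((γ : SL(2, ℤ)) : Matrix (Fin 2) (Fin 2) ℤ).trace ^ 2 ≤ 4) :
    h10_proj N (Additive.ofMul γ) = 0 := by
  have h1 : Abelianization.of γ ∈ h10_badSub N :=
    Subgroup.subset_closure ⟨γ, h, rfl⟩
  have h2 : (QuotientGroup.mk' (h10_badSub N)) (Abelianization.of γ) = 1 :=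
    (QuotientGroup.eq_one_iff _).mpr h1
  exact congrArg Additive.ofMul h2

theorem h10_comp_proj_isParEll {A : Type*} [AddCommGroup A] (χ : h10_HQ N →+ A) :
    IsParEll N (χ.comp (h10_proj N)) := by
  intro γ hγ
  show χ (h10_proj N (Additive.ofMul γ)) = 0
  rw [h10_proj_bad N γ hγ, map_zero]

/-- The universal property of `H`. -/
theorem h10_exists_factor {A : Type*} [AddCommGroup A] (φ : Additive (Gamma0 N) →+ A)
    (hφ : IsParEll N φ) : ∃ φ' : h10_HQ N →+ A, ∀ g, φ' (h10_proj N g) = φ g := by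
  let ψ₀ : Gamma0 N →* Multiplicative A := AddMonoidHom.toMultiplicativeRight φ
  let ψ₁ : Abelianization (Gamma0 N) →* Multiplicative A := Abelianization.lift ψ₀
  have hB : h10_badSub N ≤ ψ₁.ker := by
    rw [h10_badSub, Subgroup.closure_le]
    rintro _ ⟨γ, hγ, rfl⟩
    show ψ₁ (Abelianization.of γ) = 1
    rw [Abelianization.lift_apply_of]
    exact congrArg Multiplicative.ofAdd (hφ γ hγ)
  let ψ₂ : (Abelianization (Gamma0 N) ⧸ h10_badSub N) →* Multiplicative A :=
    QuotientGroup.lift (h10_badSub N) ψ₁ hB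
  refine ⟨MonoidHom.toAdditiveLeft ψ₂, fun g => ?_⟩
  show Multiplicative.toAdd (ψ₂ (QuotientGroup.mk' (h10_badSub N)
    (Abelianization.of (Additive.toMul g)))) = φ g
  rw [QuotientGroup.mk'_apply, QuotientGroup.lift_mk, Abelianization.lift_apply_of]
  rfl

theorem h10_fg [NeZero N] : AddGroup.FG (h10_HQ N) := by
  have := Fermat.Agent.S22.groupFG_Gamma0 N
  have : Group.FG (Abelianization (Gamma0 N)) := QuotientGroup.fg _
  infer_instance

/-! ### The spaces of homomorphisms -/

/-- The space of homomorphisms `Γ₀(N) → k` which kill the elements with `trace² ≤ 4`. -/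
def h10_parEllHoms (k : Type*) [Field k] : Submodule k (Additive (Gamma0 N) →+ k) where
  carrier := {φ | IsParEll N φ}
  zero_mem' := fun _ _ => rfl
  add_mem' := by
    intro φ ψ hφ hψ γ hγ
    show φ (Additive.ofMul γ) + ψ (Additive.ofMul γ) = 0
    rw [hφ γ hγ, hψ γ hγ, add_zero]
  smul_mem' := by
    intro c φ hφ γ hγ
    show c • φ (Additive.ofMul γ) = 0
    rw [hφ γ hγ, smul_zero]

/-- (L2b), from `h9_finrank_le_two_genus`. -/
theorem h10_finrank_parEllHoms_le [NeZero N] (k : Type*) [Field k] :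
    FiniteDimensional k (h10_parEllHoms N k) ∧
      (Module.finrank k (h10_parEllHoms N k) : ℚ) ≤ 2 * genusFormula N := by
  refine Fermat.Agent.S16x.Low.H9.h9_finrank_le_two_genus N k (h10_parEllHoms N k)
    (fun φ hφ γ hγ => hφ γ (le_of_eq hγ)) (fun φ hφ γ hγ => hφ γ ?_)
  refine Fermat.Agent.S16x.Low.H16.trace_sq_le_four_of_isOfFinOrder (γ : SL(2, ℤ)) ?_
  exact (Submonoid.isOfFinOrder_coe (H := (Gamma0 N).toSubmonoid) (x := γ)).mpr hγ

/-- `dim parabolicHoms ℂ (Γ₀(N)) ℂ = 2 g` (S21 and S20). -/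
theorem h10_finrank_parabolicHoms [NeZero N] :
    (Module.finrank ℂ (parabolicHoms ℂ (Gamma0 N) ℂ) : ℚ) = 2 * genusFormula N := by
  obtain ⟨hinj, hrange⟩ := Fermat.Agent.S21.result N
  have := Fermat.Agent.S21.finiteDimensional_cuspForm_of_periods N
  rw [← hrange, LinearMap.finrank_range_of_inj hinj, Module.finrank_prod,
    ← Fermat.Agent.S20.result N]
  push_cast
  ring

/-! ### The lifting -/

/-- **(L2)** every homomorphism `Γ₀(p) → ℤ/m` which kills the elements with `trace² ≤ 4` is the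
reduction of a parabolic homomorphism `Γ₀(p) → ℤ`. -/
theorem h10_stL2 (p m : ℕ) [NeZero p] : StL2 p m := by
  classical
  intro x hx
  have := h10_fg p
  obtain ⟨r, ι, _, q, hq, e, ⟨E⟩⟩ := AddCommGroup.equiv_free_prod_directSum_zmod (h10_HQ p)
  have hA : Module.finrank ℂ (parabolicHoms ℂ (Gamma0 p) ℂ) ≤ r :=
    h10_finrank_le_of_factor q e (h10_proj p) (h10_proj_surjective p) E
      (fun i => (hq i).ne_zero) _
      (fun φ hφ => h10_exists_factor p φ (h10_isParEll_of_parabolic p φ hφ))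
  have h2g := h10_finrank_parabolicHoms p
  have he : ∀ i, e i = 0 := by
    intro i₀
    by_contra hne
    have : Fact (q i₀).Prime := ⟨hq i₀⟩
    obtain ⟨hfd, hle⟩ := h10_finrank_parEllHoms_le p (ZMod (q i₀))
    have := hfd
    have hB := h10_succ_le_finrank_of_torsion q e (h10_proj p) (h10_proj_surjective p) E i₀ hne
      (h10_parEllHoms p (ZMod (q i₀))) (fun χ => h10_comp_proj_isParEll p χ)
    have h1 : ((r + 1 : ℕ) : ℚ) ≤ (r : ℚ) := by
      calc ((r + 1 : ℕ) : ℚ)
          ≤ (Module.finrank (ZMod (q i₀)) (h10_parEllHoms p (ZMod (q i₀))) : ℚ) := by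
            exact_mod_cast hB
        _ ≤ 2 * genusFormula p := hle
        _ = (Module.finrank ℂ (parabolicHoms ℂ (Gamma0 p) ℂ) : ℚ) := h2g.symm
        _ ≤ (r : ℚ) := by exact_mod_cast hA
    push_cast at h1
    linarith
  obtain ⟨x', hx'⟩ := h10_exists_factor p x hx
  obtain ⟨y', hy'⟩ := h10_exists_int_lift q e E he m x'
  refine ⟨y'.comp (h10_proj p), ?_, ?_⟩
  · intro γ hγ
    show y' (h10_proj p (Additive.ofMul γ)) = 0
    rw [h10_proj_bad p γ (le_of_eq hγ), map_zero]
  · intro γ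
    show ((y' (h10_proj p γ) : ℤ) : ZMod m) = x γ
    rw [hy', hx']

end Fermat.Agent.S16x.Low.H10
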