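import Mathlib

/-!
# S16, package LOW, leaf (L2), abstract part

For a finitely generated abelian group `H ≃ ℤ^r × ⨁ ℤ/q_i^e_i` (Mathlib's structure theorem):

* `h10_finrank_le_of_factor`: a space of homomorphisms to `ℂ` which factor through `H` has
  dimension `≤ r`;
* `h10_succ_le_finrank_of_torsion`: if some `e_i ≠ 0`, the homomorphisms to `𝔽_{q_i}` which factor
  through `H` contain `r + 1` linearly independent ones;
* `h10_exists_int_lift`: if all `e_i = 0`, every homomorphism `H → ℤ/m` lifts to `ℤ`.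
-/

set_option autoImplicit false

open scoped DirectSum

namespace Fermat.Agent.S16x.Low.H10

section Abs

variable {r : ℕ} {ι : Type} [DecidableEq ι] (q : ι → ℕ) (e : ι → ℕ)

/-- Two homomorphisms out of `ℤ^r × ⨁ ℤ/q_i^e_i` which agree on the standard generators are
equal. -/
theorem h10_hom_ext {A : Type*} [AddCommGroup A]
    (ψ₁ ψ₂ : (Fin r →₀ ℤ) × (⨁ i : ι, ZMod (q i ^ e i)) →+ A)
    (h1 : ∀ j, ψ₁ (Finsupp.single j 1, 0) = ψ₂ (Finsupp.single j 1, 0))
    (h2 : ∀ i (z : ZMod (q i ^ e i)),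
      ψ₁ (0, DirectSum.of (fun i => ZMod (q i ^ e i)) i z)
        = ψ₂ (0, DirectSum.of (fun i => ZMod (q i ^ e i)) i z)) :
    ψ₁ = ψ₂ := by
  have hl : ψ₁.comp (AddMonoidHom.inl _ _) = ψ₂.comp (AddMonoidHom.inl _ _) := by
    refine Finsupp.addHom_ext' fun j => ?_
    refine AddMonoidHom.ext_int ?_
    simpa using h1 j
  have hr : ψ₁.comp (AddMonoidHom.inr _ _) = ψ₂.comp (AddMonoidHom.inr _ _) := by
    refine DirectSum.addHom_ext fun i z => ?_
    simpa using h2 i z
  ext x
  have hx : x = (x.1, 0) + (0, x.2) := by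
    ext <;> simp
  rw [hx, map_add, map_add]
  have h3 := DFunLike.congr_fun hl x.1
  have h4 := DFunLike.congr_fun hr x.2
  simp only [AddMonoidHom.coe_comp, Function.comp_apply, AddMonoidHom.inl_apply,
    AddMonoidHom.inr_apply] at h3 h4
  rw [h3, h4]

/-- A homomorphism from `ℤ^r × ⨁ ℤ/q_i^e_i` to a torsion-free group which kills the free
generators is zero. -/
theorem h10_hom_eq_zero {A : Type*} [AddCommGroup A]
    (hA : ∀ (n : ℕ) (a : A), n ≠ 0 → n • a = 0 → a = 0) (hq : ∀ i, q i ≠ 0)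
    (ψ : (Fin r →₀ ℤ) × (⨁ i : ι, ZMod (q i ^ e i)) →+ A)
    (h1 : ∀ j, ψ (Finsupp.single j 1, 0) = 0) : ψ = 0 := by
  refine h10_hom_ext q e ψ 0 (fun j => by simpa using h1 j) fun i z => ?_
  rw [AddMonoidHom.zero_apply]
  refine hA (q i ^ e i) _ (pow_ne_zero _ (hq i)) ?_
  rw [← map_nsmul, Prod.smul_mk, smul_zero, ← map_nsmul]
  have hz : (q i ^ e i) • z = 0 := by
    rw [nsmul_eq_mul, ZMod.natCast_self, zero_mul]
  rw [hz, map_zero]
  exact map_zero ψ

/-- **Claim A.** A space of homomorphisms to `ℂ` which factor through `H ≃ ℤ^r × torsion` has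
dimension at most `r`. -/
theorem h10_finrank_le_of_factor {G : Type*} [AddGroup G] {H : Type*} [AddCommGroup H]
    (π : G →+ H) (hπ : Function.Surjective π)
    (E : H ≃+ (Fin r →₀ ℤ) × (⨁ i : ι, ZMod (q i ^ e i))) (hq : ∀ i, q i ≠ 0)
    (V : Submodule ℂ (G →+ ℂ)) (hV : ∀ φ ∈ V, ∃ φ' : H →+ ℂ, ∀ g, φ' (π g) = φ g) :
    Module.finrank ℂ V ≤ r := by
  choose g hg using fun j : Fin r => hπ (E.symm (Finsupp.single j 1, 0))
  let L : V →ₗ[ℂ] (Fin r → ℂ) :=
    { toFun := fun φ j => (φ : G →+ ℂ) (g j)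
      map_add' := fun φ ψ => by ext j; simp
      map_smul' := fun c φ => by ext j; simp }
  have hL : Function.Injective L := by
    rw [← LinearMap.ker_eq_bot, LinearMap.ker_eq_bot']
    intro φ hφ
    obtain ⟨φ', hφ'⟩ := hV φ φ.2
    have h0 : φ'.comp E.symm.toAddMonoidHom = 0 := by
      refine h10_hom_eq_zero q e ?_ hq _ fun j => ?_
      · intro n a hn h
        rw [nsmul_eq_mul] at h
        rcases mul_eq_zero.mp h with h | h
        · exact absurd (by exact_mod_cast h) hn
        · exact h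
      · show φ' (E.symm (Finsupp.single j 1, 0)) = 0
        rw [← hg j, hφ']
        exact congrFun hφ j
    apply Subtype.ext
    ext x
    rw [← hφ' x]
    have := DFunLike.congr_fun h0 (E (π x))
    simpa using this
  have := LinearMap.finrank_le_finrank_of_injective hL
  simpa using this

/-- **Claim B.** If the summand `ℤ/q_{i₀}^{e_{i₀}}` is nontrivial, then every finite-dimensional
space of homomorphisms to `𝔽_{q_{i₀}}` containing those which factor through `H` has dimension
at least `r + 1`. -/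
theorem h10_succ_le_finrank_of_torsion {G : Type*} [AddGroup G] {H : Type*} [AddCommGroup H]
    (π : G →+ H) (hπ : Function.Surjective π)
    (E : H ≃+ (Fin r →₀ ℤ) × (⨁ i : ι, ZMod (q i ^ e i)))
    (i₀ : ι) [Fact (q i₀).Prime] (he : e i₀ ≠ 0)
    (P : Submodule (ZMod (q i₀)) (G →+ ZMod (q i₀))) [FiniteDimensional (ZMod (q i₀)) P]
    (hP : ∀ χ : H →+ ZMod (q i₀), χ.comp π ∈ P) :
    r + 1 ≤ Module.finrank (ZMod (q i₀)) P := by
  choose g hg using fun j : Fin r => hπ (E.symm (Finsupp.single j 1, 0))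
  obtain ⟨g', hg'⟩ := hπ (E.symm (0, DirectSum.of (fun i => ZMod (q i ^ e i)) i₀ 1))
  let pt : Option (Fin r) → G := fun a => a.elim g' g
  let χf : Fin r → (H →+ ZMod (q i₀)) := fun j =>
    (Int.castAddHom (ZMod (q i₀))).comp
      ((Finsupp.applyAddHom j).comp ((AddMonoidHom.fst _ _).comp E.toAddMonoidHom))
  have hdvd : q i₀ ∣ q i₀ ^ e i₀ := dvd_pow_self _ he
  let χt : H →+ ZMod (q i₀) :=
    (ZMod.castHom hdvd (ZMod (q i₀))).toAddMonoidHom.comp
      ((DFinsupp.evalAddMonoidHom (β := fun i => ZMod (q i ^ e i)) i₀).comp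
        ((AddMonoidHom.snd _ _).comp E.toAddMonoidHom))
  let χ : Option (Fin r) → (H →+ ZMod (q i₀)) := fun a => a.elim χt χf
  let v : Option (Fin r) → P := fun a => ⟨(χ a).comp π, hP _⟩
  let L : P →ₗ[ZMod (q i₀)] (Option (Fin r) → ZMod (q i₀)) :=
    { toFun := fun φ a => (φ : G →+ ZMod (q i₀)) (pt a)
      map_add' := fun φ ψ => by ext j; simp
      map_smul' := fun c φ => by ext j; simp }
  have hLv : ∀ a, L (v a) = Pi.single a 1 := by
    intro a
    funext b
    show χ a (π (pt b)) = _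
    rcases a with _ | j <;> rcases b with _ | j'
    · show χt (π g') = _
      rw [hg']
      have h1 : χt (E.symm (0, DirectSum.of (fun i => ZMod (q i ^ e i)) i₀ 1))
          = ZMod.castHom hdvd (ZMod (q i₀))
              ((DirectSum.of (fun i => ZMod (q i ^ e i)) i₀ 1) i₀) := by
        simp only [χt, AddMonoidHom.coe_comp, Function.comp_apply,
          AddEquiv.toAddMonoidHom_eq_coe, AddMonoidHom.coe_coe, AddEquiv.apply_symm_apply,
          AddMonoidHom.coe_snd]
        rfl
      rw [h1, DirectSum.of_eq_same, map_one, Pi.single_eq_same]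
    · show χt (π (g j')) = _
      rw [hg j']
      simp [χt]
    · show χf j (π g') = _
      rw [hg']
      simp [χf]
    · show χf j (π (g j')) = _
      rw [hg j']
      simp [χf, Finsupp.single_apply, Pi.single_apply, eq_comm]
  have hli : LinearIndependent (ZMod (q i₀)) v := by
    apply LinearIndependent.of_comp L
    have h1 : L ∘ v = fun a => Pi.single a (1 : ZMod (q i₀)) := funext hLv
    rw [h1]
    have h2 := (Pi.basisFun (ZMod (q i₀)) (Option (Fin r))).linearIndependent
    have h3 : ⇑(Pi.basisFun (ZMod (q i₀)) (Option (Fin r)))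
        = fun a => Pi.single a (1 : ZMod (q i₀)) := by
      funext a
      simp
    rwa [h3] at h2
  have := hli.fintype_card_le_finrank
  simpa using this

/-- **Claim D.** If `H ≃ ℤ^r` (all torsion summands trivial), every homomorphism `H → ℤ/m`
lifts to a homomorphism `H → ℤ`. -/
theorem h10_exists_int_lift {H : Type*} [AddCommGroup H]
    (E : H ≃+ (Fin r →₀ ℤ) × (⨁ i : ι, ZMod (q i ^ e i))) (he : ∀ i, e i = 0)
    (m : ℕ) (x : H →+ ZMod m) : ∃ y : H →+ ℤ, ∀ h, ((y h : ℤ) : ZMod m) = x h := by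
  choose c hc using fun j : Fin r =>
    ZMod.intCast_surjective (x (E.symm (Finsupp.single j 1, 0)))
  let y₀ : (Fin r →₀ ℤ) →+ ℤ := (Finsupp.linearCombination ℤ c).toAddMonoidHom
  let y : H →+ ℤ := y₀.comp ((AddMonoidHom.fst _ _).comp E.toAddMonoidHom)
  refine ⟨y, ?_⟩
  have key : ((Int.castAddHom (ZMod m)).comp y).comp E.symm.toAddMonoidHom
      = x.comp E.symm.toAddMonoidHom := by
    refine h10_hom_ext q e _ _ (fun j => ?_) (fun i z => ?_)
    · simp [y, y₀, hc]
    · have h1 : q i ^ e i = 1 := by rw [he i, pow_zero]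
      have : Subsingleton (ZMod (q i ^ e i)) := ZMod.subsingleton_iff.mpr h1
      have hz : z = 0 := Subsingleton.elim _ _
      rw [hz, map_zero]
      have h00 : ((0 : Fin r →₀ ℤ), (0 : ⨁ i : ι, ZMod (q i ^ e i))) = 0 := rfl
      rw [h00, map_zero, map_zero]
  intro h
  have := DFunLike.congr_fun key (E h)
  simpa using this

end Abs

end Fermat.Agent.S16x.Low.H10
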