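import Fermat.Agent.S16x.Low.H12_End
import Fermat.Agent.S16x.Asm.Defs
import Fermat.Agent.S23

/-!
# S16, package LOW: the adapters `StADAPT` and `Low.StLOW → Asm.StLOW` (helper12)

`latticeRestrictHom` is injective by S23 (`HasIntegralStructure p 2`), so the kernel of
`ρ : ℤ[X_ℓ] → T = heckeLatticeAlgebra p ∅` is the kernel of `heckeEvalForms p 2`.
-/

set_option autoImplicit false

open CongruenceSubgroup ModularCurve ModularCurve.Period

open scoped MatrixGroups

noncomputable section

namespace Fermat.Agent.S16x.Low.H12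

variable (p : ℕ) [Fact p.Prime]

/-- **(ADAPT)** verbatim `Low.StADAPT p`. -/
theorem stADAPT : StADAPT p := by
  intro hLOW P hP
  refine hLOW P ?_
  have hinj := (CuspForm.latticeRestrictHom_bijective p ∅ (Fermat.Agent.S23.result p)).1
  apply hinj
  rw [map_zero]
  exact hP

/-- The Eisenstein character of `Asm/Defs` is the reduction of the integral one. -/
theorem h12_eisChar_eq (M : ℕ) (P : HeckeAlg) :
    Fermat.Agent.S16x.Asm.eisChar p M P
      = ((MvPolynomial.aeval (eisensteinSystem p) P : ℤ) : ZMod M) := by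
  unfold Fermat.Agent.S16x.Asm.eisChar
  induction P using MvPolynomial.induction_on with
  | C a => simp
  | add P Q hP hQ => rw [map_add, map_add, hP, hQ, Int.cast_add]
  | mul_X P ℓ hP =>
    rw [map_mul, map_mul, hP, Int.cast_mul, MvPolynomial.aeval_X]
    simp

/-- `Low.StLOW' p → Asm.StLOW p`. -/
theorem h12_asm_of_low' (h : StLOW' p) : Fermat.Agent.S16x.Asm.StLOW p := by
  intro P hP
  rw [h12_eisChar_eq]
  exact h P hP

/-- `Low.StLOW p → Asm.StLOW p`. -/
theorem h12_asm_of_low (h : StLOW p) : Fermat.Agent.S16x.Asm.StLOW p :=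
  h12_asm_of_low' p (stADAPT p h)

/-- **The lower bound from the leaves** of `Low/Defs.lean`. -/
theorem h12_stLOW_of_leaves (hX : StX p) (hET : StET p) (hEU : StEU p) (hHT : StHT p)
    (hHU : StHU p) (hL2 : StL2 p (eisensteinNumerator p)) (hK : StK p) :
    Fermat.Agent.S16x.Asm.StLOW p :=
  h12_asm_of_low p (stEND p hX hET hEU hHT hHU hL2 hK)

end Fermat.Agent.S16x.Low.H12
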