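import Fermat.Agent.S16x.Low.Defs
import Fermat.Agent.S21.H5_Prim

/-!
# S16, package LOW: the assembly `StEND` (helper12)

For every `P ∈ ℤ[X_ℓ]` and every `γ ∈ Γ₀(p)` there is `δ ∈ Γ₀(p)` with

* `periodMap (P(T) f) γ = periodMap f δ` for every cusp form `f`, and
* `x δ = P(eis) • x γ`

(induction on `P`; `δ` is a power of `γ`, a product, resp. the product of the elements of a coset
datum).  If `P(T) = 0`, all periods of `δ` vanish, hence (by `StK` and the integral parabolic lift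
of `x`) `x δ = 0`; as `x` is surjective, `P(eis) = 0` in `ℤ/n`.
-/

set_option autoImplicit false

open CongruenceSubgroup ModularCurve ModularCurve.Period

open scoped MatrixGroups

noncomputable section

namespace Fermat.Agent.S16x.Low.H12

/-- A homomorphism to a commutative group turns the product of a list into the sum. -/
theorem h12_map_list_prod {G A ι : Type*} [Group G] [AddCommGroup A] (φ : Additive G →+ A)
    (e : ι → G) (l : List ι) :
    φ (Additive.ofMul (l.map e).prod) = (l.map fun i => φ (Additive.ofMul (e i))).sum := by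
  induction l with
  | nil => simp
  | cons a l ih =>
    rw [List.map_cons, List.prod_cons, ofMul_mul, map_add, ih, List.map_cons, List.sum_cons]

/-- The (ordered) product of a finite family. -/
def h12_prodAll {G ι : Type*} [Group G] [Fintype ι] (e : ι → G) : G :=
  ((Finset.univ : Finset ι).toList.map e).prod

theorem h12_map_prodAll {G A ι : Type*} [Group G] [AddCommGroup A] [Fintype ι]
    (φ : Additive G →+ A) (e : ι → G) :
    φ (Additive.ofMul (h12_prodAll e)) = ∑ i, φ (Additive.ofMul (e i)) := by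
  unfold h12_prodAll
  rw [h12_map_list_prod, Finset.sum_map_toList]

theorem h12_map_zpow {G A : Type*} [Group G] [AddCommGroup A] (φ : Additive G →+ A)
    (g : G) (a : ℤ) : φ (Additive.ofMul (g ^ a)) = a • φ (Additive.ofMul g) := by
  rw [ofMul_zpow, map_zsmul]

/-- `n = eisensteinNumerator p` divides `p - 1`, so `p = 1` in `ℤ/n`. -/
theorem h12_natCast_self (p : ℕ) (hp : 0 < p) : ((p : ℕ) : ZMod (eisensteinNumerator p)) = 1 := by
  have hdvd : eisensteinNumerator p ∣ p - 1 := by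
    unfold eisensteinNumerator
    exact Nat.div_dvd_of_dvd (Nat.gcd_dvd_left _ _)
  have h0 : (((p - 1 : ℕ)) : ZMod (eisensteinNumerator p)) = 0 :=
    (ZMod.natCast_eq_zero_iff _ _).mpr hdvd
  have hp1 : p = (p - 1) + 1 := by omega
  calc ((p : ℕ) : ZMod (eisensteinNumerator p))
      = (((p - 1 : ℕ) + 1 : ℕ) : ZMod (eisensteinNumerator p)) := by rw [← hp1]
    _ = 1 := by rw [Nat.cast_add, h0, Nat.cast_one, zero_add]

theorem h12_periodMap_add (N : ℕ) [NeZero N] (f g : CuspForm (Gamma0 N) 2) :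
    periodMap N (f + g) = periodMap N f + periodMap N g :=
  (Fermat.Agent.S21.E1.pml N).map_add f g

theorem h12_periodMap_smul (N : ℕ) [NeZero N] (c : ℂ) (f : CuspForm (Gamma0 N) 2) :
    periodMap N (c • f) = c • periodMap N f :=
  (Fermat.Agent.S21.E1.pml N).map_smul c f

theorem h12_periodMap_zero (N : ℕ) [NeZero N] :
    periodMap N (0 : CuspForm (Gamma0 N) 2) = 0 :=
  (Fermat.Agent.S21.E1.pml N).map_zero

section Induction

variable (p : ℕ) [Fact p.Prime]

/-- The induction statement. -/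
def h12_Motive (x : Additive ↥(Gamma0 p) →+ ZMod (eisensteinNumerator p)) (P : HeckeAlg) : Prop :=
  ∀ γ : ↥(Gamma0 p), ∃ δ : ↥(Gamma0 p),
    (∀ f : CuspForm (Gamma0 p) 2,
      periodMap p (((CuspForm.heckeEvalForms p 2 P : ↥(CuspForm.heckeAlgebra p 2 ∅)) :
        Module.End ℂ (CuspForm (Gamma0 p) 2)) f) (Additive.ofMul γ)
        = periodMap p f (Additive.ofMul δ)) ∧
    x (Additive.ofMul δ) = (MvPolynomial.aeval (eisensteinSystem p) P : ℤ) • x (Additive.ofMul γ)

theorem h12_motive_C (x : Additive ↥(Gamma0 p) →+ ZMod (eisensteinNumerator p)) (a : ℤ) :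
    h12_Motive p x (MvPolynomial.C a) := by
  intro γ
  refine ⟨γ ^ a, fun f => ?_, ?_⟩
  · rw [CuspForm.heckeEvalForms_C, h12_map_zpow]
    have h1 : (((algebraMap ℤ ↥(CuspForm.heckeAlgebra p 2 ∅) a :
        ↥(CuspForm.heckeAlgebra p 2 ∅)) : Module.End ℂ (CuspForm (Gamma0 p) 2)) f)
        = (a : ℂ) • f := by
      rw [Subalgebra.coe_algebraMap]
      rw [Algebra.algebraMap_eq_smul_one, LinearMap.smul_apply, Module.End.one_apply]
      exact (Int.cast_smul_eq_zsmul ℂ a f).symm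
    rw [h1, h12_periodMap_smul]
    rw [AddMonoidHom.smul_apply]
    exact (Int.cast_smul_eq_zsmul ℂ a _)
  · rw [h12_map_zpow, MvPolynomial.aeval_C]
    rfl

theorem h12_motive_add (x : Additive ↥(Gamma0 p) →+ ZMod (eisensteinNumerator p))
    (P Q : HeckeAlg) (hP : h12_Motive p x P) (hQ : h12_Motive p x Q) :
    h12_Motive p x (P + Q) := by
  intro γ
  obtain ⟨δ₁, h1, h1'⟩ := hP γ
  obtain ⟨δ₂, h2, h2'⟩ := hQ γ
  refine ⟨δ₁ * δ₂, fun f => ?_, ?_⟩
  · rw [map_add, Subalgebra.coe_add, LinearMap.add_apply, h12_periodMap_add,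
      AddMonoidHom.add_apply, h1, h2, ofMul_mul, map_add]
  · rw [ofMul_mul, map_add, h1', h2', map_add, add_smul]

theorem h12_motive_mul_X (x : Additive ↥(Gamma0 p) →+ ZMod (eisensteinNumerator p))
    (hdm : IsDMult p x) (hET : StET p) (hEU : StEU p) (hHT : StHT p) (hHU : StHU p)
    (P : HeckeAlg) (ℓ : Nat.Primes) (hP : h12_Motive p x P) :
    h12_Motive p x (P * MvPolynomial.X ℓ) := by
  intro γ
  obtain ⟨δ₁, h1, h1'⟩ := hP γ
  have hmul : ∀ f : CuspForm (Gamma0 p) 2,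
      (((CuspForm.heckeEvalForms p 2 (P * MvPolynomial.X ℓ) : ↥(CuspForm.heckeAlgebra p 2 ∅)) :
        Module.End ℂ (CuspForm (Gamma0 p) 2)) f)
      = ((CuspForm.heckeEvalForms p 2 P : ↥(CuspForm.heckeAlgebra p 2 ∅)) :
        Module.End ℂ (CuspForm (Gamma0 p) 2))
          (((CuspForm.heckeFormsGen p 2 ℓ : ↥(CuspForm.heckeAlgebra p 2 ∅)) :
            Module.End ℂ (CuspForm (Gamma0 p) 2)) f) := by
    intro f
    have hX : CuspForm.heckeEvalForms p 2 (MvPolynomial.X ℓ) = CuspForm.heckeFormsGen p 2 ℓ :=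
      CuspForm.heckeEvalForms_heckeGen p 2 ℓ
    rw [map_mul, hX, Subalgebra.coe_mul, Module.End.mul_apply]
  have haeval : (MvPolynomial.aeval (eisensteinSystem p) (P * MvPolynomial.X ℓ) : ℤ)
      = (MvPolynomial.aeval (eisensteinSystem p) P : ℤ) * eisensteinSystem p ℓ := by
    rw [map_mul, MvPolynomial.aeval_X]
  by_cases hdvd : (ℓ : ℕ) ∣ p
  · -- `ℓ = p`: the operator `U_p`
    have hℓp : (ℓ : ℕ) = p := (Nat.prime_dvd_prime_iff_eq ℓ.2 (Fact.out : p.Prime)).mp hdvd
    haveI : Fact (ℓ : ℕ).Prime := ⟨ℓ.2⟩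
    haveI : NeZero (ℓ : ℕ) := ⟨ℓ.2.ne_zero⟩
    have key : ∀ (q : ℕ) (_ : q = p) [NeZero q] (σ : Equiv.Perm (ZMod q))
        (g' : ZMod q → SL(2, ℤ))
        (h : CosetData (Fermat.Agent.S22.uA q) (Fermat.Agent.S22.uB q) (Fermat.Agent.S22.uD q) p
          (δ₁ : SL(2, ℤ)) σ g'),
        ∑ i, x (Additive.ofMul (h.elt i)) = p • x (Additive.ofMul δ₁) := by
      intro q hqp
      subst hqp
      intro _ σ g' h
      exact hEU _ x hdm δ₁ σ g' h
    obtain ⟨σ, g', h⟩ := exists_cosetData_U (N := p) (q := (ℓ : ℕ)) hdvd δ₁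
    refine ⟨h12_prodAll (fun i => h.elt i), fun f => ?_, ?_⟩
    · rw [hmul f, h1, h12_map_prodAll, CuspForm.heckeFormsGen_of_dvd hdvd,
        CuspForm.heckeAlgebra.coe_U]
      exact hHU (ℓ : ℕ) hdvd f δ₁ σ g' h
    · rw [h12_map_prodAll, key (ℓ : ℕ) hℓp σ g' h, h1', haeval,
        eisensteinSystem_of_dvd hdvd, mul_one]
      rw [nsmul_eq_mul, h12_natCast_self p (Fact.out : p.Prime).pos, one_mul]
  · -- `ℓ ≠ p`: the operator `T_ℓ`
    have hne : (ℓ : ℕ) ≠ p := fun h => hdvd (h ▸ dvd_rfl)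
    haveI : Fact (ℓ : ℕ).Prime := ⟨ℓ.2⟩
    obtain ⟨σ, g', h⟩ := exists_cosetData_T (N := p) (ℓ := (ℓ : ℕ)) hdvd δ₁
    refine ⟨h12_prodAll (fun i => h.elt i), fun f => ?_, ?_⟩
    · rw [hmul f, h1, h12_map_prodAll, CuspForm.heckeFormsGen_of_not_dvd hdvd,
        CuspForm.heckeAlgebra.coe_T]
      exact hHT (ℓ : ℕ) hdvd f δ₁ σ g' h
    · rw [h12_map_prodAll, hET _ x hdm (ℓ : ℕ) hne δ₁ σ g' h, h1', haeval,
        eisensteinSystem_of_not_dvd hdvd]
      simp only [nsmul_eq_mul, zsmul_eq_mul]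
      push_cast
      ring

theorem h12_motive (x : Additive ↥(Gamma0 p) →+ ZMod (eisensteinNumerator p))
    (hdm : IsDMult p x) (hET : StET p) (hEU : StEU p) (hHT : StHT p) (hHU : StHU p)
    (P : HeckeAlg) : h12_Motive p x P :=
  MvPolynomial.induction_on P (h12_motive_C p x) (h12_motive_add p x)
    (fun Q ℓ hQ => h12_motive_mul_X p x hdm hET hEU hHT hHU Q ℓ hQ)

/-- **(END)** the assembly of the lower bound, verbatim `Low.StEND p`. -/
theorem stEND : StEND p := by
  intro hX hET hEU hHT hHU hL2 hK P hP0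
  obtain ⟨x, hsurj, hpe, hdm⟩ := hX
  obtain ⟨y, hypar, hyx⟩ := hL2 x hpe
  -- the complex parabolic homomorphism attached to the lift
  set ψ : Additive ↥(Gamma0 p) →+ ℂ := (Int.castAddHom ℂ).comp y with hψ
  have hψpar : ψ ∈ parabolicHoms ℂ (Gamma0 p) ℂ := by
    rw [mem_parabolicHoms_iff]
    intro γ hγ
    show ((y (Additive.ofMul γ) : ℤ) : ℂ) = 0
    rw [hypar γ hγ, Int.cast_zero]
  obtain ⟨γ, hγ⟩ := hsurj 1
  obtain ⟨δ, hδ, hδx⟩ := h12_motive p x hdm hET hEU hHT hHU P (Additive.toMul γ)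
  have hper : ∀ f : CuspForm (Gamma0 p) 2, periodMap p f (Additive.ofMul δ) = 0 := by
    intro f
    rw [← hδ f, hP0]
    show periodMap p ((0 : Module.End ℂ (CuspForm (Gamma0 p) 2)) f) _ = 0
    rw [LinearMap.zero_apply, h12_periodMap_zero]
    rfl
  have hψδ : ψ (Additive.ofMul δ) = 0 := hK δ hper ψ hψpar
  have hyδ : y (Additive.ofMul δ) = 0 := by
    have : ((y (Additive.ofMul δ) : ℤ) : ℂ) = 0 := hψδ
    exact_mod_cast this
  have hxδ : x (Additive.ofMul δ) = 0 := by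
    rw [← hyx, hyδ, Int.cast_zero]
  rw [hxδ] at hδx
  have hγ' : x (Additive.ofMul (Additive.toMul γ)) = 1 := hγ
  rw [hγ', zsmul_eq_mul, mul_one] at hδx
  exact hδx.symm

end Induction

end Fermat.Agent.S16x.Low.H12
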