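import Fermat.Agent.S16x.Low.Defs
import Fermat.Agent.S21
import Fermat.Agent.S21.H5_Inj

/-!
# S16, package LOW: the leaf `(K)` (helper12, hedge)

If all cusp form periods of `γ ∈ Γ₀(N)` vanish, every complex parabolic homomorphism vanishes
at `γ`.

Route (no conjugate cusp form is constructed): the `2g` homomorphisms `per f_i`,
`conj ∘ per f_i` (`f_i` a basis of `S₂(Γ₀(N))`) are linearly independent over `ℂ`
(maximum principle, as in the injectivity half of S21), and `dim parabolicHoms = 2g` by S21; so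
they span the parabolic homomorphisms, and each of them vanishes at `γ`.
-/

set_option autoImplicit false

open CongruenceSubgroup ModularCurve ModularCurve.Period UpperHalfPlane Complex Filter Topology

open Fermat.Agent.S21.E1

open scoped MatrixGroups ComplexConjugate

noncomputable section

namespace Fermat.Agent.S16x.Low.H12K

variable {N : ℕ} [NeZero N]

/-- If the periods of `a` and the conjugates of the periods of `b` cancel, then `a = b = 0`. -/
theorem h12_eq_zero_of_per_add_conj (a b : CuspForm (Gamma0 N) 2)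
    (h : ∀ γ : Gamma0 N, periodMap N a (Additive.ofMul γ)
      + conj (periodMap N b (Additive.ofMul γ)) = 0) : a = 0 ∧ b = 0 := by
  have ha := nice_prim a
  have hb := nice_prim b
  have h1 : Nice N (fun z => prim a z + prim b z) := ha.add hb
  have h2 : Nice N (fun z => -Complex.I * (prim a z - prim b z)) := (ha.sub hb).const_mul _
  have hc1 : ∀ z w : ℍ, prim a z + prim b z = prim a w + prim b w := by
    refine const_of_re_invariant N _ h1.hol (fun γ hγ z => ?_) h1.per h1.lim
    have e1 := prim_smul_sub a ⟨γ, hγ⟩ z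
    have e2 := prim_smul_sub b ⟨γ, hγ⟩ z
    have e3 := h ⟨γ, hγ⟩
    simp only at e1 e2
    have : prim a (γ • z) + prim b (γ • z) = (prim a z + prim b z)
        + (periodMap N b (Additive.ofMul ⟨γ, hγ⟩)
          - conj (periodMap N b (Additive.ofMul ⟨γ, hγ⟩))) := by
      linear_combination e1 + e2 + e3
    rw [this, add_re, sub_re, conj_re, sub_self, add_zero]
  have hc2 : ∀ z w : ℍ, -Complex.I * (prim a z - prim b z)
      = -Complex.I * (prim a w - prim b w) := by
    refine const_of_re_invariant N _ h2.hol (fun γ hγ z => ?_) h2.per h2.lim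
    have e1 := prim_smul_sub a ⟨γ, hγ⟩ z
    have e2 := prim_smul_sub b ⟨γ, hγ⟩ z
    have e3 := h ⟨γ, hγ⟩
    simp only at e1 e2
    have : -Complex.I * (prim a (γ • z) - prim b (γ • z))
        = -Complex.I * (prim a z - prim b z)
          + Complex.I * (conj (periodMap N b (Additive.ofMul ⟨γ, hγ⟩))
            + periodMap N b (Additive.ofMul ⟨γ, hγ⟩)) := by
      linear_combination (-Complex.I) * e1 + Complex.I * e2 - Complex.I * e3
    rw [this, add_re, mul_re (Complex.I), Complex.I_re, Complex.I_im, add_im, conj_im]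
    ring
  have hI : Complex.I ≠ 0 := Complex.I_ne_zero
  have hc2' : ∀ z w : ℍ, prim a z - prim b z = prim a w - prim b w := fun z w =>
    mul_left_cancel₀ (neg_ne_zero.mpr hI) (hc2 z w)
  have hpa : ∀ z w : ℍ, prim a z = prim a w := fun z w => by
    linear_combination (1 / 2 : ℂ) * hc1 z w + (1 / 2 : ℂ) * hc2' z w
  have hpb : ∀ z w : ℍ, prim b z = prim b w := fun z w => by
    linear_combination (1 / 2 : ℂ) * hc1 z w - (1 / 2 : ℂ) * hc2' z w
  exact ⟨eq_zero_of_prim_const a hpa, eq_zero_of_prim_const b hpb⟩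

/-- Evaluation at `γ`, as a linear functional on the homomorphisms `Γ₀(N) → ℂ`. -/
def h12_ev (N : ℕ) (γ : ↥(Gamma0 N)) : (Additive ↥(Gamma0 N) →+ ℂ) →ₗ[ℂ] ℂ where
  toFun φ := φ (Additive.ofMul γ)
  map_add' _ _ := rfl
  map_smul' _ _ := rfl

@[simp] theorem h12_ev_apply (γ : ↥(Gamma0 N)) (φ : Additive ↥(Gamma0 N) →+ ℂ) :
    h12_ev N γ φ = φ (Additive.ofMul γ) := rfl

/-- The conjugate of a homomorphism `Γ₀(N) → ℂ`. -/
def h12_cj (φ : Additive ↥(Gamma0 N) →+ ℂ) : Additive ↥(Gamma0 N) →+ ℂ :=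
  ((starRingEnd ℂ : ℂ →+* ℂ) : ℂ →+ ℂ).comp φ

@[simp] theorem h12_cj_apply (φ : Additive ↥(Gamma0 N) →+ ℂ) (γ : Additive ↥(Gamma0 N)) :
    h12_cj φ γ = conj (φ γ) := rfl

theorem h12_cj_mem {φ : Additive ↥(Gamma0 N) →+ ℂ}
    (hφ : φ ∈ parabolicHoms ℂ (Gamma0 N) ℂ) : h12_cj φ ∈ parabolicHoms ℂ (Gamma0 N) ℂ := by
  rw [mem_parabolicHoms_iff] at hφ ⊢
  intro γ hγ
  rw [h12_cj_apply, hφ γ hγ, map_zero]

theorem h12_periodMap_sum {ι : Type*} [Fintype ι] (c : ι → ℂ) (b : ι → CuspForm (Gamma0 N) 2)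
    (γ : ↥(Gamma0 N)) :
    periodMap N (∑ i, c i • b i) (Additive.ofMul γ)
      = ∑ i, c i * periodMap N (b i) (Additive.ofMul γ) := by
  have h1 : periodMap N (∑ i, c i • b i) = ∑ i, c i • periodMap N (b i) := by
    have := map_sum (pml N) (fun i => c i • b i) Finset.univ
    simp only [pml_apply, map_smul] at this
    exact this
  rw [h1, AddMonoidHom.finsetSum_apply]
  rfl

/-- **(K)**, verbatim `Low.StK N` (for `N ≠ 0`). -/
theorem h12_stK (N : ℕ) [NeZero N] : StK N := by
  classical
  intro γ hγ ψ hψ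
  haveI hfdS : FiniteDimensional ℂ (CuspForm (Gamma0 N) 2) :=
    Fermat.Agent.S21.finiteDimensional_cuspForm_of_periods N
  haveI hfdV : FiniteDimensional ℂ ↥(parabolicHoms ℂ (Gamma0 N) ℂ) :=
    Fermat.Agent.S21.E2.finiteDimensional_parabolicHoms N
  obtain ⟨hinj, hrange⟩ := Fermat.Agent.S21.result N
  -- the dimension of the space of parabolic homomorphisms
  have hfin : Module.finrank ℂ ↥(parabolicHoms ℂ (Gamma0 N) ℂ)
      = 2 * Module.finrank ℂ (CuspForm (Gamma0 N) 2) := by
    rw [← hrange, LinearMap.finrank_range_of_inj hinj, Module.finrank_prod]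
    ring
  -- the family `per f_i`, `conj ∘ per f_i`
  set d := Module.finrank ℂ (CuspForm (Gamma0 N) 2) with hd
  let b := Module.finBasis ℂ (CuspForm (Gamma0 N) 2)
  let v : Fin d ⊕ Fin d → ↥(parabolicHoms ℂ (Gamma0 N) ℂ) :=
    Sum.elim (fun i => ⟨periodMap N (b i), periodMap_mem_parabolicHoms (b i)⟩)
      (fun i => ⟨h12_cj (periodMap N (b i)), h12_cj_mem (periodMap_mem_parabolicHoms (b i))⟩)
  have hv : ∀ x, h12_ev N γ ((v x : ↥(parabolicHoms ℂ (Gamma0 N) ℂ)) :
      Additive ↥(Gamma0 N) →+ ℂ) = 0 := by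
    rintro (i | i)
    · exact hγ (b i)
    · show conj (periodMap N (b i) (Additive.ofMul γ)) = 0
      rw [hγ (b i), map_zero]
  have hli : LinearIndependent ℂ v := by
    rw [Fintype.linearIndependent_iff]
    intro g hg
    -- evaluate the relation at every `δ`
    have hrel : ∀ δ : ↥(Gamma0 N),
        (∑ i, g (Sum.inl i) * periodMap N (b i) (Additive.ofMul δ))
          + ∑ i, g (Sum.inr i) * conj (periodMap N (b i) (Additive.ofMul δ)) = 0 := by
      intro δ
      have h1 := congrArg ((h12_ev N δ).comp (parabolicHoms ℂ (Gamma0 N) ℂ).subtype) hg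
      rw [map_sum, map_zero, Fintype.sum_sum_type] at h1
      simp only [map_smul, smul_eq_mul] at h1
      exact h1
    have key := h12_eq_zero_of_per_add_conj (N := N) (∑ i, g (Sum.inl i) • b i)
      (∑ i, conj (g (Sum.inr i)) • b i) (fun δ => by
        rw [h12_periodMap_sum, h12_periodMap_sum, map_sum]
        simp only [map_mul, Complex.conj_conj]
        exact hrel δ)
    have hbli := b.linearIndependent
    rw [Fintype.linearIndependent_iff] at hbli
    have h1 := hbli _ key.1
    have h2 := hbli _ key.2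
    rintro (i | i)
    · exact h1 i
    · have := h2 i
      exact (map_eq_zero (starRingEnd ℂ)).mp this
  have hcard : Fintype.card (Fin d ⊕ Fin d)
      = Module.finrank ℂ ↥(parabolicHoms ℂ (Gamma0 N) ℂ) := by
    rw [hfin, Fintype.card_sum, Fintype.card_fin]
    ring
  have hspan := hli.span_eq_top_of_card_eq_finrank' hcard
  -- conclude
  have hle : Submodule.span ℂ (Set.range v)
      ≤ LinearMap.ker ((h12_ev N γ).comp (parabolicHoms ℂ (Gamma0 N) ℂ).subtype) := by
    rw [Submodule.span_le]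
    rintro _ ⟨x, rfl⟩
    exact hv x
  have hmem : (⟨ψ, hψ⟩ : ↥(parabolicHoms ℂ (Gamma0 N) ℂ))
      ∈ LinearMap.ker ((h12_ev N γ).comp (parabolicHoms ℂ (Gamma0 N) ℂ).subtype) :=
    hle (hspan ▸ Submodule.mem_top)
  exact hmem

end Fermat.Agent.S16x.Low.H12K
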