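import Fermat.Agent.S16x.Low.H26_Wire
import Fermat.Agent.S16x.Low.H23_StL2
import Fermat.Agent.S16x.Low.H12_K

/-!
# S16, package LOW: the lower bound `Asm.StLOW p`, hypothesis-free (helper12)

All leaves plugged: (X) helper2, (E) helper20, (H) helper22, (L2) helper23 + helper9,
(K) helper12, (END) + (ADAPT) helper26 / helper12.
-/

set_option autoImplicit false

open ModularCurve

namespace Fermat.Agent.S16x.Low.H12F

/-- **The lower bound of S16**: the Eisenstein character modulo `n = eisensteinNumerator p`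
kills the kernel of `ℤ[X_ℓ] → T`. -/
theorem h12_asmStLOW (p : ℕ) [Fact p.Prime] : Fermat.Agent.S16x.Asm.StLOW p :=
  haveI : NeZero p := ⟨(Fact.out : p.Prime).ne_zero⟩
  Fermat.Agent.S16x.Low.H26.asmStLOW_of p
    (Fermat.Agent.S16x.Low.H23.h23_stL2 p (eisensteinNumerator p))
    (Fermat.Agent.S16x.Low.H12K.h12_stK p)

end Fermat.Agent.S16x.Low.H12F
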