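import Mathlib
import Fermat.Prelude.Def_ModularCurve_PeriodMap
import Fermat.Prelude.Def_ModularCurve_ModularUnit

/-!
# S16 / package LOW (helper20): the Eisenstein (Shimura) class

`x : Γ₀(p) → (ℤ/p)ˣ → (ℤ/p)ˣ / μ_{gcd(p-1,12)} ≅ ℤ/n`, `γ ↦ class of the lower right entry`,
`n = (p-1)/gcd(p-1,12) = eisensteinNumerator p`.

* `dChar p : Γ₀(p) →* (ZMod p)ˣ`, surjective, `= ±1` on elements with `trace² = 4`.
* `exists_lam p` : a surjective `lam : Additive (ZMod p)ˣ →+ ZMod n` killing the `12`-torsion.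
* `eisClass p lam := lam ∘ dChar`: surjective, parabolic, kills the elements of order
  dividing `12` (so `-1` and all elliptic elements).
-/

set_option autoImplicit false

open scoped MatrixGroups
open CongruenceSubgroup

noncomputable section

namespace Fermat.Agent.S16x.Low.H20

variable (p : ℕ) [Fact p.Prime]

/-- `γ ↦ d mod p` as a homomorphism to the units of `ZMod p`. -/
def dChar : ↥(Gamma0 p) →* (ZMod p)ˣ := (Gamma0Map p).toHomUnits

theorem dChar_coe (γ : ↥(Gamma0 p)) :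
    ((dChar p γ : (ZMod p)ˣ) : ZMod p) = (((γ : SL(2, ℤ)) 1 1 : ℤ) : ZMod p) := rfl

/-- `a d ≡ 1 mod p` on `Γ₀(p)`. -/
theorem a_mul_d (γ : ↥(Gamma0 p)) :
    ((((γ : SL(2, ℤ)) 0 0 : ℤ) : ZMod p)) * (((γ : SL(2, ℤ)) 1 1 : ℤ) : ZMod p) = 1 := by
  have hdet := (γ : SL(2, ℤ)).2
  rw [Matrix.det_fin_two] at hdet
  have hc : ((((γ : SL(2, ℤ)) 1 0 : ℤ)) : ZMod p) = 0 := Gamma0_mem.mp γ.2
  have h := congrArg (fun x : ℤ => (x : ZMod p)) hdet
  simp only [Int.cast_sub, Int.cast_mul, Int.cast_one] at h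
  rw [hc, mul_zero, sub_zero] at h
  exact h

theorem dChar_surjective : Function.Surjective (dChar p) := by
  intro u
  -- lifts of `u` and `u⁻¹`
  obtain ⟨d, hd⟩ := ZMod.intCast_surjective (u : ZMod p)
  obtain ⟨a, ha⟩ := ZMod.intCast_surjective ((u⁻¹ : (ZMod p)ˣ) : ZMod p)
  have had : ((a * d - 1 : ℤ) : ZMod p) = 0 := by
    push_cast
    rw [ha, hd, Units.inv_mul, sub_self]
  let M : SL(2, ℤ) := ⟨!![a, 1; a * d - 1, d], by
    rw [Matrix.det_fin_two]
    simp⟩
  have hM : M ∈ Gamma0 p := by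
    rw [Gamma0_mem]
    exact had
  refine ⟨⟨M, hM⟩, ?_⟩
  apply Units.ext
  rw [dChar_coe]
  simpa [M] using hd

/-- On elements with `trace² = 4` the character `d` is `±1`. -/
theorem dChar_of_trace_sq (γ : ↥(Gamma0 p))
    (h : ((γ : SL(2, ℤ)) : Matrix (Fin 2) (Fin 2) ℤ).trace ^ 2 = 4) :
    dChar p γ = 1 ∨ dChar p γ = -1 := by
  have had := a_mul_d p γ
  rw [Matrix.trace_fin_two] at h
  set a : ℤ := (γ : SL(2, ℤ)) 0 0 with ha
  set d : ℤ := (γ : SL(2, ℤ)) 1 1 with hd
  have h2 : (a + d - 2) * (a + d + 2) = 0 := by linear_combination h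
  rcases mul_eq_zero.mp h2 with h3 | h3
  · -- `a + d = 2`
    left
    apply Units.ext
    rw [dChar_coe, Units.val_one]
    have hA : ((a : ℤ) : ZMod p) = 2 - (d : ZMod p) := by
      have : a = 2 - d := by linarith
      rw [this]; push_cast; ring
    rw [hA] at had
    have h4 : ((d : ZMod p) - 1) ^ 2 = 0 := by linear_combination -had
    have h5 := pow_eq_zero_iff (two_ne_zero) |>.mp h4
    linear_combination h5
  · right
    apply Units.ext
    rw [dChar_coe, Units.val_neg, Units.val_one]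
    have hA : ((a : ℤ) : ZMod p) = -2 - (d : ZMod p) := by
      have : a = -2 - d := by linarith
      rw [this]; push_cast; ring
    rw [hA] at had
    have h4 : ((d : ZMod p) + 1) ^ 2 = 0 := by linear_combination -had
    have h5 := pow_eq_zero_iff (two_ne_zero) |>.mp h4
    linear_combination h5

/-- arithmetic: `(p - 1) ∣ 12 v → n ∣ v`. -/
theorem eisNum_dvd_of_dvd_mul {v : ℕ} (h : (p - 1) ∣ 12 * v) :
    ModularCurve.eisensteinNumerator p ∣ v := by
  unfold ModularCurve.eisensteinNumerator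
  have hp1 : 0 < p - 1 := Nat.sub_pos_of_lt (Fact.out : p.Prime).one_lt
  have hg : 0 < Nat.gcd (p - 1) 12 := Nat.gcd_pos_of_pos_left _ hp1
  have hcop := Nat.coprime_div_gcd_div_gcd hg
  generalize hG : Nat.gcd (p - 1) 12 = g at hg hcop ⊢
  have hgn : g ∣ p - 1 := hG ▸ Nat.gcd_dvd_left _ _
  have hgt : g ∣ 12 := hG ▸ Nat.gcd_dvd_right _ _
  have hn : g * ((p - 1) / g) = p - 1 := Nat.mul_div_cancel' hgn
  have ht : g * (12 / g) = 12 := Nat.mul_div_cancel' hgt
  have h1 : g * ((p - 1) / g) ∣ g * ((12 / g) * v) := by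
    rw [hn, ← mul_assoc, ht]
    exact h
  have h2 : (p - 1) / g ∣ (12 / g) * v := (Nat.mul_dvd_mul_iff_left hg).mp h1
  exact hcop.dvd_of_dvd_mul_left h2

theorem card_units : Nat.card (ZMod p)ˣ = p - 1 := by
  rw [Nat.card_eq_fintype_card, ZMod.card_units_eq_totient, Nat.totient_prime Fact.out]

/-- The quotient map `(ℤ/p)ˣ → ℤ/n`. -/
theorem exists_lam : ∃ lam : Additive (ZMod p)ˣ →+ ZMod (ModularCurve.eisensteinNumerator p),
    Function.Surjective lam ∧
      ∀ u : (ZMod p)ˣ, u ^ 12 = 1 → lam (Additive.ofMul u) = 0 := by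
  have hcyc : IsAddCyclic (Additive (ZMod p)ˣ) := inferInstance
  let φ : ZMod (Nat.card (Additive (ZMod p)ˣ)) ≃+ Additive (ZMod p)ˣ :=
    zmodAddCyclicAddEquiv hcyc
  have hcard : Nat.card (Additive (ZMod p)ˣ) = p - 1 := by
    rw [← card_units p]; rfl
  have hdvd : ModularCurve.eisensteinNumerator p ∣ Nat.card (Additive (ZMod p)ˣ) := by
    rw [hcard]
    exact ModularCurve.eisensteinNumerator_dvd p
  let c : ZMod (Nat.card (Additive (ZMod p)ˣ)) →+* ZMod (ModularCurve.eisensteinNumerator p) :=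
    ZMod.castHom hdvd _
  refine ⟨c.toAddMonoidHom.comp φ.symm.toAddMonoidHom, ?_, ?_⟩
  · intro y
    obtain ⟨e, he⟩ := ZMod.ringHom_surjective c y
    exact ⟨φ e, by simp [he]⟩
  · intro u hu
    show c (φ.symm (Additive.ofMul u)) = 0
    set e := φ.symm (Additive.ofMul u) with he
    have h12 : (12 : ℕ) • e = 0 := by
      rw [he, ← map_nsmul, ← ofMul_pow, hu, ofMul_one, map_zero]
    have : NeZero (Nat.card (Additive (ZMod p)ˣ)) := by
      rw [hcard]
      exact ⟨(Nat.sub_pos_of_lt (Fact.out : p.Prime).one_lt).ne'⟩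
    have h2 : ((12 * e.val : ℕ) : ZMod (Nat.card (Additive (ZMod p)ˣ))) = 0 := by
      rw [Nat.cast_mul, ZMod.natCast_zmod_val, ← nsmul_eq_mul]
      exact h12
    rw [ZMod.natCast_eq_zero_iff] at h2
    have h2' : p - 1 ∣ 12 * e.val := by
      rw [← hcard]
      exact h2
    have h3 := eisNum_dvd_of_dvd_mul p h2'
    rw [ZMod.castHom_apply, ← ZMod.natCast_val, ZMod.natCast_eq_zero_iff]
    exact h3

section Class

variable {p}
variable (lam : Additive (ZMod p)ˣ →+ ZMod (ModularCurve.eisensteinNumerator p))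

/-- **The Eisenstein class** attached to a quotient map `lam`. -/
def eisClass : Additive ↥(Gamma0 p) →+ ZMod (ModularCurve.eisensteinNumerator p) :=
  lam.comp (MonoidHom.toAdditive (dChar p))

theorem eisClass_apply (γ : ↥(Gamma0 p)) :
    eisClass lam (Additive.ofMul γ) = lam (Additive.ofMul (dChar p γ)) := rfl

theorem eisClass_eq_of_dChar_eq {γ δ : ↥(Gamma0 p)} (h : dChar p γ = dChar p δ) :
    eisClass lam (Additive.ofMul γ) = eisClass lam (Additive.ofMul δ) := by
  rw [eisClass_apply, eisClass_apply, h]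

theorem eisClass_surjective (hlam : Function.Surjective lam) :
    Function.Surjective (eisClass lam) := by
  intro y
  obtain ⟨u, hu⟩ := hlam y
  obtain ⟨γ, hγ⟩ := dChar_surjective p (Additive.toMul u)
  exact ⟨Additive.ofMul γ, by rw [eisClass_apply, hγ]; exact hu⟩

theorem eisClass_of_pow_eq_one (h12 : ∀ u : (ZMod p)ˣ, u ^ 12 = 1 → lam (Additive.ofMul u) = 0)
    (γ : ↥(Gamma0 p)) {k : ℕ} (hk : k ∣ 12) (h : γ ^ k = 1) :
    eisClass lam (Additive.ofMul γ) = 0 := by
  rw [eisClass_apply]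
  apply h12
  obtain ⟨t, ht⟩ := hk
  rw [ht, pow_mul, ← map_pow, h, map_one, one_pow]

theorem eisClass_isParabolicHom
    (h12 : ∀ u : (ZMod p)ˣ, u ^ 12 = 1 → lam (Additive.ofMul u) = 0) :
    ModularCurve.Period.IsParabolicHom (Gamma0 p) (eisClass lam) := by
  intro γ hγ
  rw [eisClass_apply]
  apply h12
  rcases dChar_of_trace_sq p γ hγ with h | h
  · rw [h, one_pow]
  · rw [h]
    norm_num

end Class

/-- **[LOW-X]** packaged: the Eisenstein class exists. -/
theorem exists_eisClass :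
    ∃ (lam : Additive (ZMod p)ˣ →+ ZMod (ModularCurve.eisensteinNumerator p))
      (x : Additive ↥(Gamma0 p) →+ ZMod (ModularCurve.eisensteinNumerator p)),
      (∀ γ : ↥(Gamma0 p), x (Additive.ofMul γ) = lam (Additive.ofMul (dChar p γ))) ∧
      Function.Surjective lam ∧ Function.Surjective x ∧
      (∀ u : (ZMod p)ˣ, u ^ 12 = 1 → lam (Additive.ofMul u) = 0) ∧
      ModularCurve.Period.IsParabolicHom (Gamma0 p) x ∧
      ∀ (γ : ↥(Gamma0 p)) (k : ℕ), k ∣ 12 → γ ^ k = 1 → x (Additive.ofMul γ) = 0 := by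
  obtain ⟨lam, hs, h12⟩ := exists_lam p
  exact ⟨lam, eisClass lam, fun γ => rfl, hs, eisClass_surjective lam hs, h12,
    eisClass_isParabolicHom lam h12, fun γ k hk h => eisClass_of_pow_eq_one lam h12 γ hk h⟩

end Fermat.Agent.S16x.Low.H20
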