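import Mathlib

/-!
# S16, package LOW, leaf (L2), abstract part (helper23)

Let `Γ` be a finitely generated group and `C ⊆ C'` two sets of elements of `Γ` such that every
element of `C'` lies in `C` or has finite order.  Write `Hom_C(Γ, A)` for the homomorphisms
`Γ → A` killing `C`.  If `dim_{𝔽_l} Hom_{C'}(Γ, 𝔽_l) ≤ dim_ℂ Hom_C(Γ, ℂ)`, then every
homomorphism `Γ → ℤ / l ^ e` killing `C'` is the reduction of a homomorphism `Γ → ℤ` killing `C`.
-/

set_option autoImplicit false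
set_option linter.style.haveILetI false

open Module

namespace Fermat.Agent.S16x.Low.H23

section Defs

variable {Γ : Type*} [Group Γ]

/-- Homomorphisms `Γ → A` killing the set `C`. -/
def homsKilling (R : Type*) [Semiring R] (C : Set Γ) (A : Type*) [AddCommGroup A] [Module R A] :
    Submodule R (Additive Γ →+ A) where
  carrier := {φ | ∀ γ ∈ C, φ (Additive.ofMul γ) = 0}
  zero_mem' := fun _ _ => rfl
  add_mem' := by
    intro φ ψ hφ hψ γ hγ
    show φ (Additive.ofMul γ) + ψ (Additive.ofMul γ) = 0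
    rw [hφ γ hγ, hψ γ hγ, add_zero]
  smul_mem' := by
    intro c φ hφ γ hγ
    show c • φ (Additive.ofMul γ) = 0
    rw [hφ γ hγ, smul_zero]

theorem mem_homsKilling {R : Type*} [Semiring R] {C : Set Γ} {A : Type*} [AddCommGroup A]
    [Module R A] {φ : Additive Γ →+ A} :
    φ ∈ homsKilling R C A ↔ ∀ γ ∈ C, φ (Additive.ofMul γ) = 0 := Iff.rfl

/-- Two homomorphisms agreeing on a generating set are equal. -/
theorem hom_ext_of_closure {A : Type*} [AddCommGroup A] {S : Set Γ}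
    (hS : Subgroup.closure S = ⊤) {φ ψ : Additive Γ →+ A}
    (h : ∀ s ∈ S, φ (Additive.ofMul s) = ψ (Additive.ofMul s)) : φ = ψ := by
  let K : Subgroup Γ :=
    { carrier := {γ | φ (Additive.ofMul γ) = ψ (Additive.ofMul γ)}
      mul_mem' := by
        intro a b ha hb
        show φ (Additive.ofMul (a * b)) = ψ (Additive.ofMul (a * b))
        rw [ofMul_mul, map_add, map_add, ha, hb]
      one_mem' := by
        show φ (Additive.ofMul 1) = ψ (Additive.ofMul 1)
        rw [ofMul_one, map_zero, map_zero]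
      inv_mem' := by
        intro a ha
        show φ (Additive.ofMul a⁻¹) = ψ (Additive.ofMul a⁻¹)
        rw [ofMul_inv, map_neg, map_neg, ha] }
  have hK : Subgroup.closure S ≤ K := (Subgroup.closure_le K).mpr h
  rw [hS] at hK
  refine AddMonoidHom.ext fun γ => ?_
  exact hK (Subgroup.mem_top (Additive.toMul γ))

/-- Values of a homomorphism lie in any additive subgroup containing the values on generators. -/
theorem hom_mem_of_closure {A : Type*} [AddCommGroup A] {S : Set Γ}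
    (hS : Subgroup.closure S = ⊤) (φ : Additive Γ →+ A) (Λ : AddSubgroup A)
    (h : ∀ s ∈ S, φ (Additive.ofMul s) ∈ Λ) (γ : Additive Γ) : φ γ ∈ Λ := by
  let K : Subgroup Γ :=
    { carrier := {γ | φ (Additive.ofMul γ) ∈ Λ}
      mul_mem' := by
        intro a b ha hb
        show φ (Additive.ofMul (a * b)) ∈ Λ
        rw [ofMul_mul, map_add]
        exact Λ.add_mem ha hb
      one_mem' := by
        show φ (Additive.ofMul 1) ∈ Λ
        rw [ofMul_one, map_zero]
        exact Λ.zero_mem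
      inv_mem' := by
        intro a ha
        show φ (Additive.ofMul a⁻¹) ∈ Λ
        rw [ofMul_inv, map_neg]
        exact Λ.neg_mem ha }
  have hK : Subgroup.closure S ≤ K := (Subgroup.closure_le K).mpr h
  rw [hS] at hK
  exact hK (Subgroup.mem_top (Additive.toMul γ))

/-- Evaluation on a set of elements, as a linear map. -/
def evalOn (R : Type*) [Semiring R] (A : Type*) [AddCommGroup A] [Module R A] (S : Set Γ) :
    (Additive Γ →+ A) →ₗ[R] (S → A) where
  toFun φ := fun s => φ (Additive.ofMul (s : Γ))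
  map_add' := by intros; rfl
  map_smul' := by intros; rfl

theorem evalOn_injective (R : Type*) [Semiring R] (A : Type*) [AddCommGroup A] [Module R A]
    {S : Set Γ} (hS : Subgroup.closure S = ⊤) : Function.Injective (evalOn (Γ := Γ) R A S) := by
  intro φ ψ h
  refine hom_ext_of_closure hS fun s hs => ?_
  exact congrFun h ⟨s, hs⟩

/-- Composition with the cast `ℤ → A`, as a `ℤ`-linear map. -/
def castHomL (A : Type*) [Ring A] : (Additive Γ →+ ℤ) →ₗ[ℤ] (Additive Γ →+ A) where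
  toFun ψ := (Int.castAddHom A).comp ψ
  map_add' := by
    intro a b
    refine AddMonoidHom.ext fun γ => ?_
    simp
  map_smul' := by
    intro c a
    refine AddMonoidHom.ext fun γ => ?_
    simp

@[simp] theorem castHomL_apply (A : Type*) [Ring A] (ψ : Additive Γ →+ ℤ) (γ : Additive Γ) :
    castHomL A ψ γ = ((ψ γ : ℤ) : A) := rfl

end Defs

section Integral

variable {Γ : Type*} [Group Γ]

theorem homZ_moduleFinite [Group.FG Γ] : Module.Finite ℤ (Additive Γ →+ ℤ) := by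
  obtain ⟨S, hS, hSfin⟩ := Group.fg_iff.mp (inferInstance : Group.FG Γ)
  haveI : Finite S := hSfin.to_subtype
  exact Module.Finite.of_injective (evalOn ℤ ℤ S) (evalOn_injective ℤ ℤ hS)

theorem homZ_isAddTorsionFree : IsAddTorsionFree (Additive Γ →+ ℤ) where
  nsmul_right_injective n hn a b hab := by
    refine AddMonoidHom.ext fun γ => ?_
    have h : n • a γ = n • b γ := by
      simpa using congrArg (fun f : Additive Γ →+ ℤ => f γ) hab
    exact nsmul_right_injective hn h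

theorem homsKillingZ_moduleFinite [Group.FG Γ] (C : Set Γ) :
    Module.Finite ℤ ↥(homsKilling ℤ C ℤ) := by
  haveI := homZ_moduleFinite (Γ := Γ)
  infer_instance

theorem homsKillingZ_moduleFree [Group.FG Γ] (C : Set Γ) :
    Module.Free ℤ ↥(homsKilling ℤ C ℤ) := by
  haveI := homsKillingZ_moduleFinite C
  haveI := homZ_isAddTorsionFree (Γ := Γ)
  haveI : IsAddTorsionFree ↥(homsKilling ℤ C ℤ) :=
    ⟨fun n hn a b hab => Subtype.ext (nsmul_right_injective hn (congrArg Subtype.val hab))⟩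
  exact Module.free_of_finite_type_torsion_free'

end Integral

section Span

variable {Γ : Type*} [Group Γ]

/-- Every complex homomorphism killing `C` is a `ℂ`-combination of integral ones. -/
theorem homsKilling_le_span [Group.FG Γ] (C : Set Γ) :
    homsKilling ℂ C ℂ ≤
      Submodule.span ℂ ((castHomL ℂ) '' (homsKilling ℤ C ℤ : Set (Additive Γ →+ ℤ))) := by
  intro φ hφ
  obtain ⟨S, hS, hSfin⟩ := Group.fg_iff.mp (inferInstance : Group.FG Γ)
  let Λ : Submodule ℤ ℂ := Submodule.span ℤ ((fun s : Γ => φ (Additive.ofMul s)) '' S)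
  haveI hΛfg : Module.Finite ℤ Λ := Module.Finite.span_of_finite ℤ (hSfin.image _)
  haveI hΛfree : Module.Free ℤ Λ := Module.free_of_finite_type_torsion_free'
  let c := Module.Free.chooseBasis ℤ Λ
  have hmem : ∀ γ, φ γ ∈ Λ.toAddSubgroup := fun γ =>
    hom_mem_of_closure hS φ Λ.toAddSubgroup
      (fun s hs => Submodule.subset_span ⟨s, hs, rfl⟩) γ
  let φ' : Additive Γ →+ Λ :=
    { toFun := fun γ => ⟨φ γ, hmem γ⟩
      map_zero' := Subtype.ext (map_zero φ)
      map_add' := fun a b => Subtype.ext (map_add φ a b) }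
  let coordHom : Module.Free.ChooseBasisIndex ℤ Λ → (Additive Γ →+ ℤ) :=
    fun j => (c.coord j).toAddMonoidHom.comp φ'
  have hcoord_mem : ∀ j, coordHom j ∈ homsKilling ℤ C ℤ := by
    intro j γ hγ
    show c.coord j (φ' (Additive.ofMul γ)) = 0
    have h0 : φ' (Additive.ofMul γ) = 0 := Subtype.ext (hφ γ hγ)
    rw [h0, map_zero]
  have hφ_eq : φ = ∑ j, ((c j : Λ) : ℂ) • castHomL ℂ (coordHom j) := by
    refine AddMonoidHom.ext fun γ => ?_
    have h1 := c.sum_repr (φ' γ)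
    have h2 := congrArg (fun x : Λ => (x : ℂ)) h1
    simp only [Submodule.coe_sum, Submodule.coe_smul] at h2
    rw [AddMonoidHom.finsetSum_apply]
    show φ γ = ∑ j, ((c j : Λ) : ℂ) • ((c.coord j (φ' γ) : ℤ) : ℂ)
    have h3 : ((φ' γ : Λ) : ℂ) = φ γ := rfl
    rw [← h3, ← h2]
    refine Finset.sum_congr rfl fun j _ => ?_
    rw [Module.Basis.coord_apply, smul_eq_mul, zsmul_eq_mul, mul_comm]
  rw [hφ_eq]
  exact Submodule.sum_mem _ fun j _ =>
    Submodule.smul_mem _ _ (Submodule.subset_span ⟨_, hcoord_mem j, rfl⟩)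

/-- The complex dimension of `Hom_C(Γ, ℂ)` is at most the rank of `Hom_C(Γ, ℤ)`. -/
theorem finrank_homsKilling_le [Group.FG Γ] (C : Set Γ) :
    finrank ℂ ↥(homsKilling ℂ C ℂ) ≤ finrank ℤ ↥(homsKilling ℤ C ℤ) := by
  haveI := homsKillingZ_moduleFinite C
  haveI := homsKillingZ_moduleFree C
  let b := Module.Free.chooseBasis ℤ ↥(homsKilling ℤ C ℤ)
  let v : Module.Free.ChooseBasisIndex ℤ ↥(homsKilling ℤ C ℤ) → (Additive Γ →+ ℂ) :=
    fun i => castHomL ℂ (b i : Additive Γ →+ ℤ)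
  have hle : homsKilling ℂ C ℂ ≤ Submodule.span ℂ (Set.range v) := by
    refine (homsKilling_le_span C).trans (Submodule.span_le.mpr ?_)
    rintro _ ⟨ψ, hψ, rfl⟩
    have h1 := b.sum_repr ⟨ψ, hψ⟩
    have h2 := congrArg (fun x : ↥(homsKilling ℤ C ℤ) => castHomL ℂ (x : Additive Γ →+ ℤ)) h1
    simp only [Submodule.coe_sum, Submodule.coe_smul, map_sum, map_zsmul] at h2
    rw [SetLike.mem_coe, ← h2]
    refine Submodule.sum_mem _ fun i _ => ?_
    rw [← Int.cast_smul_eq_zsmul ℂ]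
    exact Submodule.smul_mem _ _ (Submodule.subset_span ⟨i, rfl⟩)
  haveI : Module.Finite ℂ ↥(Submodule.span ℂ (Set.range v)) :=
    Module.Finite.span_of_finite ℂ (Set.finite_range v)
  calc finrank ℂ ↥(homsKilling ℂ C ℂ)
      ≤ finrank ℂ ↥(Submodule.span ℂ (Set.range v)) := Submodule.finrank_mono hle
    _ ≤ Fintype.card (Module.Free.ChooseBasisIndex ℤ ↥(homsKilling ℤ C ℤ)) :=
        finrank_range_le_card v
    _ = finrank ℤ ↥(homsKilling ℤ C ℤ) := (Module.finrank_eq_card_chooseBasisIndex ℤ _).symm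

end Span

section ModPrime

variable {Γ : Type*} [Group Γ]

/-- An integral homomorphism killing `C` kills every element which is in `C` or of finite
order. -/
theorem apply_eq_zero_of_tors {C C' : Set Γ}
    (htors : ∀ γ ∈ C', γ ∈ C ∨ ∃ n : ℕ, 0 < n ∧ γ ^ n = 1)
    {ψ : Additive Γ →+ ℤ} (hψ : ψ ∈ homsKilling ℤ C ℤ) {γ : Γ} (hγ : γ ∈ C') :
    ψ (Additive.ofMul γ) = 0 := by
  rcases htors γ hγ with h | ⟨n, hn, h⟩
  · exact hψ γ h
  · have h1 : n • ψ (Additive.ofMul γ) = 0 := by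
      rw [← map_nsmul, ← ofMul_pow, h, ofMul_one, map_zero]
    rcases smul_eq_zero.mp h1 with h2 | h2
    · exact absurd h2 hn.ne'
    · exact h2

/-- The reduction modulo `A` of an integral homomorphism killing `C` kills `C'`. -/
theorem castHomL_mem {C C' : Set Γ}
    (htors : ∀ γ ∈ C', γ ∈ C ∨ ∃ n : ℕ, 0 < n ∧ γ ^ n = 1) (R : Type*) [Ring R]
    {ψ : Additive Γ →+ ℤ} (hψ : ψ ∈ homsKilling ℤ C ℤ) :
    castHomL R ψ ∈ homsKilling R C' R := by
  intro γ hγ
  rw [castHomL_apply, apply_eq_zero_of_tors htors hψ hγ, Int.cast_zero]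

/-- Division by `l` of a homomorphism all of whose values are divisible by `l`. -/
theorem exists_div_hom (l : ℤ) (ψ : Additive Γ →+ ℤ) (h : ∀ γ, l ∣ ψ γ) :
    ∃ ψ' : Additive Γ →+ ℤ, ∀ γ, ψ γ = l * ψ' γ := by
  refine ⟨AddMonoidHom.mk' (fun γ => ψ γ / l) ?_, fun γ => ?_⟩
  · intro a b
    show ψ (a + b) / l = ψ a / l + ψ b / l
    rw [map_add, Int.add_ediv_of_dvd_left (h a)]
  · show ψ γ = l * (ψ γ / l)
    rw [Int.mul_ediv_cancel' (h γ)]

theorem hom_finite_of_fg [Group.FG Γ] (A : Type*) [AddCommGroup A] [Finite A] :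
    Finite (Additive Γ →+ A) := by
  obtain ⟨S, hS, hSfin⟩ := Group.fg_iff.mp (inferInstance : Group.FG Γ)
  haveI : Finite S := hSfin.to_subtype
  exact Finite.of_injective (evalOn ℤ A S) (evalOn_injective ℤ A hS)

/-- The reductions modulo `l` of a `ℤ`-basis of `Hom_C(Γ, ℤ)` are linearly independent. -/
theorem linearIndependent_red (C C' : Set Γ)
    (htors : ∀ γ ∈ C', γ ∈ C ∨ ∃ n : ℕ, 0 < n ∧ γ ^ n = 1) (l : ℕ) [Fact l.Prime]
    {ι : Type*} [Fintype ι] (b : Module.Basis ι ℤ ↥(homsKilling ℤ C ℤ)) :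
    LinearIndependent (ZMod l)
      (fun i => (⟨castHomL (ZMod l) (b i : Additive Γ →+ ℤ), castHomL_mem htors (ZMod l) (b i).2⟩ :
        ↥(homsKilling (ZMod l) C' (ZMod l)))) := by
  classical
  rw [Fintype.linearIndependent_iff]
  intro g hg i
  -- integral lift of the relation
  let a : ι → ℤ := fun i => ((g i).cast : ℤ)
  have ha : ∀ i, ((a i : ℤ) : ZMod l) = g i := fun i => ZMod.intCast_zmod_cast (g i)
  let Ψ : ↥(homsKilling ℤ C ℤ) := ∑ i, a i • b i
  have hΨ : ∀ γ, (l : ℤ) ∣ (Ψ : Additive Γ →+ ℤ) γ := by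
    intro γ
    rw [← ZMod.intCast_zmod_eq_zero_iff_dvd]
    have h1 := congrArg (fun f : ↥(homsKilling (ZMod l) C' (ZMod l)) =>
      (f : Additive Γ →+ ZMod l) γ) hg
    simp only [Submodule.coe_sum, Submodule.coe_smul, AddMonoidHom.finsetSum_apply,
      AddMonoidHom.smul_apply, castHomL_apply, Submodule.coe_zero, AddMonoidHom.zero_apply,
      smul_eq_mul] at h1
    have h2 : ((Ψ : Additive Γ →+ ℤ) γ : ℤ) = ∑ i, a i * (b i : Additive Γ →+ ℤ) γ := by
      simp only [Ψ, Submodule.coe_sum, Submodule.coe_smul, AddMonoidHom.finsetSum_apply,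
        AddMonoidHom.smul_apply, smul_eq_mul]
    rw [h2, Int.cast_sum, ← h1]
    refine Finset.sum_congr rfl fun j _ => ?_
    rw [Int.cast_mul, ha]
  obtain ⟨ψ', hψ'⟩ := exists_div_hom (l : ℤ) (Ψ : Additive Γ →+ ℤ) hΨ
  have hl0 : (l : ℤ) ≠ 0 := by exact_mod_cast (Fact.out : l.Prime).ne_zero
  have hψ'mem : ψ' ∈ homsKilling ℤ C ℤ := by
    intro γ hγ
    have h1 := hψ' (Additive.ofMul γ)
    rw [Ψ.2 γ hγ] at h1
    rcases mul_eq_zero.mp h1.symm with h2 | h2
    · exact absurd h2 hl0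
    · exact h2
  have hΨeq : Ψ = (l : ℤ) • (⟨ψ', hψ'mem⟩ : ↥(homsKilling ℤ C ℤ)) := by
    apply Subtype.ext
    refine AddMonoidHom.ext fun γ => ?_
    rw [Submodule.coe_smul, AddMonoidHom.smul_apply, smul_eq_mul]
    exact hψ' γ
  have hrepr : b.repr Ψ i = a i := by
    simp only [Ψ, map_sum, map_zsmul, Module.Basis.repr_self, Finsupp.coe_finsetSum,
      Finsupp.coe_smul, Finset.sum_apply, Pi.smul_apply, Finsupp.single_apply, smul_eq_mul]
    simp
  have hrepr' : b.repr Ψ i = (l : ℤ) * b.repr ⟨ψ', hψ'mem⟩ i := by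
    rw [hΨeq, map_zsmul, Finsupp.coe_smul, Pi.smul_apply, smul_eq_mul]
  rw [← ha i, ← hrepr, hrepr', Int.cast_mul, Int.cast_natCast, ZMod.natCast_self, zero_mul]

variable [Group.FG Γ]

/-- **Lifting modulo a prime.**  If `dim_{𝔽_l} Hom_{C'}(Γ, 𝔽_l) ≤ dim_ℂ Hom_C(Γ, ℂ)`, then every
element of `Hom_{C'}(Γ, 𝔽_l)` is the reduction of an element of `Hom_C(Γ, ℤ)`. -/
theorem exists_lift_mod_prime (C C' : Set Γ)
    (htors : ∀ γ ∈ C', γ ∈ C ∨ ∃ n : ℕ, 0 < n ∧ γ ^ n = 1) (l : ℕ) [Fact l.Prime]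
    (hdim : finrank (ZMod l) ↥(homsKilling (ZMod l) C' (ZMod l))
      ≤ finrank ℂ ↥(homsKilling ℂ C ℂ))
    (x : Additive Γ →+ ZMod l) (hx : x ∈ homsKilling (ZMod l) C' (ZMod l)) :
    ∃ ψ : Additive Γ →+ ℤ, ψ ∈ homsKilling ℤ C ℤ ∧ ∀ γ, ((ψ γ : ℤ) : ZMod l) = x γ := by
  classical
  haveI := homsKillingZ_moduleFinite C
  haveI := homsKillingZ_moduleFree C
  haveI : Finite (Additive Γ →+ ZMod l) := hom_finite_of_fg (ZMod l)
  haveI : Module.Finite (ZMod l) ↥(homsKilling (ZMod l) C' (ZMod l)) := Module.Finite.of_finite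
  let b := Module.Free.chooseBasis ℤ ↥(homsKilling ℤ C ℤ)
  have hli := linearIndependent_red C C' htors l b
  have hcard : Fintype.card (Module.Free.ChooseBasisIndex ℤ ↥(homsKilling ℤ C ℤ))
      = finrank (ZMod l) ↥(homsKilling (ZMod l) C' (ZMod l)) := by
    apply le_antisymm
    · exact hli.fintype_card_le_finrank
    · calc finrank (ZMod l) ↥(homsKilling (ZMod l) C' (ZMod l))
          ≤ finrank ℂ ↥(homsKilling ℂ C ℂ) := hdim
        _ ≤ finrank ℤ ↥(homsKilling ℤ C ℤ) := finrank_homsKilling_le C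
        _ = _ := Module.finrank_eq_card_chooseBasisIndex ℤ _
  have hspan := hli.span_eq_top_of_card_eq_finrank' hcard
  have hxmem : (⟨x, hx⟩ : ↥(homsKilling (ZMod l) C' (ZMod l))) ∈
      Submodule.span (ZMod l) (Set.range fun i =>
        (⟨castHomL (ZMod l) (b i : Additive Γ →+ ℤ), castHomL_mem htors (ZMod l) (b i).2⟩ :
          ↥(homsKilling (ZMod l) C' (ZMod l)))) := by
    rw [hspan]; trivial
  obtain ⟨g, hg⟩ := (Submodule.mem_span_range_iff_exists_fun (ZMod l)).mp hxmem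
  let a : Module.Free.ChooseBasisIndex ℤ ↥(homsKilling ℤ C ℤ) → ℤ := fun i => ((g i).cast : ℤ)
  have ha : ∀ i, ((a i : ℤ) : ZMod l) = g i := fun i => ZMod.intCast_zmod_cast (g i)
  let Ψ : ↥(homsKilling ℤ C ℤ) := ∑ i, a i • b i
  refine ⟨Ψ, Ψ.2, fun γ => ?_⟩
  have h1 := congrArg (fun f : ↥(homsKilling (ZMod l) C' (ZMod l)) =>
    (f : Additive Γ →+ ZMod l) γ) hg
  simp only [Submodule.coe_sum, Submodule.coe_smul, AddMonoidHom.finsetSum_apply,
    AddMonoidHom.smul_apply, castHomL_apply, smul_eq_mul] at h1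
  have h2 : ((Ψ : Additive Γ →+ ℤ) γ : ℤ) = ∑ i, a i * (b i : Additive Γ →+ ℤ) γ := by
    simp only [Ψ, Submodule.coe_sum, Submodule.coe_smul, AddMonoidHom.finsetSum_apply,
      AddMonoidHom.smul_apply, smul_eq_mul]
  rw [h2, Int.cast_sum, ← h1]
  refine Finset.sum_congr rfl fun j _ => ?_
  rw [Int.cast_mul, ha]

end ModPrime

section PrimePow

variable {Γ : Type*} [Group Γ] [Group.FG Γ]

/-- **Lifting modulo a prime power.** -/
theorem exists_lift_mod_prime_pow (C C' : Set Γ)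
    (htors : ∀ γ ∈ C', γ ∈ C ∨ ∃ n : ℕ, 0 < n ∧ γ ^ n = 1) (l : ℕ) [Fact l.Prime]
    (hdim : finrank (ZMod l) ↥(homsKilling (ZMod l) C' (ZMod l))
      ≤ finrank ℂ ↥(homsKilling ℂ C ℂ)) (e : ℕ)
    (x : Additive Γ →+ ZMod (l ^ e)) (hx : ∀ γ ∈ C', x (Additive.ofMul γ) = 0) :
    ∃ ψ : Additive Γ →+ ℤ, ψ ∈ homsKilling ℤ C ℤ ∧ ∀ γ, ((ψ γ : ℤ) : ZMod (l ^ e)) = x γ := by
  have hl : l.Prime := Fact.out
  induction e with
  | zero =>
    refine ⟨0, Submodule.zero_mem _, fun γ => ?_⟩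
    haveI : Subsingleton (ZMod (l ^ 0)) := by
      rw [pow_zero]; infer_instance
    exact Subsingleton.elim _ _
  | succ e ih =>
    haveI : NeZero (l ^ (e + 1)) := ⟨pow_ne_zero _ hl.ne_zero⟩
    haveI : NeZero (l ^ e) := ⟨pow_ne_zero _ hl.ne_zero⟩
    have hdvd : l ∣ l ^ (e + 1) := dvd_pow_self l (Nat.succ_ne_zero e)
    -- reduction modulo `l`
    let x₁ : Additive Γ →+ ZMod l := (ZMod.castHom hdvd (ZMod l)).toAddMonoidHom.comp x
    have hx₁ : x₁ ∈ homsKilling (ZMod l) C' (ZMod l) := by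
      intro γ hγ
      show ZMod.castHom hdvd (ZMod l) (x (Additive.ofMul γ)) = 0
      rw [hx γ hγ, map_zero]
    obtain ⟨ψ₁, hψ₁, hψ₁x⟩ := exists_lift_mod_prime C C' htors l hdim x₁ hx₁
    -- integral representatives of the values of `x`
    let X : Additive Γ → ℤ := fun γ => ((x γ).cast : ℤ)
    have hX : ∀ γ, ((X γ : ℤ) : ZMod (l ^ (e + 1))) = x γ := fun γ => ZMod.intCast_zmod_cast _
    have hXadd : ∀ a b, ((l ^ (e + 1) : ℕ) : ℤ) ∣ X (a + b) - X a - X b := by
      intro a b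
      rw [← ZMod.intCast_zmod_eq_zero_iff_dvd]
      push_cast
      rw [hX, hX, hX, map_add]
      ring
    have hD : ∀ γ, (l : ℤ) ∣ X γ - ψ₁ γ := by
      intro γ
      rw [← ZMod.intCast_zmod_eq_zero_iff_dvd]
      push_cast
      rw [hψ₁x γ]
      have h1 : ((X γ : ℤ) : ZMod l) = ZMod.castHom hdvd (ZMod l) ((X γ : ℤ) : ZMod (l ^ (e + 1))) :=
        (map_intCast _ _).symm
      rw [h1, hX]
      show x₁ γ - x₁ γ = 0
      rw [sub_self]
    have hl0 : (l : ℤ) ≠ 0 := by exact_mod_cast hl.ne_zero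
    let Q : Additive Γ → ℤ := fun γ => (X γ - ψ₁ γ) / l
    have hQ : ∀ γ, X γ - ψ₁ γ = l * Q γ := fun γ => (Int.mul_ediv_cancel' (hD γ)).symm
    have hQadd : ∀ a b, ((l ^ e : ℕ) : ℤ) ∣ Q (a + b) - (Q a + Q b) := by
      intro a b
      have h1 := hXadd a b
      have h2 : X (a + b) - X a - X b = (l : ℤ) * (Q (a + b) - (Q a + Q b)) := by
        have ha := hQ a
        have hb := hQ b
        have hab := hQ (a + b)
        rw [map_add] at hab
        linear_combination hab - ha - hb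
      rw [h2] at h1
      have h3 : ((l ^ (e + 1) : ℕ) : ℤ) = (l : ℤ) * ((l ^ e : ℕ) : ℤ) := by
        push_cast; ring
      rw [h3] at h1
      exact (mul_dvd_mul_iff_left hl0).mp h1
    let y : Additive Γ →+ ZMod (l ^ e) :=
      AddMonoidHom.mk' (fun γ => ((Q γ : ℤ) : ZMod (l ^ e))) (by
        intro a b
        have h := hQadd a b
        rw [← ZMod.intCast_zmod_eq_zero_iff_dvd] at h
        push_cast at h
        exact sub_eq_zero.mp h)
    have hy : ∀ γ ∈ C', y (Additive.ofMul γ) = 0 := by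
      intro γ hγ
      show ((Q (Additive.ofMul γ) : ℤ) : ZMod (l ^ e)) = 0
      have h1 : X (Additive.ofMul γ) = 0 := by
        show ((x (Additive.ofMul γ)).cast : ℤ) = 0
        rw [hx γ hγ, ZMod.cast_zero]
      have h2 : ψ₁ (Additive.ofMul γ) = 0 := apply_eq_zero_of_tors htors hψ₁ hγ
      have h3 := hQ (Additive.ofMul γ)
      rw [h1, h2, sub_zero] at h3
      rcases mul_eq_zero.mp h3.symm with h4 | h4
      · exact absurd h4 hl0
      · rw [h4, Int.cast_zero]
    obtain ⟨ψ₂, hψ₂, hψ₂y⟩ := ih y hy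
    refine ⟨ψ₁ + (l : ℤ) • ψ₂, Submodule.add_mem _ hψ₁ (Submodule.smul_mem _ _ hψ₂), fun γ => ?_⟩
    rw [← hX γ, ZMod.intCast_eq_intCast_iff_dvd_sub]
    have h1 : ((l ^ e : ℕ) : ℤ) ∣ Q γ - ψ₂ γ := by
      rw [← ZMod.intCast_zmod_eq_zero_iff_dvd]
      push_cast
      rw [hψ₂y γ]
      show ((Q γ : ℤ) : ZMod (l ^ e)) - ((Q γ : ℤ) : ZMod (l ^ e)) = 0
      rw [sub_self]
    have h2 : X γ - (ψ₁ + (l : ℤ) • ψ₂) γ = (l : ℤ) * (Q γ - ψ₂ γ) := by
      rw [AddMonoidHom.add_apply, AddMonoidHom.smul_apply, smul_eq_mul]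
      linear_combination hQ γ
    rw [h2]
    have h3 : ((l ^ (e + 1) : ℕ) : ℤ) = (l : ℤ) * ((l ^ e : ℕ) : ℤ) := by
      push_cast; ring
    rw [h3]
    exact mul_dvd_mul_left _ h1

end PrimePow

section CRT

variable {Γ : Type*} [Group Γ] [Group.FG Γ]

/-- **Lifting modulo `m`.**  Let `Γ` be a finitely generated group, `C`, `C'` sets of elements
such that every element of `C'` is in `C` or of finite order, and let `m > 0`.  Suppose that for
every prime `l ∣ m` we have `dim_{𝔽_l} Hom_{C'}(Γ, 𝔽_l) ≤ dim_ℂ Hom_C(Γ, ℂ)`.  Then every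
homomorphism `Γ → ℤ / m` killing `C'` is the reduction of a homomorphism `Γ → ℤ` killing `C`. -/
theorem exists_lift_mod (C C' : Set Γ)
    (htors : ∀ γ ∈ C', γ ∈ C ∨ ∃ n : ℕ, 0 < n ∧ γ ^ n = 1) (m : ℕ) (hm : 0 < m)
    (hdim : ∀ l : ℕ, ∀ _ : Fact l.Prime, l ∣ m →
      finrank (ZMod l) ↥(homsKilling (ZMod l) C' (ZMod l)) ≤ finrank ℂ ↥(homsKilling ℂ C ℂ))
    (x : Additive Γ →+ ZMod m) (hx : ∀ γ ∈ C', x (Additive.ofMul γ) = 0) :
    ∃ ψ : Additive Γ →+ ℤ, ψ ∈ homsKilling ℤ C ℤ ∧ ∀ γ, ((ψ γ : ℤ) : ZMod m) = x γ := by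
  induction m using Nat.recOnPosPrimePosCoprime with
  | prime_pow l n hl hn =>
    haveI : Fact l.Prime := ⟨hl⟩
    exact exists_lift_mod_prime_pow C C' htors l
      (hdim l ⟨hl⟩ (dvd_pow_self l hn.ne')) n x hx
  | zero => exact absurd hm (lt_irrefl 0)
  | one =>
    refine ⟨0, Submodule.zero_mem _, fun γ => ?_⟩
    exact Subsingleton.elim _ _
  | coprime a b ha hb hab iha ihb =>
    have ha0 : 0 < a := by omega
    have hb0 : 0 < b := by omega
    haveI : NeZero a := ⟨ha0.ne'⟩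
    haveI : NeZero b := ⟨hb0.ne'⟩
    haveI : NeZero (a * b) := ⟨(Nat.mul_pos ha0 hb0).ne'⟩
    have hda : a ∣ a * b := dvd_mul_right a b
    have hdb : b ∣ a * b := dvd_mul_left b a
    let xa : Additive Γ →+ ZMod a := (ZMod.castHom hda (ZMod a)).toAddMonoidHom.comp x
    let xb : Additive Γ →+ ZMod b := (ZMod.castHom hdb (ZMod b)).toAddMonoidHom.comp x
    have hxa : ∀ γ ∈ C', xa (Additive.ofMul γ) = 0 := by
      intro γ hγ
      show ZMod.castHom hda (ZMod a) (x (Additive.ofMul γ)) = 0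
      rw [hx γ hγ, map_zero]
    have hxb : ∀ γ ∈ C', xb (Additive.ofMul γ) = 0 := by
      intro γ hγ
      show ZMod.castHom hdb (ZMod b) (x (Additive.ofMul γ)) = 0
      rw [hx γ hγ, map_zero]
    obtain ⟨ψa, hψa, hψax⟩ := iha ha0 (fun l hl hla => hdim l hl (hla.trans hda)) xa hxa
    obtain ⟨ψb, hψb, hψbx⟩ := ihb hb0 (fun l hl hlb => hdim l hl (hlb.trans hdb)) xb hxb
    -- Bezout
    have hcop : IsCoprime (a : ℤ) (b : ℤ) := Nat.isCoprime_iff_coprime.mpr hab
    obtain ⟨u, v, huv⟩ := hcop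
    -- `u * a + v * b = 1`
    refine ⟨(v * b) • ψa + (u * a) • ψb,
      Submodule.add_mem _ (Submodule.smul_mem _ _ hψa) (Submodule.smul_mem _ _ hψb), fun γ => ?_⟩
    let t : ℤ := ((x γ).cast : ℤ)
    have ht : ((t : ℤ) : ZMod (a * b)) = x γ := ZMod.intCast_zmod_cast _
    have h1 : (a : ℤ) ∣ ψa γ - t := by
      rw [← ZMod.intCast_zmod_eq_zero_iff_dvd]
      push_cast
      rw [hψax γ]
      have h2 : ((t : ℤ) : ZMod a) = ZMod.castHom hda (ZMod a) ((t : ℤ) : ZMod (a * b)) :=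
        (map_intCast _ _).symm
      rw [h2, ht]
      show xa γ - xa γ = 0
      rw [sub_self]
    have h2 : (b : ℤ) ∣ ψb γ - t := by
      rw [← ZMod.intCast_zmod_eq_zero_iff_dvd]
      push_cast
      rw [hψbx γ]
      have h2 : ((t : ℤ) : ZMod b) = ZMod.castHom hdb (ZMod b) ((t : ℤ) : ZMod (a * b)) :=
        (map_intCast _ _).symm
      rw [h2, ht]
      show xb γ - xb γ = 0
      rw [sub_self]
    rw [← ht, ZMod.intCast_eq_intCast_iff_dvd_sub]
    obtain ⟨ca, hca⟩ := h1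
    obtain ⟨cb, hcb⟩ := h2
    refine ⟨-(v * ca + u * cb), ?_⟩
    rw [AddMonoidHom.add_apply, AddMonoidHom.smul_apply, AddMonoidHom.smul_apply, smul_eq_mul,
      smul_eq_mul]
    push_cast
    have e1 : ψa γ = t + a * ca := by linear_combination hca
    have e2 : ψb γ = t + b * cb := by linear_combination hcb
    rw [e1, e2]
    linear_combination (-t) * huv

end CRT

end Fermat.Agent.S16x.Low.H23
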