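import Mathlib
import Fermat.Prelude.Def_ModularCurve_PeriodMap
import Fermat.Prelude.Def_ModularCurve_GenusNumerics
import Fermat.Agent.S16x.Low.H23_AbsLift

/-!
# S16, package LOW, leaf (L2): interface (helper23)

* `parSet N`    : the elements of `Γ₀(N)` with `trace ^ 2 = 4` (the prelude's "parabolic" elements,
  including `±1`);
* `parEllSet N` : the elements of `Γ₀(N)` with `trace ^ 2 ≤ 4` (parabolic or elliptic);
* `StL2b N l`   : the characteristic-`l` bound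
  `dim_{𝔽_l} {φ : Γ₀(N) → 𝔽_l killing parEllSet N} ≤ 2 * genusFormula N`   (leaf [L2b]).
-/

set_option autoImplicit false

open CongruenceSubgroup ModularCurve
open scoped MatrixGroups

namespace Fermat.Agent.S16x.Low.H23

/-- The elements of `Γ₀(N)` with `trace ^ 2 = 4`. -/
def parSet (N : ℕ) : Set (Gamma0 N) :=
  {γ | ((γ : SL(2, ℤ)) : Matrix (Fin 2) (Fin 2) ℤ).trace ^ 2 = 4}

/-- The elements of `Γ₀(N)` with `trace ^ 2 ≤ 4`. -/
def parEllSet (N : ℕ) : Set (Gamma0 N) :=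
  {γ | ((γ : SL(2, ℤ)) : Matrix (Fin 2) (Fin 2) ℤ).trace ^ 2 ≤ 4}

theorem mem_parSet {N : ℕ} {γ : Gamma0 N} :
    γ ∈ parSet N ↔ ((γ : SL(2, ℤ)) : Matrix (Fin 2) (Fin 2) ℤ).trace ^ 2 = 4 := Iff.rfl

theorem mem_parEllSet {N : ℕ} {γ : Gamma0 N} :
    γ ∈ parEllSet N ↔ ((γ : SL(2, ℤ)) : Matrix (Fin 2) (Fin 2) ℤ).trace ^ 2 ≤ 4 := Iff.rfl

/-- Leaf [L2b]: the parabolic bound in characteristic `l`. -/
def StL2b (N l : ℕ) [Fact l.Prime] : Prop :=
  (Module.finrank (ZMod l) ↥(homsKilling (ZMod l) (parEllSet N) (ZMod l)) : ℚ)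
    ≤ 2 * genusFormula N

/-- The prelude's space of parabolic homomorphisms is `homsKilling` of `parSet`. -/
theorem parabolicHoms_eq_homsKilling (R : Type*) [Semiring R] (N : ℕ) (A : Type*)
    [AddCommGroup A] [Module R A] :
    Period.parabolicHoms R (Gamma0 N) A = homsKilling R (parSet N) A := by
  ext φ
  exact Iff.rfl

end Fermat.Agent.S16x.Low.H23
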