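import Fermat.Agent.S21.H5_Parabolic
import Fermat.Agent.S22.HeckeStable

/-!
# S16, package LOW, leaf (L4) (helper5): Hecke equivariance of the period map

For a weight two cusp form `f` on `Γ₀(N)`, a Hecke operator `T` (`T_q`, `q ∤ N`, or `U_q`,
`q ∣ N`) with its standard upper triangular representatives `α_i` and an element `γ ∈ Γ₀(N)`,
every *coset datum* `(σ, γ')`, i.e. every solution of `α_i γ = γ'_i α_{σ i}` with
`γ'_i ∈ Γ₀(N)`, computes the period of `T f` along `γ`: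
`periodMap (T f) γ = ∑_i periodMap f γ'_i`.
The same holds for the prelude's `periodHomPair`, which also involves the involution
`γ ↦ jγj⁻¹`, `j = diag(1, -1)`.

No Hecke operator on cohomology is defined: the statements are relational.
-/

set_option autoImplicit false

namespace Fermat.Agent.S16x.Low.H5

open UpperHalfPlane Complex Polynomial CongruenceSubgroup
open ModularCurve ModularCurve.Period
open Fermat.Agent.S22 Fermat.Agent.S21.E1

open scoped MatrixGroups ModularForm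

/-- A coset datum for the family of upper triangular matrices `α_i = [aa i, bb i; 0, dd i]`
and `g`: a permutation `σ` and elements `g' i ∈ Γ₀(N)` with `α_i g = g'_i α_{σ i}`. -/
def CosetData {ι : Type*} (aa bb dd : ι → ℤ) (N : ℕ) (g : SL(2, ℤ)) (σ : Equiv.Perm ι)
    (g' : ι → SL(2, ℤ)) : Prop :=
  (∀ x, g' x ∈ Gamma0 N) ∧ ∀ x,
    aa x * g 0 0 + bb x * g 1 0 = g' x 0 0 * aa (σ x) ∧
    aa x * g 0 1 + bb x * g 1 1 = g' x 0 0 * bb (σ x) + g' x 0 1 * dd (σ x) ∧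
    dd x * g 1 0 = g' x 1 0 * aa (σ x) ∧
    dd x * g 1 1 = g' x 1 0 * bb (σ x) + g' x 1 1 * dd (σ x)

/-- Coset data exist for `T_q`, `q ∤ N`. -/
theorem exists_cosetData_T {N q : ℕ} [Fact q.Prime] (hqN : ¬ q ∣ N) (γ : Gamma0 N) :
    ∃ (σ : Equiv.Perm (OnePoint (ZMod q))) (γ' : OnePoint (ZMod q) → SL(2, ℤ)),
      CosetData (tA q) (tB q) (tD q) N (γ : SL(2, ℤ)) σ γ' := by
  obtain ⟨σ, g', h1, h2⟩ := coset_T hqN γ.2
  exact ⟨σ, g', h1, h2⟩

/-- Coset data exist for `U_q`, `q ∣ N`. -/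
theorem exists_cosetData_U {N q : ℕ} [NeZero q] (hqN : q ∣ N) (γ : Gamma0 N) :
    ∃ (σ : Equiv.Perm (ZMod q)) (γ' : ZMod q → SL(2, ℤ)),
      CosetData (uA q) (uB q) (uD q) N (γ : SL(2, ℤ)) σ γ' := by
  obtain ⟨σ, g', h1, h2⟩ := coset_U hqN γ.2
  exact ⟨σ, g', h1, h2⟩

section untwisted

variable {N : ℕ} [NeZero N]

lemma actS_zero_one (g : SL(2, ℤ)) : actS 0 g (1 : ℂ[X]) = 1 := by
  simp [actS, polyAct]

lemma adjAct_zero_one (a b d : ℤ) : adjAct 0 a b d (1 : ℂ[X]) = 1 := by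
  simp [adjAct, polyAct]

/-- The prelude's period map in terms of the period cocycle of the S22 library. -/
theorem per_eq_periodMap (f : CuspForm (Gamma0 N) 2) (γ : Gamma0 N) :
    per (f : ℍ → ℂ) 0 (γ : SL(2, ℤ)) 1 = periodMap N f (Additive.ofMul γ) := by
  rw [periodMap_apply, prim_apply, prim_apply, per, actS_zero_one, coe_smul_eq_mobS]
  simp [eich, kerPoly]

/-- Abstract form of the equivariance: if the normalised primitives of `f'` are the Hecke sums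
of those of `f`, then the periods of `f'` are sums of periods of `f`. -/
theorem periodMap_hecke_abstract {ι : Type*} [Fintype ι] (aa bb dd : ι → ℤ)
    (haa : ∀ x, 0 < aa x) (hdd : ∀ x, 0 < dd x) (f f' : CuspForm (Gamma0 N) 2)
    (hT : ∀ P : ℂ[X], P.natDegree ≤ 0 → ∀ z ∈ UHP,
      nprim (pf P (f' : ℍ → ℂ)) z =
        ∑ x, nprim (pf (adjAct 0 (aa x) (bb x) (dd x) P) (f : ℍ → ℂ))
          (affS (aa x) (bb x) (dd x) z))
    (γ : Gamma0 N) (σ : Equiv.Perm ι) (γ' : ι → SL(2, ℤ))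
    (h : CosetData aa bb dd N (γ : SL(2, ℤ)) σ γ') :
    periodMap N f' (Additive.ofMul γ)
      = ∑ x, periodMap N f (Additive.ofMul (⟨γ' x, h.1 x⟩ : Gamma0 N)) := by
  have hinv : ∀ x, ∀ τ : ℍ, (f : ℍ → ℂ) (γ' x • τ) = denS (γ' x) τ ^ (0 + 2) * f τ := by
    intro x τ
    have := cuspForm_smul_eq f (h.1 x) τ
    rw [this]
    norm_cast
  have key := per_hecke_abstract aa bb dd haa hdd (m := 0) (goodH_cuspForm f) hT
    (γ : SL(2, ℤ)) σ γ' hinv h.2 (P := 1) (by simp)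
  rw [← per_eq_periodMap, key]
  refine Finset.sum_congr rfl fun x _ => ?_
  rw [adjAct_zero_one]
  exact per_eq_periodMap f ⟨γ' x, h.1 x⟩

/-- **(L4), identity part, `T_q`.** -/
theorem periodMap_heckeT {q : ℕ} [Fact q.Prime] (hqN : ¬ q ∣ N) (f : CuspForm (Gamma0 N) 2)
    (γ : Gamma0 N) (σ : Equiv.Perm (OnePoint (ZMod q))) (γ' : OnePoint (ZMod q) → SL(2, ℤ))
    (h : CosetData (tA q) (tB q) (tD q) N (γ : SL(2, ℤ)) σ γ') :
    periodMap N (CuspForm.heckeTLin 2 (Fact.out : q.Prime) hqN f) (Additive.ofMul γ)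
      = ∑ x, periodMap N f (Additive.ofMul (⟨γ' x, h.1 x⟩ : Gamma0 N)) := by
  have hq : 0 < q := (Fact.out : q.Prime).pos
  have : NeZero q := ⟨hq.ne'⟩
  refine periodMap_hecke_abstract (tA q) (tB q) (tD q) (tA_pos hq) (tD_pos hq) f _ ?_ γ σ γ' h
  intro P hP z hz
  have H := isNP_heckeT (goodH_cuspForm f) (p := q) (m := 0) hP
  have hg := (goodH_cuspForm (CuspForm.heckeTLin 2 (Fact.out : q.Prime) hqN f)).good_pf P
  rw [CuspForm.coe_heckeTLin_apply] at hg ⊢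
  exact (H.eq_nprim hg hz).symm

/-- **(L4), identity part, `U_q`.** -/
theorem periodMap_heckeU {q : ℕ} [NeZero q] (hqN : q ∣ N) (f : CuspForm (Gamma0 N) 2)
    (γ : Gamma0 N) (σ : Equiv.Perm (ZMod q)) (γ' : ZMod q → SL(2, ℤ))
    (h : CosetData (uA q) (uB q) (uD q) N (γ : SL(2, ℤ)) σ γ') :
    periodMap N (CuspForm.heckeULin 2 hqN f) (Additive.ofMul γ)
      = ∑ x, periodMap N f (Additive.ofMul (⟨γ' x, h.1 x⟩ : Gamma0 N)) := by
  have hq : 0 < q := Nat.pos_of_ne_zero (NeZero.ne q)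
  refine periodMap_hecke_abstract (uA q) (uB q) (uD q) (uA_pos q) (uD_pos hq) f _ ?_ γ σ γ' h
  intro P hP z hz
  have H := isNP_heckeU (goodH_cuspForm f) (p := q) (m := 0) hP
  have hg := (goodH_cuspForm (CuspForm.heckeULin 2 hqN f)).good_pf P
  rw [CuspForm.coe_heckeULin_apply] at hg ⊢
  exact (H.eq_nprim hg hz).symm

end untwisted

/-! ### The twist by `j = diag(1, -1)` -/

section twist

lemma T_zpow_apply (n : ℤ) :
    ((ModularGroup.T ^ n : SL(2, ℤ)) : Matrix (Fin 2) (Fin 2) ℤ) = !![1, n; 0, 1] :=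
  ModularGroup.coe_T_zpow n

lemma T_zpow_mem_Gamma0 (N : ℕ) (n : ℤ) : (ModularGroup.T ^ n : SL(2, ℤ)) ∈ Gamma0 N := by
  rw [Gamma0_mem, T_zpow_apply]
  simp

/-- The twisted element `T^a · jγj⁻¹ · T^(-b)`. -/
noncomputable def twistEl (a b : ℤ) (g : SL(2, ℤ)) : SL(2, ℤ) :=
  ModularGroup.T ^ a * jConjSL g * ModularGroup.T ^ (-b)

lemma twistEl_mem_Gamma0 {N : ℕ} (a b : ℤ) {g : SL(2, ℤ)} (hg : g ∈ Gamma0 N) :
    twistEl a b g ∈ Gamma0 N :=
  Subgroup.mul_mem _ (Subgroup.mul_mem _ (T_zpow_mem_Gamma0 N a) (jConjSL_mem_Gamma0 hg))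
    (T_zpow_mem_Gamma0 N (-b))

lemma twistEl_entries (a b : ℤ) (g : SL(2, ℤ)) :
    twistEl a b g 0 0 = g 0 0 - a * g 1 0 ∧
    twistEl a b g 0 1 = -b * (g 0 0 - a * g 1 0) - g 0 1 + a * g 1 1 ∧
    twistEl a b g 1 0 = -g 1 0 ∧
    twistEl a b g 1 1 = b * g 1 0 + g 1 1 := by
  have h : ((twistEl a b g : SL(2, ℤ)) : Matrix (Fin 2) (Fin 2) ℤ)
      = !![1, a; 0, 1] * jConjMat (g : Matrix (Fin 2) (Fin 2) ℤ) * !![1, -b; 0, 1] := by
    unfold twistEl
    rw [Matrix.SpecialLinearGroup.coe_mul, Matrix.SpecialLinearGroup.coe_mul, T_zpow_apply,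
      T_zpow_apply, jConjSL_coe]
  refine ⟨?_, ?_, ?_, ?_⟩
  · have := congrFun (congrFun h 0) 0
    simp only [Matrix.mul_apply, Fin.sum_univ_two, jConjMat] at this
    simp at this
    rw [this]; ring
  · have := congrFun (congrFun h 0) 1
    simp only [Matrix.mul_apply, Fin.sum_univ_two, jConjMat] at this
    simp at this
    rw [this]; ring
  · have := congrFun (congrFun h 1) 0
    simp only [Matrix.mul_apply, Fin.sum_univ_two, jConjMat] at this
    simp at this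
    rw [this]
  · have := congrFun (congrFun h 1) 1
    simp only [Matrix.mul_apply, Fin.sum_univ_two, jConjMat] at this
    simp at this
    rw [this]; ring

lemma jConjSL_entries (g : SL(2, ℤ)) :
    jConjSL g 0 0 = g 0 0 ∧ jConjSL g 0 1 = -g 0 1 ∧ jConjSL g 1 0 = -g 1 0 ∧
      jConjSL g 1 1 = g 1 1 := by
  refine ⟨?_, ?_, ?_, ?_⟩
  · show ((jConjSL g : SL(2, ℤ)) : Matrix (Fin 2) (Fin 2) ℤ) 0 0 = _
    rw [jConjSL_coe, jConjMat_apply_zero_zero]
  · show ((jConjSL g : SL(2, ℤ)) : Matrix (Fin 2) (Fin 2) ℤ) 0 1 = _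
    rw [jConjSL_coe, jConjMat_apply_zero_one]
  · show ((jConjSL g : SL(2, ℤ)) : Matrix (Fin 2) (Fin 2) ℤ) 1 0 = _
    rw [jConjSL_coe, jConjMat_apply_one_zero]
  · show ((jConjSL g : SL(2, ℤ)) : Matrix (Fin 2) (Fin 2) ℤ) 1 1 = _
    rw [jConjSL_coe, jConjMat_apply_one_one]

/-- **The `j`-twist of a coset datum.**  If `neg` is a permutation of the index set with
`j α_x j⁻¹ = T^(-e x) α_{neg x}`, then a coset datum for `g` yields one for `j g j⁻¹`. -/
theorem cosetData_jConj {ι : Type*} (aa bb dd : ι → ℤ) (N : ℕ) (neg : Equiv.Perm ι)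
    (e : ι → ℤ) (ha : ∀ x, aa (neg x) = aa x) (hd : ∀ x, dd (neg x) = dd x)
    (hb : ∀ x, bb (neg x) = -bb x + e x * dd x)
    {g : SL(2, ℤ)} {σ : Equiv.Perm ι} {g' : ι → SL(2, ℤ)} (h : CosetData aa bb dd N g σ g') :
    CosetData aa bb dd N (jConjSL g) (neg.symm.trans (σ.trans neg))
      (fun y => twistEl (e (neg.symm y)) (e (σ (neg.symm y))) (g' (neg.symm y))) := by
  refine ⟨fun y => twistEl_mem_Gamma0 _ _ (h.1 _), fun y => ?_⟩
  obtain ⟨x, rfl⟩ := neg.surjective y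
  simp only [Equiv.symm_apply_apply, Equiv.trans_apply]
  obtain ⟨h00, h01, h10, h11⟩ := h.2 x
  obtain ⟨t00, t01, t10, t11⟩ := twistEl_entries (e x) (e (σ x)) (g' x)
  obtain ⟨j00, j01, j10, j11⟩ := jConjSL_entries g
  rw [t00, t01, t10, t11, j00, j01, j10, j11, ha, hd, hb, ha, hd, hb]
  refine ⟨?_, ?_, ?_, ?_⟩
  · linear_combination h00 - e x * h10
  · linear_combination -h01 + e x * h11
  · linear_combination -h10
  · linear_combination h11

end twist

section twisted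

variable {N : ℕ} [NeZero N]

lemma periodMap_T_zpow (f : CuspForm (Gamma0 N) 2) (n : ℤ) :
    periodMap N f
      (Additive.ofMul (⟨ModularGroup.T ^ n, T_zpow_mem_Gamma0 N n⟩ : Gamma0 N)) = 0 := by
  have h := periodMap_mem_parabolicHoms f
  rw [mem_parabolicHoms_iff] at h
  refine h _ ?_
  show ((ModularGroup.T ^ n : SL(2, ℤ)) : Matrix (Fin 2) (Fin 2) ℤ).trace ^ 2 = 4
  rw [T_zpow_apply, Matrix.trace_fin_two_of]
  norm_num

lemma periodMap_twistEl (f : CuspForm (Gamma0 N) 2) (a b : ℤ) (g : SL(2, ℤ))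
    (hg : g ∈ Gamma0 N) :
    periodMap N f (Additive.ofMul (⟨twistEl a b g, twistEl_mem_Gamma0 a b hg⟩ : Gamma0 N))
      = periodMap N f (Additive.ofMul (jConjGamma0 N ⟨g, hg⟩)) := by
  have e : (⟨twistEl a b g, twistEl_mem_Gamma0 a b hg⟩ : Gamma0 N)
      = (⟨ModularGroup.T ^ a, T_zpow_mem_Gamma0 N a⟩ : Gamma0 N) * jConjGamma0 N ⟨g, hg⟩
        * (⟨ModularGroup.T ^ (-b), T_zpow_mem_Gamma0 N (-b)⟩ : Gamma0 N) :=
    Subtype.ext rfl
  rw [e, ofMul_mul, ofMul_mul, map_add, map_add, periodMap_T_zpow, periodMap_T_zpow, zero_add,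
    add_zero]

/-- Abstract form of the equivariance, twisted by `j`. -/
theorem periodMap_hecke_jConj {ι : Type*} [Fintype ι] (aa bb dd : ι → ℤ)
    (haa : ∀ x, 0 < aa x) (hdd : ∀ x, 0 < dd x) (neg : Equiv.Perm ι)
    (e : ι → ℤ) (ha : ∀ x, aa (neg x) = aa x) (hd : ∀ x, dd (neg x) = dd x)
    (hb : ∀ x, bb (neg x) = -bb x + e x * dd x)
    (f f' : CuspForm (Gamma0 N) 2)
    (hT : ∀ P : ℂ[X], P.natDegree ≤ 0 → ∀ z ∈ UHP,
      nprim (pf P (f' : ℍ → ℂ)) z =
        ∑ x, nprim (pf (adjAct 0 (aa x) (bb x) (dd x) P) (f : ℍ → ℂ))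
          (affS (aa x) (bb x) (dd x) z))
    (γ : Gamma0 N) (σ : Equiv.Perm ι) (γ' : ι → SL(2, ℤ))
    (h : CosetData aa bb dd N (γ : SL(2, ℤ)) σ γ') :
    periodMap N f' (Additive.ofMul (jConjGamma0 N γ))
      = ∑ x, periodMap N f (Additive.ofMul (jConjGamma0 N (⟨γ' x, h.1 x⟩ : Gamma0 N))) := by
  have h' := cosetData_jConj aa bb dd N neg e ha hd hb h
  have key := periodMap_hecke_abstract aa bb dd haa hdd f f' hT (jConjGamma0 N γ) _ _ h'
  rw [key]
  rw [← Equiv.sum_comp neg.symm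
    (fun x => periodMap N f (Additive.ofMul (jConjGamma0 N (⟨γ' x, h.1 x⟩ : Gamma0 N))))]
  refine Finset.sum_congr rfl fun y _ => ?_
  exact periodMap_twistEl f _ _ (γ' (neg.symm y)) (h.1 _)

/-! #### The twist data of the standard representatives -/

/-- The shift exponent: `0` at `0`, `1` elsewhere. -/
noncomputable def shiftExp (q : ℕ) (j : ZMod q) : ℤ := if j = 0 then 0 else 1

lemma val_neg_eq (q : ℕ) [NeZero q] (j : ZMod q) :
    (((-j).val : ℕ) : ℤ) = -((j.val : ℕ) : ℤ) + shiftExp q j * (q : ℤ) := by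
  unfold shiftExp
  rw [ZMod.neg_val]
  split_ifs with hj
  · simp [hj]
  · have hlt : j.val ≤ q := (ZMod.val_lt j).le
    rw [Nat.cast_sub hlt]
    ring

/-- The permutation `∞ ↦ ∞`, `j ↦ -j` of the index set of `T_q`. -/
noncomputable def negT (q : ℕ) : Equiv.Perm (OnePoint (ZMod q)) :=
  Equiv.optionCongr (Equiv.neg (ZMod q))

/-- The shift exponents of the index set of `T_q`. -/
noncomputable def shiftT (q : ℕ) (x : OnePoint (ZMod q)) : ℤ :=
  Option.elim x 0 (fun j => shiftExp q j)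

lemma tA_negT (q : ℕ) (x : OnePoint (ZMod q)) : tA q (negT q x) = tA q x := by
  cases x <;> rfl

lemma tD_negT (q : ℕ) (x : OnePoint (ZMod q)) : tD q (negT q x) = tD q x := by
  cases x <;> rfl

lemma tB_negT (q : ℕ) [NeZero q] (x : OnePoint (ZMod q)) :
    tB q (negT q x) = -tB q x + shiftT q x * tD q x := by
  cases x with
  | infty =>
    show (0 : ℤ) = -0 + 0 * 1
    norm_num
  | coe j => exact val_neg_eq q j

lemma uB_neg (q : ℕ) [NeZero q] (x : ZMod q) :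
    uB q (Equiv.neg (ZMod q) x) = -uB q x + shiftExp q x * uD q x :=
  val_neg_eq q x

/-- **(L4), `j`-twisted part, `T_q`.** -/
theorem periodMap_heckeT_jConj {q : ℕ} [Fact q.Prime] (hqN : ¬ q ∣ N)
    (f : CuspForm (Gamma0 N) 2)
    (γ : Gamma0 N) (σ : Equiv.Perm (OnePoint (ZMod q))) (γ' : OnePoint (ZMod q) → SL(2, ℤ))
    (h : CosetData (tA q) (tB q) (tD q) N (γ : SL(2, ℤ)) σ γ') :
    periodMap N (CuspForm.heckeTLin 2 (Fact.out : q.Prime) hqN f)
        (Additive.ofMul (jConjGamma0 N γ))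
      = ∑ x, periodMap N f (Additive.ofMul (jConjGamma0 N (⟨γ' x, h.1 x⟩ : Gamma0 N))) := by
  have hq : 0 < q := (Fact.out : q.Prime).pos
  have : NeZero q := ⟨hq.ne'⟩
  refine periodMap_hecke_jConj (tA q) (tB q) (tD q) (tA_pos hq) (tD_pos hq) (negT q) (shiftT q)
    (tA_negT q) (tD_negT q) (tB_negT q) f _ ?_ γ σ γ' h
  intro P hP z hz
  have H := isNP_heckeT (goodH_cuspForm f) (p := q) (m := 0) hP
  have hg := (goodH_cuspForm (CuspForm.heckeTLin 2 (Fact.out : q.Prime) hqN f)).good_pf P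
  rw [CuspForm.coe_heckeTLin_apply] at hg ⊢
  exact (H.eq_nprim hg hz).symm

/-- **(L4), `j`-twisted part, `U_q`.** -/
theorem periodMap_heckeU_jConj {q : ℕ} [NeZero q] (hqN : q ∣ N) (f : CuspForm (Gamma0 N) 2)
    (γ : Gamma0 N) (σ : Equiv.Perm (ZMod q)) (γ' : ZMod q → SL(2, ℤ))
    (h : CosetData (uA q) (uB q) (uD q) N (γ : SL(2, ℤ)) σ γ') :
    periodMap N (CuspForm.heckeULin 2 hqN f) (Additive.ofMul (jConjGamma0 N γ))
      = ∑ x, periodMap N f (Additive.ofMul (jConjGamma0 N (⟨γ' x, h.1 x⟩ : Gamma0 N))) := by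
  have hq : 0 < q := Nat.pos_of_ne_zero (NeZero.ne q)
  refine periodMap_hecke_jConj (uA q) (uB q) (uD q) (uA_pos q) (uD_pos hq) (Equiv.neg (ZMod q))
    (shiftExp q) (fun _ => rfl) (fun _ => rfl) (uB_neg q) f _ ?_ γ σ γ' h
  intro P hP z hz
  have H := isNP_heckeU (goodH_cuspForm f) (p := q) (m := 0) hP
  have hg := (goodH_cuspForm (CuspForm.heckeULin 2 hqN f)).good_pf P
  rw [CuspForm.coe_heckeULin_apply] at hg ⊢
  exact (H.eq_nprim hg hz).symm

/-- **(L4) for `T_q`, `q ∤ N`**: Hecke equivariance of the prelude's `periodHomPair`, in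
relational form. -/
theorem periodHomPair_heckeT {q : ℕ} [Fact q.Prime] (hqN : ¬ q ∣ N)
    (f g : CuspForm (Gamma0 N) 2)
    (γ : Gamma0 N) (σ : Equiv.Perm (OnePoint (ZMod q))) (γ' : OnePoint (ZMod q) → SL(2, ℤ))
    (h : CosetData (tA q) (tB q) (tD q) N (γ : SL(2, ℤ)) σ γ') :
    periodHomPair N (CuspForm.heckeTLin 2 (Fact.out : q.Prime) hqN f,
        CuspForm.heckeTLin 2 (Fact.out : q.Prime) hqN g) (Additive.ofMul γ)
      = ∑ x, periodHomPair N (f, g) (Additive.ofMul (⟨γ' x, h.1 x⟩ : Gamma0 N)) := by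
  simp only [periodHomPair_apply]
  rw [periodMap_heckeT hqN f γ σ γ' h, periodMap_heckeT hqN g γ σ γ' h,
    periodMap_heckeT_jConj hqN f γ σ γ' h, periodMap_heckeT_jConj hqN g γ σ γ' h]
  simp only [Finset.sum_add_distrib, Finset.sum_sub_distrib]

/-- **(L4) for `U_q`, `q ∣ N`**: Hecke equivariance of the prelude's `periodHomPair`, in
relational form. -/
theorem periodHomPair_heckeU {q : ℕ} [NeZero q] (hqN : q ∣ N)
    (f g : CuspForm (Gamma0 N) 2)
    (γ : Gamma0 N) (σ : Equiv.Perm (ZMod q)) (γ' : ZMod q → SL(2, ℤ))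
    (h : CosetData (uA q) (uB q) (uD q) N (γ : SL(2, ℤ)) σ γ') :
    periodHomPair N (CuspForm.heckeULin 2 hqN f, CuspForm.heckeULin 2 hqN g)
        (Additive.ofMul γ)
      = ∑ x, periodHomPair N (f, g) (Additive.ofMul (⟨γ' x, h.1 x⟩ : Gamma0 N)) := by
  simp only [periodHomPair_apply]
  rw [periodMap_heckeU hqN f γ σ γ' h, periodMap_heckeU hqN g γ σ γ' h,
    periodMap_heckeU_jConj hqN f γ σ γ' h, periodMap_heckeU_jConj hqN g γ σ γ' h]
  simp only [Finset.sum_add_distrib, Finset.sum_sub_distrib]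

end twisted

end Fermat.Agent.S16x.Low.H5
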