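import Fermat.Agent.S16x.Low.H26_End
import Fermat.Agent.S16x.Low.H5_PerHecke
import Fermat.Agent.S21

/-!
# S16 / package LOW (helper26): the assembly without the leaf (K)

The induction of `H26_End` with one more clause: for every `Q ∈ ℤ[X_ℓ]` and `γ ∈ Γ₀(p)` there
is `δ ∈ Γ₀(p)` with

* `periodMap (Q(T) f) γ = periodMap f δ`,
* `periodMap (Q(T) f) (jγj⁻¹) = periodMap f (jδj⁻¹)` (`j = diag(1, -1)`, helper5's
  `periodMap_heckeT_jConj` / `periodMap_heckeU_jConj`),
* `x δ = Q(eis) x γ`.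

If `Q(T) = 0` then `periodHomPair (f, g) δ = 0` for all `f`, `g`; by S21 every complex parabolic
homomorphism is of this form, in particular the lift of `x`.
-/

set_option autoImplicit false

open CongruenceSubgroup ModularCurve ModularCurve.Period

open scoped MatrixGroups

noncomputable section

namespace Fermat.Agent.S16x.Low.H26

/-- `jConjGamma0` and the product of a finite family. -/
theorem h26_jConj_list_prod (N : ℕ) {ι : Type*} (e : ι → ↥(Gamma0 N)) (L : List ι) :
    jConjGamma0 N (L.map e).prod = (L.map fun i => jConjGamma0 N (e i)).prod := by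
  rw [map_list_prod, List.map_map]
  rfl

variable (p : ℕ) [Fact p.Prime]

/-- The key induction, with the `j`-twisted clause. -/
theorem h26_keyJ (x : Additive ↥(Gamma0 p) →+ ZMod (eisensteinNumerator p))
    (hdm : IsDMult p x) (hET : StET p) (hEU : StEU p) (Q : HeckeAlg) :
    ∀ γ : ↥(Gamma0 p), ∃ δ : ↥(Gamma0 p),
      (∀ f : CuspForm (Gamma0 p) 2,
        periodMap p
            ((CuspForm.heckeEvalForms p 2 Q :
              Module.End ℂ (CuspForm (Gamma0 p) 2)) f) (Additive.ofMul γ) =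
          periodMap p f (Additive.ofMul δ)) ∧
      (∀ f : CuspForm (Gamma0 p) 2,
        periodMap p
            ((CuspForm.heckeEvalForms p 2 Q :
              Module.End ℂ (CuspForm (Gamma0 p) 2)) f) (Additive.ofMul (jConjGamma0 p γ)) =
          periodMap p f (Additive.ofMul (jConjGamma0 p δ))) ∧
      x (Additive.ofMul δ) =
        ((MvPolynomial.aeval (eisensteinSystem p) Q : ℤ) : ZMod (eisensteinNumerator p)) *
          x (Additive.ofMul γ) := by
  have hp : p.Prime := Fact.out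
  induction Q using MvPolynomial.induction_on with
  | C a =>
    intro γ
    have h1 : ∀ f : CuspForm (Gamma0 p) 2,
        ((algebraMap ℤ ↥(CuspForm.heckeAlgebra p 2 ∅) a :
          ↥(CuspForm.heckeAlgebra p 2 ∅)) : Module.End ℂ (CuspForm (Gamma0 p) 2)) f =
          (a : ℂ) • f := by
      intro f
      rw [Subalgebra.coe_algebraMap, Algebra.algebraMap_eq_smul_one, LinearMap.smul_apply,
        Module.End.one_apply, Int.cast_smul_eq_zsmul]
    refine ⟨γ ^ a, fun f => ?_, fun f => ?_, ?_⟩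
    · rw [CuspForm.heckeEvalForms_C, ofMul_zpow, map_zsmul, h1, h26_periodMap_smul,
        zsmul_eq_mul]
    · rw [CuspForm.heckeEvalForms_C, map_zpow, ofMul_zpow, map_zsmul, h1, h26_periodMap_smul,
        zsmul_eq_mul]
    · rw [ofMul_zpow, map_zsmul, MvPolynomial.aeval_C, zsmul_eq_mul]
      simp
  | add Q₁ Q₂ ih₁ ih₂ =>
    intro γ
    obtain ⟨δ₁, h1, h1j, h1'⟩ := ih₁ γ
    obtain ⟨δ₂, h2, h2j, h2'⟩ := ih₂ γ
    refine ⟨δ₁ * δ₂, fun f => ?_, fun f => ?_, ?_⟩
    · rw [map_add, Subalgebra.coe_add, LinearMap.add_apply, h26_periodMap_add, h1 f, h2 f,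
        ofMul_mul, map_add]
    · rw [map_add, Subalgebra.coe_add, LinearMap.add_apply, h26_periodMap_add, h1j f, h2j f,
        map_mul, ofMul_mul, map_add]
    · rw [ofMul_mul, map_add, h1', h2', map_add, Int.cast_add, add_mul]
  | mul_X Q ℓ ih =>
    intro γ
    obtain ⟨δ, h1, h1j, h1'⟩ := ih γ
    have hmul : ∀ f : CuspForm (Gamma0 p) 2,
        ((CuspForm.heckeEvalForms p 2 (Q * MvPolynomial.X ℓ) :
          ↥(CuspForm.heckeAlgebra p 2 ∅)) : Module.End ℂ (CuspForm (Gamma0 p) 2)) f =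
        ((CuspForm.heckeEvalForms p 2 Q : ↥(CuspForm.heckeAlgebra p 2 ∅)) :
          Module.End ℂ (CuspForm (Gamma0 p) 2))
          (((CuspForm.heckeFormsGen p 2 ℓ : ↥(CuspForm.heckeAlgebra p 2 ∅)) :
            Module.End ℂ (CuspForm (Gamma0 p) 2)) f) := by
      intro f
      have := CuspForm.heckeEvalForms_heckeGen p 2 ℓ
      rw [heckeGen] at this
      rw [map_mul, this, Subalgebra.coe_mul, Module.End.mul_apply]
    by_cases hℓ : (ℓ : ℕ) ∣ p
    · -- `ℓ = p`, the operator `U_p`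
      have hℓp : (ℓ : ℕ) = p := (Nat.prime_dvd_prime_iff_eq ℓ.2 hp).mp hℓ
      have : Fact (ℓ : ℕ).Prime := ⟨ℓ.2⟩
      obtain ⟨σ, g', hc⟩ := exists_cosetData_U (N := p) (q := (ℓ : ℕ)) hℓ δ
      have hsum : ∀ f : CuspForm (Gamma0 p) 2,
          periodMap p (CuspForm.heckeULin 2 hℓ f) (Additive.ofMul δ) =
            ∑ i, periodMap p f (Additive.ofMul (hc.elt i)) :=
        fun f => H5.periodMap_heckeU hℓ f δ σ g' hc
      have hsumj : ∀ f : CuspForm (Gamma0 p) 2,
          periodMap p (CuspForm.heckeULin 2 hℓ f) (Additive.ofMul (jConjGamma0 p δ)) =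
            ∑ i, periodMap p f (Additive.ofMul (jConjGamma0 p (hc.elt i))) :=
        fun f => H5.periodMap_heckeU_jConj hℓ f δ σ g' hc
      refine ⟨((Finset.univ : Finset (ZMod (ℓ : ℕ))).toList.map hc.elt).prod, fun f => ?_,
        fun f => ?_, ?_⟩
      · rw [hmul, h1, CuspForm.heckeFormsGen_of_dvd hℓ, CuspForm.heckeAlgebra.coe_U, hsum,
          h26_map_univ_prod]
      · rw [hmul, h1j, CuspForm.heckeFormsGen_of_dvd hℓ, CuspForm.heckeAlgebra.coe_U, hsumj,
          h26_jConj_list_prod, h26_map_univ_prod]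
      · rw [h26_map_univ_prod, map_mul, MvPolynomial.aeval_X, eisensteinSystem_of_dvd hℓ,
          mul_one, ← h1']
        obtain ⟨ℓ, hℓprime⟩ := ℓ
        simp only at hℓp hc ⊢
        subst hℓp
        rw [hEU _ x hdm δ σ g' hc, nsmul_eq_mul, h26_cast_p, one_mul]
    · -- `ℓ ≠ p`, the operator `T_ℓ`
      have hℓp : (ℓ : ℕ) ≠ p := fun h => hℓ (h ▸ dvd_rfl)
      have : Fact (ℓ : ℕ).Prime := ⟨ℓ.2⟩
      obtain ⟨σ, g', hc⟩ := exists_cosetData_T (N := p) (ℓ := (ℓ : ℕ)) hℓ δ
      have hsum : ∀ f : CuspForm (Gamma0 p) 2,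
          periodMap p (CuspForm.heckeTLin 2 (Fact.out : (ℓ : ℕ).Prime) hℓ f)
              (Additive.ofMul δ) =
            ∑ i, periodMap p f (Additive.ofMul (hc.elt i)) :=
        fun f => H5.periodMap_heckeT hℓ f δ σ g' hc
      have hsumj : ∀ f : CuspForm (Gamma0 p) 2,
          periodMap p (CuspForm.heckeTLin 2 (Fact.out : (ℓ : ℕ).Prime) hℓ f)
              (Additive.ofMul (jConjGamma0 p δ)) =
            ∑ i, periodMap p f (Additive.ofMul (jConjGamma0 p (hc.elt i))) :=
        fun f => H5.periodMap_heckeT_jConj hℓ f δ σ g' hc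
      refine ⟨((Finset.univ : Finset (OnePoint (ZMod (ℓ : ℕ)))).toList.map hc.elt).prod,
        fun f => ?_, fun f => ?_, ?_⟩
      · rw [hmul, h1, CuspForm.heckeFormsGen_of_not_dvd hℓ, CuspForm.heckeAlgebra.coe_T, hsum,
          h26_map_univ_prod]
      · rw [hmul, h1j, CuspForm.heckeFormsGen_of_not_dvd hℓ, CuspForm.heckeAlgebra.coe_T,
          hsumj, h26_jConj_list_prod, h26_map_univ_prod]
      · rw [h26_map_univ_prod, hET _ x hdm (ℓ : ℕ) hℓp δ σ g' hc, map_mul,
          MvPolynomial.aeval_X, eisensteinSystem_of_not_dvd hℓ, h1', nsmul_eq_mul]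
        push_cast
        ring

/-- **The lower bound from (X), (E), (L2)** (no leaf (K), no leaf (H)). -/
theorem stLOW_of_XEL (hX : StX p) (hET : StET p) (hEU : StEU p)
    (hL2 : StL2 p (eisensteinNumerator p)) : StLOW p := by
  intro P hP
  obtain ⟨x, hsurj, hpe, hdm⟩ := hX
  obtain ⟨y, hypar, hy⟩ := hL2 x hpe
  obtain ⟨γ₀, hγ₀⟩ := hsurj 1
  obtain ⟨δ, h1, h1j, h2⟩ := h26_keyJ p x hdm hET hEU P (Additive.toMul γ₀)
  -- all periods of `δ` and of `jδj⁻¹` vanish
  have hper : ∀ f : CuspForm (Gamma0 p) 2, periodMap p f (Additive.ofMul δ) = 0 := by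
    intro f
    rw [← h1 f, hP]
    exact h26_periodMap_zero p _
  have hperj : ∀ f : CuspForm (Gamma0 p) 2,
      periodMap p f (Additive.ofMul (jConjGamma0 p δ)) = 0 := by
    intro f
    rw [← h1j f, hP]
    exact h26_periodMap_zero p _
  -- the complex parabolic homomorphism attached to `y`
  have hψ : (Int.castAddHom ℂ).comp y ∈ parabolicHoms ℂ (Gamma0 p) ℂ := by
    intro γ hγ
    show ((y (Additive.ofMul γ) : ℤ) : ℂ) = 0
    rw [hypar γ hγ, Int.cast_zero]
  rw [← (Fermat.Agent.S21.result p).2] at hψ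
  obtain ⟨⟨f₀, g₀⟩, hfg⟩ := hψ
  have h3 : ((Int.castAddHom ℂ).comp y) (Additive.ofMul δ) = 0 := by
    rw [← hfg, Fermat.Agent.S21.E1.periodHomPair_apply, hper, hperj, hper, hperj]
    simp
  have h4 : y (Additive.ofMul δ) = 0 := by
    have : ((y (Additive.ofMul δ) : ℤ) : ℂ) = 0 := h3
    exact_mod_cast this
  have h5 : x (Additive.ofMul δ) = 0 := by
    rw [← hy, h4, Int.cast_zero]
  rw [h5] at h2
  have h6 : x (Additive.ofMul (Additive.toMul γ₀)) = 1 := hγ₀
  rw [h6, mul_one] at h2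
  exact h2.symm

end Fermat.Agent.S16x.Low.H26
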