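import Fermat.Agent.S16x.Low.H5_PerHecke
import Fermat.Agent.S16x.Low.Defs
import Fermat.Agent.S21

/-!
# S16, package LOW, the assembly without (K) (helper5)

`stLOW_of : StX p → StET p → StEU p → StL2 p n → StLOW p`.

The complex-valued lift `y` of the Shimura class `x` is `periodHomPair (f₀, g₀)` (S21).  For
`Q ∈ ℤ[X_ℓ]` the homomorphism `periodHomPair (Q(T) f₀, Q(T) g₀)` is integer valued and reduces
to `Q(eis) · x` modulo `n`: induction on `Q`, the step `Q ↦ Q X_ℓ` being the Hecke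
equivariance of `periodHomPair` (`H5_PerHecke`) together with the eigen-relation of `x`.
-/

set_option autoImplicit false

namespace Fermat.Agent.S16x.Low.H5

open UpperHalfPlane Complex CongruenceSubgroup
open ModularCurve ModularCurve.Period CuspForm
open Fermat.Agent.S22 Fermat.Agent.S21.E1

open scoped MatrixGroups ModularForm

/-- Our coset data are the coset data of `Low/Defs`. -/
lemma cosetData_iff {ι : Type} (aa bb dd : ι → ℤ) (N : ℕ) (g : SL(2, ℤ)) (σ : Equiv.Perm ι)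
    (g' : ι → SL(2, ℤ)) :
    CosetData aa bb dd N g σ g' ↔ Fermat.Agent.S16x.Low.CosetData aa bb dd N g σ g' :=
  Iff.rfl

lemma natCast_self_eisNum (p : ℕ) [Fact p.Prime] :
    ((p : ℕ) : ZMod (eisensteinNumerator p)) = 1 := by
  have hp : 1 ≤ p := (Fact.out : p.Prime).one_lt.le
  have hdvd : eisensteinNumerator p ∣ p - 1 := Nat.div_dvd_of_dvd (Nat.gcd_dvd_left _ _)
  have h0 : ((p - 1 : ℕ) : ZMod (eisensteinNumerator p)) = 0 :=
    (ZMod.natCast_eq_zero_iff _ _).mpr hdvd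
  calc ((p : ℕ) : ZMod (eisensteinNumerator p))
      = (((p - 1) + 1 : ℕ) : ZMod (eisensteinNumerator p)) := by rw [Nat.sub_add_cancel hp]
    _ = 1 := by
      push_cast
      rw [h0, zero_add]

section

variable (p : ℕ) [Fact p.Prime]

/-- The action of the polynomial `Q` in the Hecke operators on cusp forms. -/
noncomputable def evEnd : HeckeAlg →+* Module.End ℂ (CuspForm (Gamma0 p) 2) :=
  (heckeAlgebra p 2 ∅).val.toRingHom.comp (heckeEvalForms p 2)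

lemma evEnd_apply (Q : HeckeAlg) :
    evEnd p Q = ((heckeEvalForms p 2 Q : heckeAlgebra p 2 ∅) :
      Module.End ℂ (CuspForm (Gamma0 p) 2)) := rfl

lemma evEnd_C (a : ℤ) (f : CuspForm (Gamma0 p) 2) : evEnd p (MvPolynomial.C a) f = a • f := by
  rw [evEnd_apply, heckeEvalForms_C]
  simp

lemma evEnd_mul_X (Q : HeckeAlg) (ℓ : Nat.Primes) (f : CuspForm (Gamma0 p) 2) :
    evEnd p (Q * MvPolynomial.X ℓ) f = evEnd p (MvPolynomial.X ℓ) (evEnd p Q f) := by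
  rw [mul_comm, map_mul]
  rfl

lemma evEnd_X_of_not_dvd {ℓ : Nat.Primes} (h : ¬ (ℓ : ℕ) ∣ p) (f : CuspForm (Gamma0 p) 2) :
    evEnd p (MvPolynomial.X ℓ) f = heckeTLin 2 ℓ.2 h f := by
  rw [evEnd_apply]
  have := heckeEvalForms_heckeGen_of_not_dvd (N := p) (k := 2) h
  rw [heckeGen] at this
  rw [this]
  rfl

lemma evEnd_X_of_dvd {ℓ : Nat.Primes} (h : (ℓ : ℕ) ∣ p) (f : CuspForm (Gamma0 p) 2) :
    evEnd p (MvPolynomial.X ℓ) f = heckeULin 2 h f := by
  rw [evEnd_apply]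
  have := heckeEvalForms_heckeGen_of_dvd (N := p) (k := 2) h
  rw [heckeGen] at this
  rw [this]
  rfl

/-- The motive of the induction. -/
def Motive (x : Additive ↥(Gamma0 p) →+ ZMod (eisensteinNumerator p))
    (f g : CuspForm (Gamma0 p) 2) (Q : HeckeAlg) : Prop :=
  ∀ γ : ↥(Gamma0 p), ∃ k : ℤ,
    periodHomPair p (evEnd p Q f, evEnd p Q g) (Additive.ofMul γ) = (k : ℂ) ∧
      ((k : ℤ) : ZMod (eisensteinNumerator p))
        = ((MvPolynomial.aeval (eisensteinSystem p) Q : ℤ) : ZMod (eisensteinNumerator p))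
          * x (Additive.ofMul γ)

variable {p}

lemma motive_C {x : Additive ↥(Gamma0 p) →+ ZMod (eisensteinNumerator p)}
    {f g : CuspForm (Gamma0 p) 2} {y : Additive ↥(Gamma0 p) →+ ℤ}
    (hy : ∀ γ : Additive ↥(Gamma0 p), ((y γ : ℤ) : ZMod (eisensteinNumerator p)) = x γ)
    (hfg : ∀ γ : Additive ↥(Gamma0 p), periodHomPair p (f, g) γ = ((y γ : ℤ) : ℂ)) (a : ℤ) :
    Motive p x f g (MvPolynomial.C a) := by
  intro γ
  refine ⟨a * y (Additive.ofMul γ), ?_, ?_⟩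
  · rw [evEnd_C, evEnd_C]
    have e : ((a • f, a • g) : CuspForm (Gamma0 p) 2 × CuspForm (Gamma0 p) 2) = a • (f, g) := rfl
    rw [e, map_zsmul, AddMonoidHom.smul_apply, hfg]
    push_cast
    simp [zsmul_eq_mul]
  · rw [MvPolynomial.aeval_C]
    push_cast
    rw [hy]
    rfl

lemma motive_add {x : Additive ↥(Gamma0 p) →+ ZMod (eisensteinNumerator p)}
    {f g : CuspForm (Gamma0 p) 2} {Q₁ Q₂ : HeckeAlg} (h₁ : Motive p x f g Q₁)
    (h₂ : Motive p x f g Q₂) : Motive p x f g (Q₁ + Q₂) := by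
  intro γ
  obtain ⟨k₁, hk₁, hx₁⟩ := h₁ γ
  obtain ⟨k₂, hk₂, hx₂⟩ := h₂ γ
  refine ⟨k₁ + k₂, ?_, ?_⟩
  · have e : ((evEnd p (Q₁ + Q₂) f, evEnd p (Q₁ + Q₂) g) :
        CuspForm (Gamma0 p) 2 × CuspForm (Gamma0 p) 2)
        = (evEnd p Q₁ f, evEnd p Q₁ g) + (evEnd p Q₂ f, evEnd p Q₂ g) := by
      rw [map_add]
      rfl
    rw [e, map_add, AddMonoidHom.add_apply, hk₁, hk₂]
    push_cast
    rfl
  · rw [map_add]
    push_cast
    rw [hx₁, hx₂]
    ring

/-- The step for `T_ℓ`, `ℓ ≠ p`. -/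
lemma step_T {x : Additive ↥(Gamma0 p) →+ ZMod (eisensteinNumerator p)}
    (hxD : IsDMult p x) (hET : StET p) {f g : CuspForm (Gamma0 p) 2}
    (c : ZMod (eisensteinNumerator p))
    (hQ : ∀ γ : ↥(Gamma0 p), ∃ k : ℤ, periodHomPair p (f, g) (Additive.ofMul γ) = (k : ℂ) ∧
      ((k : ℤ) : ZMod (eisensteinNumerator p)) = c * x (Additive.ofMul γ))
    (ℓ : ℕ) [Fact ℓ.Prime] (hdvd : ¬ ℓ ∣ p) (γ : ↥(Gamma0 p)) :
    ∃ k : ℤ, periodHomPair p (heckeTLin 2 (Fact.out : ℓ.Prime) hdvd f,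
        heckeTLin 2 (Fact.out : ℓ.Prime) hdvd g) (Additive.ofMul γ) = (k : ℂ) ∧
      ((k : ℤ) : ZMod (eisensteinNumerator p)) = c * (1 + (ℓ : ZMod (eisensteinNumerator p)))
        * x (Additive.ofMul γ) := by
  have hℓp : ℓ ≠ p := fun h => hdvd (h ▸ dvd_rfl)
  obtain ⟨σ, γ', h⟩ := exists_cosetData_T hdvd γ
  rw [periodHomPair_heckeT hdvd _ _ γ σ γ' h]
  choose k hk hx using fun i => hQ ⟨γ' i, h.1 i⟩
  refine ⟨∑ i, k i, ?_, ?_⟩
  · push_cast
    exact Finset.sum_congr rfl fun i _ => hk i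
  · have hE : ∑ i, x (Additive.ofMul (⟨γ' i, h.1 i⟩ : Gamma0 p))
        = (ℓ + 1) • x (Additive.ofMul γ) :=
      hET (ZMod (eisensteinNumerator p)) x hxD ℓ hℓp γ σ γ' h
    push_cast
    simp only [hx]
    rw [← Finset.mul_sum, hE, nsmul_eq_mul]
    push_cast
    ring

/-- The step for `U_q`, `q = p`. -/
lemma step_U {x : Additive ↥(Gamma0 p) →+ ZMod (eisensteinNumerator p)}
    (hxD : IsDMult p x) (hEU : StEU p) {f g : CuspForm (Gamma0 p) 2}
    (c : ZMod (eisensteinNumerator p))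
    (hQ : ∀ γ : ↥(Gamma0 p), ∃ k : ℤ, periodHomPair p (f, g) (Additive.ofMul γ) = (k : ℂ) ∧
      ((k : ℤ) : ZMod (eisensteinNumerator p)) = c * x (Additive.ofMul γ))
    (q : ℕ) [NeZero q] (hq : q = p) (hdvd : q ∣ p) (γ : ↥(Gamma0 p)) :
    ∃ k : ℤ, periodHomPair p (heckeULin 2 hdvd f, heckeULin 2 hdvd g) (Additive.ofMul γ)
        = (k : ℂ) ∧
      ((k : ℤ) : ZMod (eisensteinNumerator p)) = c * x (Additive.ofMul γ) := by
  obtain ⟨σ, γ', h⟩ := exists_cosetData_U hdvd γ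
  rw [periodHomPair_heckeU hdvd _ _ γ σ γ' h]
  choose k hk hx using fun i => hQ ⟨γ' i, h.1 i⟩
  refine ⟨∑ i, k i, ?_, ?_⟩
  · push_cast
    exact Finset.sum_congr rfl fun i _ => hk i
  · have hE : ∑ i, x (Additive.ofMul (⟨γ' i, h.1 i⟩ : Gamma0 p)) = x (Additive.ofMul γ) := by
      subst hq
      have := hEU (ZMod (eisensteinNumerator q)) x hxD γ σ γ' h
      have e : (∑ i, x (Additive.ofMul (⟨γ' i, h.1 i⟩ : Gamma0 q)))
          = ∑ i, x (Additive.ofMul (Fermat.Agent.S16x.Low.CosetData.elt h i)) := rfl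
      rw [e, this, nsmul_eq_mul, natCast_self_eisNum, one_mul]
    push_cast
    simp only [hx]
    rw [← Finset.mul_sum, hE]

lemma motive_mul_X {x : Additive ↥(Gamma0 p) →+ ZMod (eisensteinNumerator p)}
    (hxD : IsDMult p x) (hET : StET p) (hEU : StEU p)
    {f g : CuspForm (Gamma0 p) 2} {Q : HeckeAlg} (hQ : Motive p x f g Q) (ℓ : Nat.Primes) :
    Motive p x f g (Q * MvPolynomial.X ℓ) := by
  intro γ
  have : Fact (ℓ : ℕ).Prime := ⟨ℓ.2⟩
  have : NeZero (ℓ : ℕ) := ⟨ℓ.2.ne_zero⟩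
  rw [evEnd_mul_X, evEnd_mul_X, map_mul, MvPolynomial.aeval_X]
  by_cases hdvd : (ℓ : ℕ) ∣ p
  · -- the operator `U_p`
    have hℓp : (ℓ : ℕ) = p :=
      ((Nat.prime_dvd_prime_iff_eq ℓ.2 (Fact.out : p.Prime)).mp hdvd)
    rw [evEnd_X_of_dvd p hdvd, evEnd_X_of_dvd p hdvd, eisensteinSystem_of_dvd hdvd, mul_one]
    exact step_U hxD hEU _ hQ ℓ hℓp hdvd γ
  · -- the operator `T_ℓ`
    rw [evEnd_X_of_not_dvd p hdvd, evEnd_X_of_not_dvd p hdvd, eisensteinSystem_of_not_dvd hdvd]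
    obtain ⟨k, hk, hx⟩ := step_T hxD hET _ hQ ℓ hdvd γ
    refine ⟨k, hk, ?_⟩
    rw [hx]
    push_cast
    ring

/-- The motive holds for every polynomial. -/
theorem motive_all {x : Additive ↥(Gamma0 p) →+ ZMod (eisensteinNumerator p)}
    (hxD : IsDMult p x) (hET : StET p) (hEU : StEU p)
    {f g : CuspForm (Gamma0 p) 2} {y : Additive ↥(Gamma0 p) →+ ℤ}
    (hy : ∀ γ : Additive ↥(Gamma0 p), ((y γ : ℤ) : ZMod (eisensteinNumerator p)) = x γ)
    (hfg : ∀ γ : Additive ↥(Gamma0 p), periodHomPair p (f, g) γ = ((y γ : ℤ) : ℂ))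
    (Q : HeckeAlg) : Motive p x f g Q := by
  induction Q using MvPolynomial.induction_on with
  | C a => exact motive_C hy hfg a
  | add Q₁ Q₂ h₁ h₂ => exact motive_add h₁ h₂
  | mul_X Q ℓ hQ => exact motive_mul_X hxD hET hEU hQ ℓ

variable (p)

/-- **(LOW) without (K).** -/
theorem stLOW_of (hX : StX p) (hET : StET p) (hEU : StEU p)
    (hL2 : StL2 p (eisensteinNumerator p)) : StLOW p := by
  obtain ⟨x, hxs, hxPE, hxD⟩ := hX
  obtain ⟨y, hyPar, hyx⟩ := hL2 x hxPE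
  -- the complex valued lift is a period
  let yC : Additive ↥(Gamma0 p) →+ ℂ := (Int.castAddHom ℂ).comp y
  have hyC : yC ∈ parabolicHoms ℂ (Gamma0 p) ℂ := by
    rw [mem_parabolicHoms_iff]
    intro γ hγ
    show ((y (Additive.ofMul γ) : ℤ) : ℂ) = 0
    rw [hyPar γ hγ, Int.cast_zero]
  have hrange := (Fermat.Agent.S21.result p).2
  rw [← hrange] at hyC
  obtain ⟨⟨f, g⟩, hfg⟩ := hyC
  have hfg' : ∀ γ : Additive ↥(Gamma0 p), periodHomPair p (f, g) γ = ((y γ : ℤ) : ℂ) := by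
    intro γ
    rw [hfg]
    rfl
  intro P hP
  obtain ⟨γ₁, hγ₁⟩ := hxs 1
  obtain ⟨k, hk, hx⟩ := motive_all hxD hET hEU hyx hfg' P (Additive.toMul γ₁)
  have hev : evEnd p P = 0 := by
    rw [evEnd_apply, hP]
    rfl
  rw [hev] at hk
  have hk0 : k = 0 := by
    have : ((k : ℤ) : ℂ) = 0 := by
      rw [← hk]
      have e : ((0 : Module.End ℂ (CuspForm (Gamma0 p) 2)) f,
          (0 : Module.End ℂ (CuspForm (Gamma0 p) 2)) g)
          = (0 : CuspForm (Gamma0 p) 2 × CuspForm (Gamma0 p) 2) := rfl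
      rw [e, map_zero]
      rfl
    exact_mod_cast this
  rw [hk0] at hx
  have e1 : x (Additive.ofMul (Additive.toMul γ₁)) = 1 := hγ₁
  rw [e1, mul_one, Int.cast_zero] at hx
  exact hx.symm

end

end Fermat.Agent.S16x.Low.H5
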