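import Fermat.Agent.S16x.Low.H5_End
import Fermat.Agent.S16x.Low.H2_StX
import Fermat.Agent.S16x.Low.H20_StE
import Fermat.Agent.S16x.Low.H23_StL2
import Fermat.Agent.S16x.Low.H12_Adapt

/-!
# S16, package LOW: the lower bound, hypothesis free (helper5)

`stLOW p : Low.StLOW p` and `asm_stLOW p : Asm.StLOW p` from the landed leaves
(X) `H2.stX`, (E) `H20.stET` / `H20.stEU`, (L2) `H23.h23_stL2`, the Hecke equivariance of
`periodHomPair` (`H5_PerHecke`) and the adapter `H12.h12_asm_of_low`.  The leaf (K) is not used.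
-/

set_option autoImplicit false

namespace Fermat.Agent.S16x.Low.H5

open ModularCurve

/-- **(LOW)** on the Hecke algebra of the cusp forms, hypothesis free. -/
theorem stLOW (p : ℕ) [Fact p.Prime] : Fermat.Agent.S16x.Low.StLOW p :=
  stLOW_of p (Fermat.Agent.S16x.Low.H2.stX p) (Fermat.Agent.S16x.Low.H20.stET p)
    (Fermat.Agent.S16x.Low.H20.stEU p)
    (Fermat.Agent.S16x.Low.H23.h23_stL2 p (eisensteinNumerator p))

/-- **(LOW)** in the shape of `Asm/Defs`, hypothesis free. -/
theorem asm_stLOW (p : ℕ) [Fact p.Prime] : Fermat.Agent.S16x.Asm.StLOW p :=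
  Fermat.Agent.S16x.Low.H12.h12_asm_of_low p (stLOW p)

end Fermat.Agent.S16x.Low.H5
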