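import Mathlib
import Fermat.Agent.S21.H10_ParBound

/-!
# S16, package LOW, leaf L2b (generic part): the orbit-count bound over an arbitrary field

Let `G` be a group generated by `S` and `T`, let `Γ ≤ G` be a subgroup of finite index and
`X = G ⧸ Γ`.  For an ARBITRARY field `k` we bound the dimension of a space `P` of homomorphisms
`φ : Γ → k` which kill all elements of `Γ` of the form `g⁻¹ * S ^ n * g`, `g⁻¹ * T ^ n * g`
and `g⁻¹ * (S * T) ^ n * g`:

`finrank P + #(X / ⟨S⟩) + #(X / ⟨S * T⟩) + #(X / ⟨T⟩) ≤ #X + 2`.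

This is the characteristic-free version of `Fermat.Agent.S21.E2.generic_bound`: the kernels of
the norm operators used there are replaced by the spaces of coboundaries `g^* f - f`, whose
dimension is `#X - #orbits` in every characteristic.  The cocycle of `φ` at `g` lies in the
space of coboundaries of `g` because all its orbit sums vanish.
-/

set_option autoImplicit false
set_option linter.unusedSectionVars false

open Module

namespace Fermat.Agent.S16x.Low.H9

open Fermat.Agent.S21.E2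

section Cob

variable {G : Type*} [Group G] (Γ : Subgroup G) (k : Type*) [Field k]

/-- The space of coboundaries `g^* f - f` of a single element `g`. -/
noncomputable def cobSp (g : G) : Submodule k ((G ⧸ Γ) → k) :=
  LinearMap.range (pull Γ k g - LinearMap.id)

variable {Γ k}

theorem pull_sub_mem_cobSp (g : G) (f : (G ⧸ Γ) → k) : pull Γ k g f - f ∈ cobSp Γ k g :=
  ⟨f, rfl⟩

/-- Partial sums of `a` along the `g`-orbit of `x`. -/
noncomputable def psum (g : G) (a : (G ⧸ Γ) → k) (x : G ⧸ Γ) (m : ℕ) : k :=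
  ∑ j ∈ Finset.range m, a (g ^ j • x)

theorem psum_zero (g : G) (a : (G ⧸ Γ) → k) (x : G ⧸ Γ) : psum g a x 0 = 0 := by
  simp [psum]

theorem psum_add (g : G) (a : (G ⧸ Γ) → k) (x : G ⧸ Γ) (m s : ℕ) :
    psum g a x (m + s) = psum g a x m + psum g a (g ^ m • x) s := by
  unfold psum
  rw [Finset.sum_range_add]
  congr 1
  refine Finset.sum_congr rfl fun j _ => ?_
  rw [← mul_smul, ← pow_add, add_comm]

theorem psum_succ (g : G) (a : (G ⧸ Γ) → k) (x : G ⧸ Γ) (m : ℕ) :
    psum g a x (m + 1) = psum g a x m + a (g ^ m • x) := by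
  unfold psum
  rw [Finset.sum_range_succ]

/-- If all orbit sums of `a` vanish, the partial sums only depend on the end point. -/
theorem psum_eq_of_smul_eq {g : G} {a : (G ⧸ Γ) → k}
    (ha : ∀ (x : G ⧸ Γ) (s : ℕ), g ^ s • x = x → psum g a x s = 0)
    {x : G ⧸ Γ} {m m' : ℕ} (h : g ^ m • x = g ^ m' • x) :
    psum g a x m = psum g a x m' := by
  wlog hle : m ≤ m' generalizing m m'
  · exact (this h.symm (le_of_not_ge hle)).symm
  obtain ⟨s, rfl⟩ := Nat.exists_eq_add_of_le hle
  rw [psum_add, ha (g ^ m • x) s, add_zero]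
  rw [← mul_smul, ← pow_add, add_comm s m]
  exact h.symm

theorem exists_nat_pow_smul_eq [Finite (G ⧸ Γ)] (g : G) {x y : G ⧸ Γ}
    (h : y ∈ MulAction.orbit (Subgroup.zpowers g) x) : ∃ i : ℕ, g ^ i • x = y := by
  obtain ⟨w, hw0, hw⟩ := exists_pow_smul_eq (Γ := Γ) g
  obtain ⟨⟨_, n, rfl⟩, rfl⟩ := h
  have hwz : ∀ (t : ℤ) (u : G ⧸ Γ), (g ^ w) ^ t • u = u := by
    intro t u
    have h1 : ∀ (t : ℕ) (u : G ⧸ Γ), (g ^ w) ^ t • u = u := by
      intro t
      induction t with
      | zero => intro u; simp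
      | succ t ih => intro u; rw [pow_succ, mul_smul, hw, ih]
    rcases Int.eq_nat_or_neg t with ⟨t', rfl | rfl⟩
    · rw [zpow_natCast]; exact h1 t' u
    · rw [zpow_neg, zpow_natCast, inv_smul_eq_iff, h1 t' u]
  have hw' : (0 : ℤ) < (w : ℤ) := by exact_mod_cast hw0
  refine ⟨(n % (w : ℤ)).toNat, ?_⟩
  have hn : n = (n % (w : ℤ)).toNat + (w : ℤ) * (n / (w : ℤ)) := by
    rw [Int.toNat_of_nonneg (Int.emod_nonneg n hw'.ne')]
    exact (Int.emod_add_mul_ediv n w).symm
  show g ^ (n % (w : ℤ)).toNat • x = (g ^ n) • x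
  conv_rhs => rw [hn, zpow_add, zpow_mul, zpow_natCast, zpow_natCast, mul_smul, hwz]

/-- **Orbit-sum criterion**: a function all of whose orbit sums vanish is a coboundary. -/
theorem mem_cobSp_of_orbit_sums [Finite (G ⧸ Γ)] (g : G) (a : (G ⧸ Γ) → k)
    (ha : ∀ (x : G ⧸ Γ) (s : ℕ), g ^ s • x = x → psum g a x s = 0) :
    a ∈ cobSp Γ k g := by
  classical
  -- base points and exponents
  let q : (G ⧸ Γ) → MulAction.orbitRel.Quotient (Subgroup.zpowers g) (G ⧸ Γ) := Quotient.mk _
  let b : (G ⧸ Γ) → (G ⧸ Γ) := fun x => (q x).out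
  have hb : ∀ x, x ∈ MulAction.orbit (Subgroup.zpowers g) (b x) := by
    intro x
    have h1 : q (b x) = q x := Quotient.out_eq (q x)
    have h2 : MulAction.orbitRel (Subgroup.zpowers g) (G ⧸ Γ) (b x) x := Quotient.exact h1
    rw [MulAction.orbitRel_apply] at h2
    exact (MulAction.orbitRel (Subgroup.zpowers g) (G ⧸ Γ)).symm h2
  have hbg : ∀ x, b (g • x) = b x := by
    intro x
    have : q (g • x) = q x := by
      apply Quotient.sound
      show MulAction.orbitRel (Subgroup.zpowers g) (G ⧸ Γ) (g • x) x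
      rw [MulAction.orbitRel_apply]
      exact MulAction.mem_orbit x (⟨g, Subgroup.mem_zpowers g⟩ : Subgroup.zpowers g)
    show (q (g • x)).out = (q x).out
    rw [this]
  have hex : ∀ x, ∃ i : ℕ, g ^ i • b x = x := fun x => exists_nat_pow_smul_eq g (hb x)
  choose e he using hex
  refine ⟨fun x => psum g a (b x) (e x), ?_⟩
  funext x
  show psum g a (b (g • x)) (e (g • x)) - psum g a (b x) (e x) = a x
  rw [hbg]
  have h1 : g ^ (e (g • x)) • b x = g ^ (e x + 1) • b x := by
    have := he (g • x)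
    rw [hbg] at this
    rw [this, pow_succ', mul_smul, he x]
  rw [psum_eq_of_smul_eq ha h1, psum_succ, he x]
  ring

end Cob

section Dim

variable {G : Type*} [Group G] {Γ : Subgroup G} {k : Type*} [Field k] [Finite (G ⧸ Γ)]

/-- (D1) `dim (coboundaries of g) + #orbits ≤ #X`, in every characteristic. -/
theorem finrank_cobSp_add_le (g : G) :
    finrank k (cobSp Γ k g)
      + Nat.card (MulAction.orbitRel.Quotient (Subgroup.zpowers g) (G ⧸ Γ))
      ≤ Nat.card (G ⧸ Γ) := by
  classical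
  have : Fintype (G ⧸ Γ) := Fintype.ofFinite _
  have : Fintype (MulAction.orbitRel.Quotient (Subgroup.zpowers g) (G ⧸ Γ)) :=
    Fintype.ofFinite _
  have hrn := LinearMap.finrank_range_add_finrank_ker (pull Γ k g - LinearMap.id)
  rw [Module.finrank_fintype_fun_eq_card] at hrn
  rw [Nat.card_eq_fintype_card, Nat.card_eq_fintype_card, ← hrn]
  refine Nat.add_le_add_left ?_ _
  let q : (G ⧸ Γ) → MulAction.orbitRel.Quotient (Subgroup.zpowers g) (G ⧸ Γ) :=
    Quotient.mk _
  have hq : Function.Surjective q := Quotient.mk_surjective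
  let ι : (MulAction.orbitRel.Quotient (Subgroup.zpowers g) (G ⧸ Γ) → k) →ₗ[k]
      ((G ⧸ Γ) → k) := LinearMap.funLeft k k q
  have hι : Function.Injective ι := LinearMap.funLeft_injective_of_surjective k k q hq
  have hqg : ∀ x : G ⧸ Γ, q (g • x) = q x := by
    intro x
    apply Quotient.sound
    show MulAction.orbitRel (Subgroup.zpowers g) (G ⧸ Γ) (g • x) x
    rw [MulAction.orbitRel_apply]
    exact MulAction.mem_orbit x (⟨g, Subgroup.mem_zpowers g⟩ : Subgroup.zpowers g)
  have hle : LinearMap.range ι ≤ LinearMap.ker (pull Γ k g - LinearMap.id) := by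
    rintro _ ⟨F, rfl⟩
    rw [LinearMap.mem_ker]
    funext x
    show F (q (g • x)) - F (q x) = 0
    rw [hqg, sub_self]
  calc Fintype.card (MulAction.orbitRel.Quotient (Subgroup.zpowers g) (G ⧸ Γ))
      = finrank k (MulAction.orbitRel.Quotient (Subgroup.zpowers g) (G ⧸ Γ) → k) :=
        (Module.finrank_fintype_fun_eq_card k).symm
    _ = finrank k (LinearMap.range ι) := (LinearMap.finrank_range_of_inj hι).symm
    _ ≤ finrank k (LinearMap.ker (pull Γ k g - LinearMap.id)) := Submodule.finrank_mono hle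

/-- All coboundaries `g^* f - f` lie in `cobSp A ⊔ cobSp B` if `A`, `B` generate `G`. -/
theorem pull_sub_mem_sup_cobSp {A B : G} (hgen : Subgroup.closure {A, B} = ⊤)
    (g : G) (f : (G ⧸ Γ) → k) :
    pull Γ k g f - f ∈ cobSp Γ k A ⊔ cobSp Γ k B := by
  have hg : g ∈ Subgroup.closure {A, B} := by rw [hgen]; trivial
  induction hg using Subgroup.closure_induction generalizing f with
  | mem x hx =>
    rcases hx with rfl | hx
    · exact Submodule.mem_sup_left (pull_sub_mem_cobSp _ f)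
    · rw [Set.mem_singleton_iff] at hx
      subst hx
      exact Submodule.mem_sup_right (pull_sub_mem_cobSp _ f)
  | one => rw [pull_one, sub_self]; exact Submodule.zero_mem _
  | mul x y _ _ hx hy =>
    have h : pull Γ k (x * y) f - f
        = (pull Γ k y (pull Γ k x f) - pull Γ k x f) + (pull Γ k x f - f) := by
      rw [pull_mul]; abel
    rw [h]
    exact Submodule.add_mem _ (hy _) (hx _)
  | inv x _ hx =>
    have h : pull Γ k x⁻¹ f - f = -(pull Γ k x (pull Γ k x⁻¹ f) - pull Γ k x⁻¹ f) := by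
      rw [← pull_mul, inv_mul_cancel, pull_one]; abel
    rw [h]
    exact Submodule.neg_mem _ (hx _)

/-- (D2) `#X ≤ dim (cobSp A ⊔ cobSp B) + 1` if `A`, `B` generate `G`. -/
theorem card_le_finrank_sup_cobSp_add_one {A B : G} (hgen : Subgroup.closure {A, B} = ⊤) :
    Nat.card (G ⧸ Γ) ≤ finrank k ↥(cobSp Γ k A ⊔ cobSp Γ k B) + 1 := by
  classical
  have : Fintype (G ⧸ Γ) := Fintype.ofFinite _
  set R := cobSp Γ k A ⊔ cobSp Γ k B with hR
  let aug : ((G ⧸ Γ) → k) →ₗ[k] k := ∑ x : G ⧸ Γ, LinearMap.proj x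
  have haug : ∀ f : (G ⧸ Γ) → k, aug f = ∑ x, f x := by
    intro f
    simp [aug]
  have hker : LinearMap.ker aug ≤ R := by
    intro f hf
    rw [LinearMap.mem_ker, haug] at hf
    set e : (G ⧸ Γ) → k := Pi.single (QuotientGroup.mk 1) 1 with he
    have hdec : f = ∑ x : G ⧸ Γ, f x • (pull Γ k (sec Γ x)⁻¹ e - e) := by
      funext y
      have h1 : ∀ x : G ⧸ Γ, (pull Γ k (sec Γ x)⁻¹ e) y = if x = y then 1 else 0 := by
        intro x
        rw [pull_apply, he, Pi.single_apply]
        have hiff : ((sec Γ x)⁻¹ • y = (QuotientGroup.mk 1 : G ⧸ Γ)) ↔ x = y := by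
          rw [inv_smul_eq_iff]
          have hx : sec Γ x • (QuotientGroup.mk 1 : G ⧸ Γ) = x := by
            show (QuotientGroup.mk (sec Γ x * 1) : G ⧸ Γ) = x
            rw [mul_one, mk_sec]
          rw [hx, eq_comm]
        simp only [hiff]
      simp only [Finset.sum_apply, Pi.smul_apply, Pi.sub_apply, smul_eq_mul, mul_sub, h1,
        Finset.sum_sub_distrib, mul_ite, mul_one, mul_zero, Finset.sum_ite_eq',
        Finset.mem_univ, if_true, ← Finset.sum_mul, hf, zero_mul, sub_zero]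
    rw [hdec]
    exact Submodule.sum_mem _ fun x _ =>
      Submodule.smul_mem _ _ (pull_sub_mem_sup_cobSp hgen _ _)
  have hrn := LinearMap.finrank_range_add_finrank_ker aug
  rw [Module.finrank_fintype_fun_eq_card] at hrn
  have h1 : finrank k (LinearMap.range aug) ≤ 1 := by
    have := Submodule.finrank_le (LinearMap.range aug)
    rwa [Module.finrank_self] at this
  have h2 : finrank k (LinearMap.ker aug) ≤ finrank k R := Submodule.finrank_mono hker
  rw [Nat.card_eq_fintype_card]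
  omega

end Dim

section Main

variable {G : Type*} [Group G] {Γ : Subgroup G} [Finite (G ⧸ Γ)] {k : Type*} [Field k]

/-- The cocycle of `φ` at `g` is a coboundary of `g` if `φ` kills all elements of `Γ` of the
form `h⁻¹ * g ^ n * h`. -/
theorem cocL_mem_cobSp {g : G} {φ : Additive Γ →+ k}
    (hφ : ∀ (n : ℕ) (h : G) (hm : h⁻¹ * g ^ n * h ∈ Γ), φ (Additive.ofMul ⟨_, hm⟩) = 0) :
    cocL Γ k g φ ∈ cobSp Γ k g := by
  refine mem_cobSp_of_orbit_sums g _ fun x s hs => ?_
  have h1 : psum g (cocL Γ k g φ) x s = cocL Γ k (g ^ s) φ x := by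
    rw [cocL_pow, normOp_apply]
    simp only [psum, Finset.sum_apply, pull_apply]
  rw [h1, cocL_apply]
  have hmem : (sec Γ x)⁻¹ * g ^ s * sec Γ x ∈ Γ := by
    rw [← coe_cocEl_of_smul_eq hs]
    exact (cocEl Γ (g ^ s) x).2
  have hEq : cocEl Γ (g ^ s) x = ⟨_, hmem⟩ := Subtype.ext (coe_cocEl_of_smul_eq hs)
  rw [hEq]
  exact hφ s (sec Γ x) hmem

/-- The subspace of `V × V` containing the image of `Psi` on the homomorphisms in question. -/
noncomputable def ZspC (Γ : Subgroup G) (k : Type*) [Field k] (S T : G) :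
    Submodule k (((G ⧸ Γ) → k) × ((G ⧸ Γ) → k)) :=
  Submodule.comap (LinearMap.fst k _ _) (cobSp Γ k S)
    ⊓ (Submodule.comap (LinearMap.snd k _ _) (cobSp Γ k T)
      ⊓ Submodule.comap ((pull Γ k T).comp (LinearMap.fst k _ _) + LinearMap.snd k _ _)
          (cobSp Γ k (S * T)))

theorem mem_ZspC {S T : G} {a b : (G ⧸ Γ) → k} :
    (a, b) ∈ ZspC Γ k S T ↔ a ∈ cobSp Γ k S ∧ b ∈ cobSp Γ k T
      ∧ pull Γ k T a + b ∈ cobSp Γ k (S * T) := Iff.rfl

theorem finrank_ZspC_le (S T : G) :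
    finrank k (ZspC Γ k S T) ≤ finrank k (cobSp Γ k S)
      + finrank k ↥(cobSp Γ k T ⊓ cobSp Γ k (S * T)) := by
  let π : ZspC Γ k S T →ₗ[k] ((G ⧸ Γ) → k) :=
    (LinearMap.fst k _ _).comp (ZspC Γ k S T).subtype
  have hr := LinearMap.finrank_range_add_finrank_ker π
  have hπr : LinearMap.range π ≤ cobSp Γ k S := by
    rintro _ ⟨⟨⟨a, b⟩, hab⟩, rfl⟩
    exact (mem_ZspC.mp hab).1
  let σ : LinearMap.ker π →ₗ[k] ((G ⧸ Γ) → k) :=
    (LinearMap.snd k _ _).comp ((ZspC Γ k S T).subtype.comp (LinearMap.ker π).subtype)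
  have hσ : Function.Injective σ := by
    rw [injective_iff_map_eq_zero]
    rintro ⟨⟨⟨a, b⟩, hab⟩, h0⟩ hb
    have ha : a = 0 := LinearMap.mem_ker.mp h0
    have hb' : b = 0 := hb
    apply Subtype.ext
    apply Subtype.ext
    exact Prod.ext ha hb'
  have hσr : LinearMap.range σ ≤ cobSp Γ k T ⊓ cobSp Γ k (S * T) := by
    rintro _ ⟨⟨⟨⟨a, b⟩, hab⟩, h0⟩, rfl⟩
    have ha : a = 0 := LinearMap.mem_ker.mp h0
    obtain ⟨-, h2, h3⟩ := mem_ZspC.mp hab
    refine ⟨h2, ?_⟩
    rw [ha, map_zero, zero_add] at h3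
    exact h3
  have h1 : finrank k (LinearMap.range π) ≤ finrank k (cobSp Γ k S) :=
    Submodule.finrank_mono hπr
  have h2 : finrank k (LinearMap.ker π) ≤ finrank k ↥(cobSp Γ k T ⊓ cobSp Γ k (S * T)) := by
    rw [← LinearMap.finrank_range_of_inj hσ]
    exact Submodule.finrank_mono hσr
  omega

/-- **Generic upper bound over an arbitrary field** for the dimension of a space of
homomorphisms killing the conjugates (inside `Γ`) of the powers of `S`, `T` and `S * T`. -/
theorem h9_generic_bound (Γ : Subgroup G) [Finite (G ⧸ Γ)]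
    (S T : G) (hgen : Subgroup.closure {S, T} = ⊤)
    (k : Type*) [Field k]
    (P : Submodule k (Additive Γ →+ k))
    (hPS : ∀ φ ∈ P, ∀ (n : ℕ) (g : G) (h : g⁻¹ * S ^ n * g ∈ Γ),
      φ (Additive.ofMul ⟨_, h⟩) = 0)
    (hPT : ∀ φ ∈ P, ∀ (n : ℕ) (g : G) (h : g⁻¹ * T ^ n * g ∈ Γ),
      φ (Additive.ofMul ⟨_, h⟩) = 0)
    (hPU : ∀ φ ∈ P, ∀ (n : ℕ) (g : G) (h : g⁻¹ * (S * T) ^ n * g ∈ Γ),
      φ (Additive.ofMul ⟨_, h⟩) = 0) :
    FiniteDimensional k P ∧
    finrank k P
      + Nat.card (MulAction.orbitRel.Quotient (Subgroup.zpowers S) (G ⧸ Γ))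
      + Nat.card (MulAction.orbitRel.Quotient (Subgroup.zpowers (S * T)) (G ⧸ Γ))
      + Nat.card (MulAction.orbitRel.Quotient (Subgroup.zpowers T) (G ⧸ Γ))
      ≤ Nat.card (G ⧸ Γ) + 2 := by
  classical
  have hfd : FiniteDimensional k (Additive Γ →+ k) := finiteDimensional_hom hgen
  refine ⟨inferInstance, ?_⟩
  have : Fintype (G ⧸ Γ) := Fintype.ofFinite _
  have hgen' : Subgroup.closure {T, S * T} = ⊤ := by
    rw [← top_le_iff, ← hgen, Subgroup.closure_le]
    rintro x (rfl | hx)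
    · have hT : T ∈ Subgroup.closure {T, x * T} := Subgroup.subset_closure (by simp)
      have hST : x * T ∈ Subgroup.closure {T, x * T} := Subgroup.subset_closure (by simp)
      have := Subgroup.mul_mem _ hST (Subgroup.inv_mem _ hT)
      simpa using this
    · rw [Set.mem_singleton_iff] at hx
      subst hx
      exact Subgroup.subset_closure (by simp)
  let j₀ : (Additive Γ →+ k) →ₗ[k] (((G ⧸ Γ) → k) × ((G ⧸ Γ) → k)) :=
    (Psi Γ k S T).comp (LinearMap.inl k (Additive Γ →+ k) ((G ⧸ Γ) → k))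
  let δ : ((G ⧸ Γ) → k) →ₗ[k] (((G ⧸ Γ) → k) × ((G ⧸ Γ) → k)) :=
    (Psi Γ k S T).comp (LinearMap.inr k (Additive Γ →+ k) ((G ⧸ Γ) → k))
  have hj₀ : ∀ φ, j₀ φ = Psi Γ k S T (φ, 0) := fun φ => rfl
  have hδ : ∀ f, δ f = Psi Γ k S T (0, f) := fun f => rfl
  have hinj : Function.Injective j₀ := by
    rw [injective_iff_map_eq_zero]
    intro φ hφ
    exact (ker_Psi hgen hφ).1
  -- membership in `ZspC`
  have hmem : ∀ φ ∈ P, ∀ f : (G ⧸ Γ) → k, Psi Γ k S T (φ, f) ∈ ZspC Γ k S T := by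
    intro φ hφ f
    rw [Psi_apply, mem_ZspC]
    refine ⟨?_, ?_, ?_⟩
    · exact Submodule.add_mem _ (cocL_mem_cobSp (hPS φ hφ)) (pull_sub_mem_cobSp S f)
    · exact Submodule.add_mem _ (cocL_mem_cobSp (hPT φ hφ)) (pull_sub_mem_cobSp T f)
    · have h : pull Γ k T (cocL Γ k S φ + (pull Γ k S f - f))
          + (cocL Γ k T φ + (pull Γ k T f - f))
          = cocL Γ k (S * T) φ + (pull Γ k (S * T) f - f) := by
        rw [cocL_mul, pull_mul, map_add, map_sub]; abel
      rw [h]
      exact Submodule.add_mem _ (cocL_mem_cobSp (hPU φ hφ)) (pull_sub_mem_cobSp (S * T) f)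
  -- (1) `P` and its image
  have e1 : finrank k P = finrank k (P.map j₀) :=
    LinearEquiv.finrank_eq (Submodule.equivMapOfInjective j₀ hinj P)
  -- (2) the coboundaries
  have e2 : Nat.card (G ⧸ Γ) ≤ finrank k (LinearMap.range δ) + 1 := by
    have hrn := LinearMap.finrank_range_add_finrank_ker δ
    rw [Module.finrank_fintype_fun_eq_card, ← Nat.card_eq_fintype_card] at hrn
    have hker : finrank k (LinearMap.ker δ) ≤ 1 := by
      let ev : LinearMap.ker δ →ₗ[k] k :=
        (LinearMap.proj (QuotientGroup.mk 1 : G ⧸ Γ)).comp (LinearMap.ker δ).subtype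
      have hev : Function.Injective ev := by
        rw [injective_iff_map_eq_zero]
        rintro ⟨f, hf⟩ h0
        have h0' : f (QuotientGroup.mk 1) = 0 := h0
        have hf' : Psi Γ k S T (0, f) = 0 := LinearMap.mem_ker.mp hf
        obtain ⟨-, h2⟩ := ker_Psi hgen hf'
        apply Subtype.ext
        exact funext fun x => (h2 x).trans h0'
      calc finrank k (LinearMap.ker δ) ≤ finrank k k :=
            LinearMap.finrank_le_finrank_of_injective hev
        _ = 1 := Module.finrank_self k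
    omega
  -- (3) trivial intersection
  have e3 : P.map j₀ ⊓ LinearMap.range δ = ⊥ := by
    rw [eq_bot_iff]
    rintro x ⟨⟨φ, -, hφx⟩, ⟨f, hfx⟩⟩
    have h0 : Psi Γ k S T (φ, -f) = 0 := by
      have h1 : ((φ, -f) : (Additive Γ →+ k) × ((G ⧸ Γ) → k)) = (φ, 0) - (0, f) := by
        simp
      rw [h1, map_sub, ← hj₀, ← hδ, hφx, hfx, sub_self]
    have hφ0 : φ = 0 := (ker_Psi hgen h0).1
    rw [Submodule.mem_bot, ← hφx, hφ0, map_zero]
  -- (4) containment
  have e4 : P.map j₀ ⊔ LinearMap.range δ ≤ ZspC Γ k S T := by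
    refine sup_le ?_ ?_
    · rintro _ ⟨φ, hφ, rfl⟩
      exact hmem φ hφ 0
    · rintro _ ⟨f, rfl⟩
      exact hmem 0 P.zero_mem f
  have e5 := Submodule.finrank_sup_add_finrank_inf_eq (P.map j₀) (LinearMap.range δ)
  rw [e3, finrank_bot, add_zero] at e5
  have h2 : finrank k ↥(P.map j₀ ⊔ LinearMap.range δ) ≤ finrank k (ZspC Γ k S T) :=
    Submodule.finrank_mono e4
  have h2' := finrank_ZspC_le (Γ := Γ) (k := k) S T
  have h3 := Submodule.finrank_sup_add_finrank_inf_eq (cobSp Γ k T) (cobSp Γ k (S * T))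
  have h4 := card_le_finrank_sup_cobSp_add_one (Γ := Γ) (k := k) hgen'
  have h5 := finrank_cobSp_add_le (Γ := Γ) (k := k) S
  have h6 := finrank_cobSp_add_le (Γ := Γ) (k := k) T
  have h7 := finrank_cobSp_add_le (Γ := Γ) (k := k) (S * T)
  omega

end Main

end Fermat.Agent.S16x.Low.H9
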